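import Fermat.Agent.Corollaries.Leech.Steiner

/-!
# The extended Golay code is optimal

A binary code of length `24` with minimal distance `8` has at most `4096` words, and the Golay code
attains this bound: `A(24, 8) = 4096` (sphere packing for the punctured code).
-/

set_option autoImplicit false

open Finset

namespace Fermat.Agent.Cor.Leech

/-- the characteristic function of a set of coordinates -/
def indic (S : Finset (Fin 23)) (i : Fin 23) : ZMod 2 := if i ∈ S then 1 else 0

theorem indic_inj {S T : Finset (Fin 23)} (h : ∀ i, indic S i = indic T i) : S = T := by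
  ext i
  have h1 := h i
  unfold indic at h1
  by_cases hS : i ∈ S <;> by_cases hT : i ∈ T <;> simp_all

theorem wt_sub_le (c d : Fin 24 → ZMod 2) :
    wt (c - d) ≤ #{i : Fin 23 | c i.castSucc ≠ d i.castSucc} + 1 := by
  rw [wt, Finset.card_filter, Finset.card_filter, Fin.sum_univ_castSucc]
  refine Nat.add_le_add (sum_le_sum fun i _ => ?_) ?_
  · rw [Pi.sub_apply]
    by_cases h : c i.castSucc = d i.castSucc
    · simp [h]
    · simp only [h, ne_eq, not_false_eq_true, if_true]
      split_ifs <;> norm_num
  · split_ifs <;> norm_num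

/-- A code of length `24` and minimal distance `8` has at most `4096` words. -/
theorem golay_optimal (C : Finset (Fin 24 → ZMod 2))
    (h : ∀ c ∈ C, ∀ d ∈ C, c ≠ d → 8 ≤ wt (c - d)) : C.card ≤ 4096 := by
  classical
  have h1 : #(C ×ˢ ({S : Finset (Fin 23) | S.card ≤ 3} : Finset (Finset (Fin 23)))) ≤
      #(univ : Finset (Fin 23 → ZMod 2)) := by
    refine card_le_card_of_injOn (fun x i => x.1 i.castSucc + indic x.2 i)
      (fun _ _ => mem_coe.2 (mem_univ _)) ?_
    rintro ⟨c, S⟩ hc ⟨d, T⟩ hd heq
    rw [mem_coe, mem_product, mem_filter] at hc hd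
    have h2 : ∀ i : Fin 23, c i.castSucc + indic S i = d i.castSucc + indic T i := congrFun heq
    have h3 : ({i : Fin 23 | c i.castSucc ≠ d i.castSucc} : Finset (Fin 23)) ⊆ S ∪ T := by
      intro i hi
      rw [mem_filter] at hi
      by_contra hcon
      rw [mem_union, not_or] at hcon
      have h4 := h2 i
      rw [indic, indic, if_neg hcon.1, if_neg hcon.2, add_zero, add_zero] at h4
      exact hi.2 h4
    have h4 : #{i : Fin 23 | c i.castSucc ≠ d i.castSucc} ≤ 6 := by
      refine (card_le_card h3).trans ((card_union_le _ _).trans ?_)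
      have := hc.2.2
      have := hd.2.2
      simp only at *
      omega
    have h5 : c = d := by
      by_contra hne
      have h6 := h c hc.1 d hd.1 hne
      have h7 := wt_sub_le c d
      omega
    subst h5
    rw [indic_inj fun i => add_left_cancel (h2 i)]
  rw [card_product, card_ball] at h1
  have h2 : #(univ : Finset (Fin 23 → ZMod 2)) = 2048 * 4096 := by
    rw [card_univ, Fintype.card_fun, ZMod.card, Fintype.card_fin]
    norm_num
  rw [h2] at h1
  omega

open Classical in
/-- **The extended Golay code is optimal**: `A(24, 8) = 4096`. -/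
theorem isGreatest_code : IsGreatest {N : ℕ | ∃ C : Finset (Fin 24 → ZMod 2),
    (∀ c ∈ C, ∀ d ∈ C, c ≠ d → 8 ≤ wt (c - d)) ∧ C.card = N} 4096 := by
  constructor
  · refine ⟨({c | c ∈ golay} : Finset (Fin 24 → ZMod 2)), fun c hc d hd hne => ?_, ?_⟩
    · rw [mem_filter] at hc hd
      by_contra hlt
      have h1 := eq_zero_of_wt_lt (golay.sub_mem hc.2 hd.2) (not_le.1 hlt)
      exact hne (sub_eq_zero.1 h1)
    · rw [← card_golay, Nat.card_eq_fintype_card, Fintype.card_subtype]
  · rintro N ⟨C, hC, rfl⟩
    exact golay_optimal C hC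

end Fermat.Agent.Cor.Leech
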