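import Fermat.Agent.Corollaries.Leech.Golay

/-!
# The Leech lattice is even and unimodular

* `golay_selfdual`: the extended Golay code is its own dual;
* `leech_dot`, `leech_even`: `x · y / 8` is an integer and `x · x / 8` is an even integer;
* `leech_selfdual`: the lattice is its own dual for the form `x · y / 8`.
-/

set_option autoImplicit false

namespace Fermat.Agent.Cor.Leech

open Finset

theorem row_dot (i j : Fin 12) : ∑ k, row i k * row j k = 0 := by
  revert i j
  decide +kernel

theorem golay_dot {c d : Fin 24 → ZMod 2} (hc : c ∈ golay) (hd : d ∈ golay) :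
    ∑ i, c i * d i = 0 := by
  rw [golay] at hc hd
  induction hc using Submodule.span_induction with
  | mem c hc =>
    obtain ⟨i, rfl⟩ := hc
    induction hd using Submodule.span_induction with
    | mem d hd =>
      obtain ⟨j, rfl⟩ := hd
      exact row_dot i j
    | zero => simp
    | add d e _ _ h1 h2 =>
      simp only [Pi.add_apply, mul_add, Finset.sum_add_distrib, h1, h2, add_zero]
    | smul a d _ h1 =>
      simp only [Pi.smul_apply, smul_eq_mul, mul_left_comm _ a, ← Finset.mul_sum, h1, mul_zero]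
  | zero => simp
  | add c e _ _ h1 h2 =>
    simp only [Pi.add_apply, add_mul, Finset.sum_add_distrib, h1, h2, add_zero]
  | smul a c _ h1 =>
    simp only [Pi.smul_apply, smul_eq_mul, mul_assoc, ← Finset.mul_sum, h1, mul_zero]

/-- the right half of the generator matrix is its own inverse -/
theorem half_mul (k j : Fin 12) : ∑ i : Fin 12, row k (Fin.natAdd 12 i) * row i (Fin.natAdd 12 j) =
    if k = j then 1 else 0 := by
  revert k j
  decide +kernel

theorem row_left (i j : Fin 12) : row i (Fin.castAdd 12 j) = if i = j then 1 else 0 := by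
  revert i j
  decide +kernel

/-- **the extended Golay code is self-dual** -/
theorem golay_selfdual (c : Fin 24 → ZMod 2) : c ∈ golay ↔ ∀ d ∈ golay, ∑ i, c i * d i = 0 := by
  refine ⟨fun hc d hd => golay_dot hc hd, fun h => ?_⟩
  have hrow : ∀ i, row i ∈ golay := fun i => Submodule.subset_span ⟨i, rfl⟩
  set g : Fin 24 → ZMod 2 := ∑ i : Fin 12, c (Fin.castAdd 12 i) • row i with hg
  have hgm : g ∈ golay := Submodule.sum_mem _ fun i _ => Submodule.smul_mem _ _ (hrow i)
  set e : Fin 24 → ZMod 2 := c - g with he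
  have he1 : ∀ d ∈ golay, ∑ i, e i * d i = 0 := by
    intro d hd
    simp only [he, Pi.sub_apply, sub_mul, Finset.sum_sub_distrib, h d hd, golay_dot hgm hd,
      sub_zero]
  have he2 : ∀ j : Fin 12, e (Fin.castAdd 12 j) = 0 := by
    intro j
    rw [he, Pi.sub_apply, hg, Finset.sum_apply]
    simp only [Pi.smul_apply, smul_eq_mul, row_left, mul_ite, mul_one, mul_zero]
    rw [Finset.sum_ite_eq' Finset.univ j, if_pos (Finset.mem_univ j), sub_self]
  have he3 : ∀ i : Fin 12, ∑ j : Fin 12, row i (Fin.natAdd 12 j) * e (Fin.natAdd 12 j) = 0 := by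
    intro i
    have h1 := he1 (row i) (hrow i)
    rw [Fin.sum_univ_add (a := 12) (b := 12) (fun k => e k * row i k)] at h1
    simp only [he2, zero_mul, Finset.sum_const_zero, zero_add] at h1
    rw [← h1]
    exact Finset.sum_congr rfl fun j _ => mul_comm _ _
  have he4 : ∀ k : Fin 12, e (Fin.natAdd 12 k) = 0 := by
    intro k
    have h1 : ∑ i : Fin 12, row k (Fin.natAdd 12 i) *
        ∑ j : Fin 12, row i (Fin.natAdd 12 j) * e (Fin.natAdd 12 j) = 0 := by
      simp only [he3, mul_zero, Finset.sum_const_zero]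
    simp only [Finset.mul_sum, ← mul_assoc] at h1
    rw [Finset.sum_comm] at h1
    simp only [← Finset.sum_mul, half_mul, ite_mul, one_mul, zero_mul] at h1
    rwa [Finset.sum_ite_eq Finset.univ k, if_pos (Finset.mem_univ k)] at h1
  have he5 : e = 0 := by
    funext k
    refine Fin.addCases (m := 12) (n := 12) (motive := fun k => e k = 0) he2 he4 k
  have : c = g := by rwa [he, sub_eq_zero] at he5
  rw [this]
  exact hgm

/-- the sum of `z` for a vector `x = m + 2 z` of the lattice -/
theorem sum_z {m : ℤ} {x z : Fin 24 → ℤ} (h1 : ∀ i, x i = m + 2 * z i)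
    (h3 : ∑ i, x i ≡ 4 * m [ZMOD 8]) : ∃ k, ∑ i, z i = 2 * m + 4 * k := by
  have h4 : ∑ i, x i = 24 * m + 2 * ∑ i, z i := by
    simp only [h1, Finset.sum_add_distrib, Finset.sum_const, Finset.card_univ, Fintype.card_fin,
      nsmul_eq_mul, ← Finset.mul_sum]
    norm_num
  rw [h4] at h3
  have h5 := h3.dvd
  obtain ⟨k, hk⟩ := h5
  exact ⟨-k - 3 * m, by linarith⟩

theorem leech_dot {x y : Fin 24 → ℤ} (hx : x ∈ leech) (hy : y ∈ leech) :
    8 ∣ ∑ i, x i * y i := by
  obtain ⟨m, z, h1, h2, h3⟩ := hx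
  obtain ⟨m', z', h1', h2', h3'⟩ := hy
  obtain ⟨k, hk⟩ := sum_z h1 h3
  obtain ⟨k', hk'⟩ := sum_z h1' h3'
  have h4 : (2 : ℤ) ∣ ∑ i, z i * z' i := by
    have h5 := golay_dot h2 h2'
    have h6 : ((∑ i, z i * z' i : ℤ) : ZMod 2) = 0 := by
      push_cast
      exact h5
    have h7 := (ZMod.intCast_zmod_eq_zero_iff_dvd _ 2).mp h6
    exact_mod_cast h7
  obtain ⟨l, hl⟩ := h4
  have h5 : ∑ i, x i * y i = 24 * (m * m') + 2 * m * ∑ i, z' i + 2 * m' * ∑ i, z i +
      4 * ∑ i, z i * z' i := by
    have h6 : ∀ i, x i * y i = m * m' + 2 * m * z' i + 2 * m' * z i + 4 * (z i * z' i) := by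
      intro i
      rw [h1, h1']
      ring
    simp only [h6, Finset.sum_add_distrib, Finset.sum_const, Finset.card_univ, Fintype.card_fin,
      nsmul_eq_mul, ← Finset.mul_sum]
    norm_num
  rw [h5, hk, hk', hl]
  exact ⟨3 * (m * m') + m * m' + m * k' + m' * k + l, by ring⟩

theorem leech_even {x : Fin 24 → ℤ} (hx : x ∈ leech) : 16 ∣ ∑ i, x i ^ 2 := by
  obtain ⟨m, z, h1, h2, h3⟩ := hx
  obtain ⟨k, hk⟩ := sum_z h1 h3
  have h4 : (4 : ℤ) ∣ ∑ i, z i ^ 2 := by
    have h6 : ∀ i, ∃ q : ℤ, z i ^ 2 = 4 * q + if (z i : ZMod 2) ≠ 0 then 1 else 0 := by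
      intro i
      rcases Int.even_or_odd' (z i) with ⟨a, ha | ha⟩
      · refine ⟨a ^ 2, ?_⟩
        have h7 : ((z i : ℤ) : ZMod 2) = 0 := by
          rw [ZMod.intCast_zmod_eq_zero_iff_dvd, ha]
          exact ⟨a, by push_cast; ring⟩
        rw [if_neg (by simpa using h7), ha]
        ring
      · refine ⟨a ^ 2 + a, ?_⟩
        have h7 : ((z i : ℤ) : ZMod 2) ≠ 0 := by
          rw [Ne, ZMod.intCast_zmod_eq_zero_iff_dvd, ha]
          rintro ⟨b, hb⟩
          push_cast at hb
          omega
        rw [if_pos h7, ha]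
        ring
    choose q hq using h6
    have h8 : ∑ i, z i ^ 2 = 4 * ∑ i, q i + (wt (fun i => (z i : ZMod 2)) : ℤ) := by
      rw [wt, Finset.card_filter, Nat.cast_sum, Finset.mul_sum, ← Finset.sum_add_distrib]
      refine Finset.sum_congr rfl fun i _ => ?_
      rw [hq i]
      congr 1
      split_ifs <;> simp
    obtain ⟨l, hl⟩ := four_dvd_wt h2
    rw [h8, hl]
    exact ⟨∑ i, q i + l, by push_cast; ring⟩
  obtain ⟨l, hl⟩ := h4
  have h5 : ∑ i, x i ^ 2 = 24 * m ^ 2 + 4 * m * ∑ i, z i + 4 * ∑ i, z i ^ 2 := by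
    have h6 : ∀ i, x i ^ 2 = m ^ 2 + 4 * m * z i + 4 * z i ^ 2 := by
      intro i
      rw [h1]
      ring
    simp only [h6, Finset.sum_add_distrib, Finset.sum_const, Finset.card_univ, Fintype.card_fin,
      nsmul_eq_mul, ← Finset.mul_sum]
    norm_num
  rw [h5, hk, hl]
  exact ⟨2 * m ^ 2 + m * k + l, by ring⟩

/-- the vectors `m = 0` -/
theorem mem_leech_of_even {z : Fin 24 → ℤ} (hz : (fun i => (z i : ZMod 2)) ∈ golay)
    (hs : 4 ∣ ∑ i, z i) : (fun i => 2 * z i) ∈ leech := by
  refine ⟨0, z, fun i => by ring, hz, ?_⟩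
  rw [← Finset.mul_sum]
  obtain ⟨k, hk⟩ := hs
  rw [hk]
  exact Int.modEq_iff_dvd.mpr ⟨-k, by ring⟩

theorem two_mul_mem {z : Fin 24 → ℤ} (hs : 2 ∣ ∑ i, z i) :
    (fun i => 4 * z i) ∈ leech := by
  have h := mem_leech_of_even (z := fun i => 2 * z i) (by
    have h1 : (fun i => ((2 * z i : ℤ) : ZMod 2)) = 0 := by
      funext i
      push_cast
      rw [show (2 : ZMod 2) = 0 from rfl, zero_mul]
      rfl
    rw [h1]
    exact golay.zero_mem) (by
    rw [← Finset.mul_sum]
    obtain ⟨k, hk⟩ := hs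
    exact ⟨k, by rw [hk]; ring⟩)
  have h2 : (fun i => 4 * z i) = fun i => 2 * (2 * z i) := by
    funext i
    ring
  rw [h2]
  exact h

/-- the vector `(-3, 1, …, 1)` -/
theorem special_mem : (fun i : Fin 24 => if i = 0 then (-3 : ℤ) else 1) ∈ leech := by
  refine ⟨1, fun i => if i = 0 then -2 else 0, fun i => by
    show (if i = 0 then (-3 : ℤ) else 1) = 1 + 2 * (if i = 0 then -2 else 0)
    split_ifs <;> norm_num, ?_, ?_⟩
  · have h1 : (fun i : Fin 24 => ((if i = 0 then (-2 : ℤ) else 0 : ℤ) : ZMod 2)) = 0 := by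
      funext i
      split_ifs
      · rfl
      · rfl
    rw [h1]
    exact golay.zero_mem
  · decide +kernel

/-- **the Leech lattice is unimodular** -/
theorem leech_selfdual (x : Fin 24 → ℚ) : (∃ y ∈ leech, x = fun i => (y i : ℚ)) ↔
    ∀ y ∈ leech, ∃ k : ℤ, ∑ i, x i * y i = 8 * k := by
  constructor
  · rintro ⟨y, hy, rfl⟩ y' hy'
    obtain ⟨k, hk⟩ := leech_dot hy hy'
    refine ⟨k, ?_⟩
    have h1 : (∑ i, (y i : ℚ) * (y' i : ℚ)) = ((∑ i, y i * y' i : ℤ) : ℚ) := by push_cast; rfl
    rw [h1, hk]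
    push_cast
    ring
  · intro h
    -- the coordinates are integers
    have hint : ∀ i, ∃ a : ℤ, x i = a := by
      intro i
      obtain ⟨k, hk⟩ := h _ (two_mul_mem (z := Pi.single i 2) (by
        rw [Finset.sum_pi_single']
        simp))
      refine ⟨k, ?_⟩
      have h1 : ∀ j, x j * ((4 * (Pi.single i 2 : Fin 24 → ℤ) j : ℤ) : ℚ) =
          if j = i then x i * 8 else 0 := by
        intro j
        by_cases hj : j = i
        · subst hj
          rw [Pi.single_eq_same, if_pos rfl]
          norm_num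
        · rw [Pi.single_eq_of_ne hj, if_neg hj]
          simp
      simp only [h1] at hk
      rw [Finset.sum_ite_eq' Finset.univ i, if_pos (Finset.mem_univ i)] at hk
      linarith
    choose y hy using hint
    have hyx : x = fun i => (y i : ℚ) := funext hy
    have hZ : ∀ w ∈ leech, 8 ∣ ∑ i, y i * w i := by
      intro w hw
      obtain ⟨k, hk⟩ := h w hw
      refine ⟨k, ?_⟩
      have h1 : ((∑ i, y i * w i : ℤ) : ℚ) = ((8 * k : ℤ) : ℚ) := by
        push_cast
        rw [← hk, hyx]
      exact_mod_cast h1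
    -- they are congruent modulo two
    have hpar : ∀ i, 2 ∣ y i - y 0 := by
      intro i
      obtain ⟨k, hk⟩ := hZ _ (two_mul_mem (z := Pi.single i 1 - Pi.single 0 1) (by
        simp only [Pi.sub_apply, Finset.sum_sub_distrib]
        rw [Finset.sum_pi_single', Finset.sum_pi_single']
        simp))
      refine ⟨k, ?_⟩
      have h1 : ∑ j, y j * (4 * (Pi.single i 1 - Pi.single 0 1 : Fin 24 → ℤ) j) =
          4 * (y i - y 0) := by
        have h2 : ∀ j, y j * (4 * (Pi.single i 1 - Pi.single 0 1 : Fin 24 → ℤ) j) =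
            (if j = i then 4 * y i else 0) - if j = 0 then 4 * y 0 else 0 := by
          intro j
          rw [Pi.sub_apply, Pi.single_apply, Pi.single_apply]
          split_ifs with h3 h4 h4
          · subst h3; rw [h4]; ring
          · subst h3; ring
          · subst h4; ring
          · ring
        simp only [h2, Finset.sum_sub_distrib]
        rw [Finset.sum_ite_eq' Finset.univ i, Finset.sum_ite_eq' Finset.univ 0,
          if_pos (Finset.mem_univ _), if_pos (Finset.mem_univ _)]
        ring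
      rw [h1] at hk
      linarith
    choose z hz using hpar
    refine ⟨y, ⟨y 0, z, fun i => by linarith [hz i], ?_, ?_⟩, hyx⟩
    · rw [golay_selfdual]
      intro d hd
      -- the vector `2 χ_C`
      let w : Fin 24 → ℤ := fun i => if d i ≠ 0 then 1 else 0
      have hwd : (fun i => (w i : ZMod 2)) = d := by
        funext i
        have h3 : ∀ a : ZMod 2, ((if a ≠ 0 then (1 : ℤ) else 0 : ℤ) : ZMod 2) = a := by decide
        exact h3 (d i)
      have hw4 : 4 ∣ ∑ i, w i := by
        obtain ⟨l, hl⟩ := four_dvd_wt hd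
        refine ⟨l, ?_⟩
        have h4 : ∑ i, w i = (wt d : ℤ) := by
          rw [wt, Finset.card_filter, Nat.cast_sum]
          refine Finset.sum_congr rfl fun i _ => ?_
          simp only [w]
          split_ifs <;> simp
        rw [h4, hl]
        push_cast
        ring
      obtain ⟨k, hk⟩ := hZ _ (mem_leech_of_even (z := w) (by rw [hwd]; exact hd) hw4)
      obtain ⟨l, hl⟩ := hw4
      have h5 : ∑ i, y i * (2 * w i) = 2 * y 0 * ∑ i, w i + 4 * ∑ i, z i * w i := by
        rw [Finset.mul_sum, Finset.mul_sum, ← Finset.sum_add_distrib]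
        refine Finset.sum_congr rfl fun i _ => ?_
        have h6 : y i = y 0 + 2 * z i := by linarith [hz i]
        rw [h6]
        ring
      rw [h5, hl] at hk
      have h7 : (2 : ℤ) ∣ ∑ i, z i * w i := ⟨k - y 0 * l, by linarith⟩
      have h8 : ((∑ i, z i * w i : ℤ) : ZMod 2) = 0 :=
        (ZMod.intCast_zmod_eq_zero_iff_dvd _ 2).mpr (by exact_mod_cast h7)
      push_cast at h8
      rw [← h8]
      refine Finset.sum_congr rfl fun i _ => ?_
      rw [← congrFun hwd i]
    · obtain ⟨k, hk⟩ := hZ _ special_mem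
      have h9 : ∑ i : Fin 24, y i * (if i = 0 then (-3 : ℤ) else 1) = ∑ i, y i - 4 * y 0 := by
        have h10 : ∀ i : Fin 24, y i * (if i = 0 then (-3 : ℤ) else 1) =
            y i - if i = 0 then 4 * y 0 else 0 := by
          intro i
          split_ifs with h11
          · rw [h11]; ring
          · ring
        simp only [h10, Finset.sum_sub_distrib]
        rw [Finset.sum_ite_eq' Finset.univ 0, if_pos (Finset.mem_univ _)]
      rw [h9] at hk
      exact Int.modEq_iff_dvd.mpr ⟨-k, by linarith⟩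

end Fermat.Agent.Cor.Leech
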