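import Mathlib

/-!
# Orthogonal frames in `ℤ²⁴` and the group `L / 2 L`

* `frame_card`: non-zero vectors of `ℤ²⁴` which are pairwise equal, opposite or orthogonal are at
  most `48` in number;
* `card_quot`: for a subgroup `L` of `ℤ²⁴` the group `L / 2 L` has at most `2 ^ 24` elements.
-/

set_option autoImplicit false

namespace Fermat.Agent.Cor.Leech

open Finset

theorem linearIndependent_of_orthogonal {ι : Type*} [Fintype ι] {v : ι → Fin 24 → ℚ}
    (h0 : ∀ a, v a ≠ 0) (h : ∀ a b, a ≠ b → ∑ i, v a i * v b i = 0) :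
    LinearIndependent ℚ v := by
  rw [Fintype.linearIndependent_iff]
  intro c hc b
  have h1 : ∑ i, (∑ a, c a • v a) i * v b i = 0 := by
    rw [hc]
    simp
  have h2 : ∑ i, (∑ a, c a • v a) i * v b i = ∑ a, c a * ∑ i, v a i * v b i := by
    simp only [Finset.sum_apply, Pi.smul_apply, smul_eq_mul, Finset.sum_mul, Finset.mul_sum,
      mul_assoc]
    exact Finset.sum_comm
  rw [h2, Finset.sum_eq_single b (fun a _ hab => by rw [h a b hab, mul_zero])
    (fun h' => absurd (Finset.mem_univ b) h')] at h1
  rcases mul_eq_zero.mp h1 with h3 | h3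
  · exact h3
  · exfalso
    apply h0 b
    have h4 : ∀ i ∈ univ, 0 ≤ v b i * v b i := fun i _ => mul_self_nonneg _
    funext i
    have h5 := (Finset.sum_eq_zero_iff_of_nonneg h4).mp h3 i (Finset.mem_univ i)
    exact mul_self_eq_zero.mp h5

/-- **non-zero vectors of `ℤ²⁴` which are pairwise equal, opposite or orthogonal**: at most `48` -/
theorem frame_card (S : Finset (Fin 24 → ℤ)) (h0 : 0 ∉ S)
    (h : ∀ x ∈ S, ∀ y ∈ S, x = y ∨ x = -y ∨ ∑ i, x i * y i = 0) : S.card ≤ 48 := by
  classical
  let f : (Fin 24 → ℤ) → Finset (Fin 24 → ℤ) := fun x => {x, -x}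
  have hf : ∀ x y, f x = f y → x = y ∨ x = -y := by
    intro x y hxy
    have h1 : x ∈ f y := hxy ▸ (Finset.mem_insert_self x {-x})
    simpa [f] using h1
  have h1 : S.card ≤ 2 * (S.image f).card := by
    refine Finset.card_le_mul_card_image S 2 fun a ha => ?_
    obtain ⟨y, -, rfl⟩ := Finset.mem_image.mp ha
    refine (Finset.card_le_card (t := f y) fun x hx => ?_).trans Finset.card_le_two
    have h2 := hf x y (Finset.mem_filter.mp hx).2
    simpa [f] using h2
  have h2 : (S.image f).card ≤ 24 := by
    have h3 : ∀ a : {a // a ∈ S.image f}, ∃ x ∈ S, f x = a := fun a => Finset.mem_image.mp a.2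
    choose g hgS hg using h3
    have hli : LinearIndependent ℚ (fun a : {a // a ∈ S.image f} => fun i => (g a i : ℚ)) := by
      refine linearIndependent_of_orthogonal (fun a ha => h0 ?_) (fun a b hab => ?_)
      · have h4 : g a = 0 := by
          funext i
          have := congrFun ha i
          simpa using this
        rw [← h4]
        exact hgS a
      · have h5 : f (g a) ≠ f (g b) := by
          rw [hg, hg]
          exact fun h' => hab (Subtype.ext h')
        rcases h (g a) (hgS a) (g b) (hgS b) with h6 | h6 | h6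
        · exact absurd (congrArg f h6) h5
        · exfalso
          apply h5
          rw [h6]
          simp only [f, neg_neg]
          exact Finset.pair_comm _ _
        · exact_mod_cast h6
    have h7 := hli.fintype_card_le_finrank
    rwa [Fintype.card_coe, Module.finrank_fin_fun] at h7
  omega

/-- **the group `L / 2 L`** for a subgroup `L` of `ℤ²⁴` -/
theorem card_quot (L : AddSubgroup (Fin 24 → ℤ)) :
    Finite (L ⧸ (nsmulAddMonoidHom (α := L) 2).range) ∧
      Nat.card (L ⧸ (nsmulAddMonoidHom (α := L) 2).range) ≤ 2 ^ 24 := by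
  obtain ⟨n, b⟩ := Submodule.basisOfPid (Pi.basisFun ℤ (Fin 24)) (AddSubgroup.toIntSubmodule L)
  have hn : n ≤ 24 := by
    have h1 : LinearIndependent ℤ (fun i => ((b i : AddSubgroup.toIntSubmodule L) : Fin 24 → ℤ)) :=
      b.linearIndependent.map' (AddSubgroup.toIntSubmodule L).subtype (Submodule.ker_subtype _)
    have h2 := h1.fintype_card_le_finrank
    rwa [Fintype.card_fin, Module.finrank_fin_fun] at h2
  let F : (Fin n → Fin 2) → L ⧸ (nsmulAddMonoidHom (α := L) 2).range := fun c =>
    QuotientAddGroup.mk (∑ i, ((c i : ℕ) : ℤ) • (b i : AddSubgroup.toIntSubmodule L) : L)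
  have hF : Function.Surjective F := by
    intro q
    obtain ⟨l, rfl⟩ := QuotientAddGroup.mk_surjective q
    let l' : AddSubgroup.toIntSubmodule L := l
    have hl : ∑ i, b.repr l' i • b i = l' := b.sum_repr l'
    refine ⟨fun i => ⟨(b.repr l' i % 2).toNat, by omega⟩, ?_⟩
    refine QuotientAddGroup.eq.mpr ⟨(∑ i, (b.repr l' i / 2) • b i : AddSubgroup.toIntSubmodule L),
      ?_⟩
    have h1 : (2 : ℕ) • (∑ i, (b.repr l' i / 2) • b i) =
        -(∑ i, (((b.repr l' i % 2).toNat : ℕ) : ℤ) • b i) + l' := by
      rw [← hl, Finset.smul_sum, ← Finset.sum_neg_distrib, ← Finset.sum_add_distrib]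
      refine Finset.sum_congr rfl fun i _ => ?_
      rw [hl, ← natCast_zsmul, smul_smul, ← neg_smul, ← add_smul]
      congr 1
      push_cast
      omega
    exact h1
  refine ⟨Finite.of_surjective F hF, (Nat.card_le_card_of_surjective F hF).trans ?_⟩
  rw [Nat.card_fun]
  simp only [Nat.card_eq_fintype_card, Fintype.card_fin]
  exact Nat.pow_le_pow_right (by norm_num) hn

end Fermat.Agent.Cor.Leech
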