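import Fermat.Agent.Corollaries.Leech.Main
import Fermat.Agent.Corollaries.Leech.Dual
import Fermat.Agent.Corollaries.Leech.Frame

/-!
# Conway's theorem on `Λ / 2Λ`

Every class of the Leech lattice `Λ` modulo `2Λ` contains a vector of norm `≤ 8`.  The short vectors in
a class are `0`, or `±x` of norm `4`, or `±x` of norm `6`, or `24` mutually orthogonal pairs `±x` of
norm `8`: `1 + 196560 / 2 + 16773120 / 2 + 398034000 / 48 = 2²⁴`.
-/

set_option autoImplicit false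

noncomputable section

namespace Fermat.Agent.Cor.Leech

open Finset Fermat.Agent.Cor.Quat

/-- `∑ xᵢ²` -/
def sqn (x : Fin 24 → ℤ) : ℤ := ∑ i, x i ^ 2

theorem tau_four : Tau.tau 4 = -1472 := by
  have h := Tau.tau_eq_sigma_five 4
  rw [show ArithmeticFunction.sigma 11 4 = 4196353 by decide +kernel,
    show ArithmeticFunction.sigma 5 4 = 1057 by decide +kernel,
    show Tau.conv 5 5 4 = 1577 by decide +kernel] at h
  push_cast at h
  linarith

/-- the Leech lattice has `398034000` vectors of norm `8` -/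
theorem card_leech_eight : {x : Fin 24 → ℤ | x ∈ leech ∧ ∑ i, x i ^ 2 = 64}.ncard = 398034000 := by
  have h := card_leech (n := 4) four_ne_zero
  rw [tau_four, show (4 : ℕ).divisors = {1, 2, 4} by decide, sum_insert (by decide),
    sum_pair (by decide)] at h
  norm_num at h
  omega

theorem sqn_nonneg (x : Fin 24 → ℤ) : 0 ≤ sqn x := Finset.sum_nonneg fun _ _ => sq_nonneg _

theorem sqn_eq_zero {x : Fin 24 → ℤ} : sqn x = 0 ↔ x = 0 := by
  unfold sqn
  rw [Finset.sum_eq_zero_iff_of_nonneg fun i _ => sq_nonneg _]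
  constructor
  · intro h
    funext i
    exact pow_eq_zero_iff two_ne_zero |>.mp (h i (mem_univ i))
  · rintro rfl i -
    simp

theorem sqn_add_sub (x y : Fin 24 → ℤ) : sqn (x + y) + sqn (x - y) = 2 * (sqn x + sqn y) := by
  unfold sqn
  rw [← Finset.sum_add_distrib, ← Finset.sum_add_distrib, Finset.mul_sum]
  refine Finset.sum_congr rfl fun i _ => ?_
  rw [Pi.add_apply, Pi.sub_apply]
  ring

theorem sqn_add (x y : Fin 24 → ℤ) : sqn (x + y) = sqn x + sqn y + 2 * ∑ i, x i * y i := by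
  unfold sqn
  rw [Finset.mul_sum, ← Finset.sum_add_distrib, ← Finset.sum_add_distrib]
  refine Finset.sum_congr rfl fun i _ => ?_
  rw [Pi.add_apply]
  ring

theorem sqn_two (w : Fin 24 → ℤ) : sqn (2 • w) = 4 * sqn w := by
  unfold sqn
  rw [Finset.mul_sum]
  refine Finset.sum_congr rfl fun i _ => ?_
  rw [Pi.smul_apply, nsmul_eq_mul]
  push_cast
  ring

theorem sqn_neg (x : Fin 24 → ℤ) : sqn (-x) = sqn x := by
  unfold sqn
  exact Finset.sum_congr rfl fun i _ => by rw [Pi.neg_apply, neg_sq]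

/-- the minimal norm is `4` -/
theorem leech_min {x : Fin 24 → ℤ} (hx : x ∈ leech) (h0 : x ≠ 0) : 32 ≤ sqn x := by
  obtain ⟨k, hk⟩ := leech_even hx
  have h1 : sqn x = 16 * k := hk
  have h2 := sqn_nonneg x
  have h3 : sqn x ≠ 0 := fun h => h0 (sqn_eq_zero.mp h)
  have h4 : sqn x ≠ 16 := fun h => leech_no_roots ⟨x, hx, h⟩
  omega

/-- two vectors of norm `≤ 8` which are congruent modulo `2Λ` -/
theorem short_congr {x y w : Fin 24 → ℤ} (hy : y ∈ leech) (hw : w ∈ leech)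
    (h : x = y + 2 • w) (hx8 : sqn x ≤ 64) (hy8 : sqn y ≤ 64) :
    x = y ∨ x = -y ∨ (∑ i, x i * y i = 0 ∧ sqn x = 64 ∧ sqn y = 64) := by
  by_cases h0 : w = 0
  · left
    rw [h, h0, smul_zero, add_zero]
  by_cases h1 : y + w = 0
  · right; left
    have h2 : w = -y := by
      rw [eq_neg_iff_add_eq_zero, add_comm]
      exact h1
    rw [h, h2, two_nsmul]
    abel
  right; right
  have h2 := leech_min hw h0
  have h3 := leech_min (leech.add_mem hy hw) h1
  have h4 : x + y = 2 • (y + w) := by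
    rw [h, smul_add, two_nsmul, two_nsmul]
    abel
  have h5 : x - y = 2 • w := by
    rw [h]
    abel
  have h6 := sqn_add_sub x y
  rw [h4, h5, sqn_two, sqn_two] at h6
  have h7 := sqn_add x y
  rw [h4, sqn_two] at h7
  refine ⟨?_, ?_, ?_⟩ <;> linarith

/-- `Λ / 2Λ` -/
abbrev Q : Type := leech ⧸ (nsmulAddMonoidHom (α := leech) 2).range

theorem mk_eq_iff (x y : leech) : (x : Q) = y ↔ ∃ w ∈ leech, (y : Fin 24 → ℤ) = x + 2 • w := by
  rw [QuotientAddGroup.eq, AddMonoidHom.mem_range]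
  constructor
  · rintro ⟨w, hw⟩
    refine ⟨w, w.2, ?_⟩
    have h1 : (2 • w : leech) = -x + y := hw
    have h2 := congrArg (fun z : leech => (z : Fin 24 → ℤ)) h1
    change 2 • (w : Fin 24 → ℤ) = -(x : Fin 24 → ℤ) + y at h2
    rw [h2]
    abel
  · rintro ⟨w, hw, h⟩
    refine ⟨⟨w, hw⟩, ?_⟩
    apply Subtype.ext
    change 2 • w = -(x : Fin 24 → ℤ) + y
    rw [h]
    abel

theorem finite_T (k : ℕ) : {x : leech | sqn x = 16 * (k : ℤ)}.Finite := by
  have h := finite_shell k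
  refine Set.Finite.of_injOn (f := fun x : leech => (x : Fin 24 → ℤ)) (t := _) ?_
    (fun x _ y _ h => Subtype.ext h) h
  intro x hx
  exact ⟨x.2, hx⟩

/-- the vectors of norm `2 k` -/
def T (k : ℕ) : Finset leech := (finite_T k).toFinset

theorem mem_T {k : ℕ} {x : leech} : x ∈ T k ↔ sqn x = 16 * (k : ℤ) := by
  rw [T, Set.Finite.mem_toFinset]
  rfl

theorem card_T (k : ℕ) :
    (T k).card = {x : Fin 24 → ℤ | x ∈ leech ∧ ∑ i, x i ^ 2 = 16 * (k : ℤ)}.ncard := by
  rw [T, ← Set.ncard_eq_toFinset_card _ (finite_T k)]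
  refine Set.ncard_congr (fun x _ => (x : Fin 24 → ℤ)) (fun x hx => ⟨x.2, hx⟩)
    (fun x y _ _ h => Subtype.ext h) ?_
  rintro x ⟨hx, h⟩
  exact ⟨⟨x, hx⟩, h, rfl⟩

open Classical in
/-- the vectors of norm `2 k` in a class -/
def Fb (k : ℕ) (q : Q) : Finset leech := (T k).filter fun x => (x : Q) = q

theorem mem_Fb {k : ℕ} {q : Q} {x : leech} : x ∈ Fb k q ↔ sqn x = 16 * (k : ℤ) ∧ (x : Q) = q := by
  classical
  rw [Fb, mem_filter, mem_T]

theorem Fb_cases {k l : ℕ} (hk : k ≤ 4) (hl : l ≤ 4) {q : Q} {x y : leech} (hx : x ∈ Fb k q)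
    (hy : y ∈ Fb l q) : k = l ∧ (x = y ∨ x = -y ∨
      (∑ i, (x : Fin 24 → ℤ) i * (y : Fin 24 → ℤ) i = 0 ∧ k = 4)) := by
  rw [mem_Fb] at hx hy
  have h1 : (y : Q) = x := hy.2.trans hx.2.symm
  obtain ⟨w, hw, h⟩ := (mk_eq_iff y x).mp h1
  have hk' : (k : ℤ) ≤ 4 := by exact_mod_cast hk
  have hl' : (l : ℤ) ≤ 4 := by exact_mod_cast hl
  rcases short_congr y.2 hw h (by rw [hx.1]; linarith) (by rw [hy.1]; linarith) with h2 | h2 | h2
  · have h3 : x = y := Subtype.ext h2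
    refine ⟨?_, Or.inl h3⟩
    have h4 := hx.1
    rw [h3, hy.1] at h4
    omega
  · refine ⟨?_, Or.inr (Or.inl (Subtype.ext h2))⟩
    have h4 := hx.1
    rw [h2, sqn_neg, hy.1] at h4
    omega
  · obtain ⟨h3, h4, h5⟩ := h2
    rw [hx.1] at h4
    rw [hy.1] at h5
    exact ⟨by omega, Or.inr (Or.inr ⟨h3, by omega⟩)⟩

theorem Fb_card_le_two {k : ℕ} (hk : k ≤ 3) (q : Q) : (Fb k q).card ≤ 2 := by
  classical
  rcases (Fb k q).eq_empty_or_nonempty with h | ⟨x, hx⟩
  · rw [h]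
    simp
  · refine (Finset.card_le_card (t := {x, -x}) fun y hy => ?_).trans Finset.card_le_two
    rw [mem_insert, mem_singleton]
    rcases (Fb_cases (by omega) (by omega) hy hx).2 with h | h | ⟨-, h⟩
    · exact Or.inl h
    · exact Or.inr h
    · omega

theorem Fb_card_zero (q : Q) : (Fb 0 q).card ≤ 1 := by
  rw [Finset.card_le_one]
  intro x hx y hy
  rw [mem_Fb, Nat.cast_zero, mul_zero, sqn_eq_zero] at hx hy
  exact Subtype.ext (hx.1.trans hy.1.symm)

theorem Fb_card_four (q : Q) : (Fb 4 q).card ≤ 48 := by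
  classical
  have h1 : ((Fb 4 q).image fun x : leech => (x : Fin 24 → ℤ)).card = (Fb 4 q).card :=
    Finset.card_image_of_injective _ Subtype.coe_injective
  rw [← h1]
  apply frame_card
  · rw [mem_image]
    rintro ⟨x, hx, h⟩
    have h2 := (mem_Fb.mp hx).1
    rw [h, sqn_eq_zero.mpr rfl] at h2
    norm_num at h2
  · intro x hx y hy
    rw [mem_image] at hx hy
    obtain ⟨x, hx, rfl⟩ := hx
    obtain ⟨y, hy, rfl⟩ := hy
    rcases (Fb_cases le_rfl le_rfl hx hy).2 with h | h | ⟨h, -⟩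
    · exact Or.inl (congrArg _ h)
    · exact Or.inr (Or.inl (by rw [h]; rfl))
    · exact Or.inr (Or.inr h)

/-- the weighted number of short vectors in a class -/
def wgt (q : Q) : ℕ :=
  48 * (Fb 0 q).card + 24 * (Fb 2 q).card + 24 * (Fb 3 q).card + (Fb 4 q).card

theorem wgt_le (q : Q) : wgt q ≤ 48 := by
  have h0 := Fb_card_zero q
  have h2 := Fb_card_le_two (k := 2) (by norm_num) q
  have h3 := Fb_card_le_two (k := 3) (by norm_num) q
  have h4 := Fb_card_four q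
  have key : ∀ k l : ℕ, k ≤ 4 → l ≤ 4 → k ≠ l → (Fb k q).card = 0 ∨ (Fb l q).card = 0 := by
    intro k l hk hl hkl
    by_contra h
    push Not at h
    obtain ⟨x, hx⟩ := Finset.card_pos.mp (Nat.pos_of_ne_zero h.1)
    obtain ⟨y, hy⟩ := Finset.card_pos.mp (Nat.pos_of_ne_zero h.2)
    exact hkl (Fb_cases hk hl hx hy).1
  have e02 := key 0 2 (by norm_num) (by norm_num) (by norm_num)
  have e03 := key 0 3 (by norm_num) (by norm_num) (by norm_num)
  have e04 := key 0 4 (by norm_num) (by norm_num) (by norm_num)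
  have e23 := key 2 3 (by norm_num) (by norm_num) (by norm_num)
  have e24 := key 2 4 (by norm_num) (by norm_num) (by norm_num)
  have e34 := key 3 4 (by norm_num) (by norm_num) (by norm_num)
  unfold wgt
  omega

theorem card_T_zero : (T 0).card = 1 := by
  rw [Finset.card_eq_one]
  refine ⟨0, ?_⟩
  ext x
  rw [mem_T, Nat.cast_zero, mul_zero, sqn_eq_zero, mem_singleton]
  exact ⟨fun h => Subtype.ext h, fun h => by rw [h]; rfl⟩

theorem card_T_two : (T 2).card = 196560 := by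
  rw [card_T]
  exact card_leech_min

theorem card_T_three : (T 3).card = 16773120 := by
  rw [card_T]
  exact card_leech_six

theorem card_T_four : (T 4).card = 398034000 := by
  rw [card_T]
  exact card_leech_eight

instance : Finite Q := (card_quot leech).1

theorem sum_Fb [Fintype Q] (k : ℕ) : ∑ q : Q, (Fb k q).card = (T k).card := by
  classical
  exact (Finset.card_eq_sum_card_fiberwise fun x _ => mem_univ _).symm

/-- every class has total weight `48` -/
theorem wgt_eq (q : Q) : wgt q = 48 ∧ Nat.card Q = 2 ^ 24 := by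
  classical
  let _ : Fintype Q := Fintype.ofFinite Q
  have h1 : ∑ q : Q, wgt q = 48 * 2 ^ 24 := by
    unfold wgt
    rw [Finset.sum_add_distrib, Finset.sum_add_distrib, Finset.sum_add_distrib, ← Finset.mul_sum,
      ← Finset.mul_sum, ← Finset.mul_sum, sum_Fb, sum_Fb, sum_Fb, sum_Fb, card_T_zero, card_T_two,
      card_T_three, card_T_four]
    norm_num
  have h2 := (card_quot leech).2
  have h3 : ∑ q : Q, wgt q ≤ ∑ _q : Q, 48 := Finset.sum_le_sum fun q _ => wgt_le q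
  have h4 : ∑ _q : Q, 48 = 48 * Nat.card Q := by
    rw [Finset.sum_const, Finset.card_univ, smul_eq_mul, mul_comm, Nat.card_eq_fintype_card]
  have h5 : Nat.card Q = 2 ^ 24 := by
    have h6 : Nat.card Q ≤ 2 ^ 24 := h2
    rw [h1, h4] at h3
    omega
  refine ⟨?_, h5⟩
  have h6 : ∑ q : Q, wgt q = ∑ _q : Q, 48 := by rw [h1, h4, h5]
  exact (Finset.sum_eq_sum_iff_of_le fun q _ => wgt_le q).mp h6 q (mem_univ q)

/-- `Λ / 2Λ` has `2²⁴` elements -/
theorem card_leech_quot : Nat.card Q = 2 ^ 24 := (wgt_eq 0).2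

/-- **Conway**: every vector of the Leech lattice is congruent modulo `2Λ` to a vector of norm
`≤ 8` -/
theorem conway {x : Fin 24 → ℤ} (hx : x ∈ leech) :
    ∃ y ∈ leech, ∃ w ∈ leech, x = y + 2 • w ∧ ∑ i, y i ^ 2 ≤ 64 := by
  have h1 := (wgt_eq (⟨x, hx⟩ : leech)).1
  have h2 : ∃ k ≤ 4, (Fb k ((⟨x, hx⟩ : leech) : Q)).Nonempty := by
    by_contra h
    push Not at h
    have e : ∀ k ≤ 4, (Fb k ((⟨x, hx⟩ : leech) : Q)).card = 0 := fun k hk => by
      rw [h k hk, Finset.card_empty]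
    rw [wgt, e 0 (by norm_num), e 2 (by norm_num), e 3 (by norm_num), e 4 (by norm_num)] at h1
    norm_num at h1
  obtain ⟨k, hk, y, hy⟩ := h2
  rw [mem_Fb] at hy
  obtain ⟨w, hw, h⟩ := (mk_eq_iff y ⟨x, hx⟩).mp hy.2
  refine ⟨y, y.2, w, hw, h, ?_⟩
  have h3 : ∑ i, (y : Fin 24 → ℤ) i ^ 2 = 16 * (k : ℤ) := hy.1
  rw [h3]
  have hk' : (k : ℤ) ≤ 4 := by exact_mod_cast hk
  linarith

theorem neg_mem_Fb {k : ℕ} {q : Q} {x : leech} (hx : x ∈ Fb k q) : -x ∈ Fb k q := by
  rw [mem_Fb] at hx ⊢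
  refine ⟨(sqn_neg x).trans hx.1, ?_⟩
  rw [← hx.2, mk_eq_iff]
  refine ⟨x, x.2, ?_⟩
  change (x : Fin 24 → ℤ) = -(x : Fin 24 → ℤ) + 2 • (x : Fin 24 → ℤ)
  rw [two_nsmul]
  abel

theorem mem_Fb_pair {k : ℕ} (hk : k ≤ 3) {q : Q} {x : leech} (hx : x ∈ Fb k q) (y : leech) :
    y ∈ Fb k q ↔ y = x ∨ y = -x := by
  constructor
  · intro hy
    rcases (Fb_cases (by omega) (by omega) hy hx).2 with h | h | ⟨-, h⟩
    · exact Or.inl h
    · exact Or.inr h
    · omega
  · rintro (rfl | rfl)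
    · exact hx
    · exact neg_mem_Fb hx

theorem short_iff (q : Q) (y : leech) : sqn y ≤ 64 ∧ (y : Q) = q ↔
    y ∈ Fb 0 q ∨ y ∈ Fb 2 q ∨ y ∈ Fb 3 q ∨ y ∈ Fb 4 q := by
  constructor
  · rintro ⟨h1, h2⟩
    obtain ⟨k, hk⟩ := leech_even y.2
    have h3 : sqn y = 16 * k := hk
    have h4 := sqn_nonneg y
    have h5 : sqn y ≠ 16 := fun h => leech_no_roots ⟨y, y.2, h⟩
    have h6 : k = 0 ∨ k = 2 ∨ k = 3 ∨ k = 4 := by omega
    simp only [mem_Fb]
    rcases h6 with rfl | rfl | rfl | rfl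
    · exact Or.inl ⟨h3, h2⟩
    · exact Or.inr (Or.inl ⟨h3, h2⟩)
    · exact Or.inr (Or.inr (Or.inl ⟨h3, h2⟩))
    · exact Or.inr (Or.inr (Or.inr ⟨h3, h2⟩))
  · simp only [mem_Fb]
    rintro (⟨h1, h2⟩ | ⟨h1, h2⟩ | ⟨h1, h2⟩ | ⟨h1, h2⟩) <;>
    · refine ⟨?_, h2⟩
      rw [h1]
      norm_num

theorem Fb_excl {k l : ℕ} (hk : k ≤ 4) (hl : l ≤ 4) (hkl : k ≠ l) {q : Q} {x : leech}
    (hx : x ∈ Fb k q) (y : leech) : y ∉ Fb l q := fun hy => hkl (Fb_cases hk hl hx hy).1

/-- **Conway**: a class of `Λ / 2Λ` is of one of four kinds: its vectors of norm `≤ 8` are `0`; or a pair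
`±y` of norm `4`; or a pair `±y` of norm `6`; or `48` vectors of norm `8`, mutually orthogonal up to
sign. -/
theorem conway_classes (q : Q) :
    (∀ y : leech, sqn y ≤ 64 ∧ (y : Q) = q ↔ y = 0) ∨
    (∃ y₀ : leech, sqn y₀ = 32 ∧ ∀ y : leech, sqn y ≤ 64 ∧ (y : Q) = q ↔ y = y₀ ∨ y = -y₀) ∨
    (∃ y₀ : leech, sqn y₀ = 48 ∧ ∀ y : leech, sqn y ≤ 64 ∧ (y : Q) = q ↔ y = y₀ ∨ y = -y₀) ∨
    ∃ S : Finset leech, S.card = 48 ∧ (∀ y : leech, sqn y ≤ 64 ∧ (y : Q) = q ↔ y ∈ S) ∧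
      (∀ y ∈ S, sqn y = 64) ∧
      ∀ y ∈ S, ∀ z ∈ S, y = z ∨ y = -z ∨ ∑ i, (y : Fin 24 → ℤ) i * (z : Fin 24 → ℤ) i = 0 := by
  by_cases h0 : (Fb 0 q).Nonempty
  · left
    obtain ⟨x, hx⟩ := h0
    have hx0 : x = 0 := by
      have h := (mem_Fb.mp hx).1
      rw [Nat.cast_zero, mul_zero, sqn_eq_zero] at h
      exact Subtype.ext h
    intro y
    rw [short_iff, mem_Fb_pair (by norm_num) hx, hx0, neg_zero, or_self]
    rw [hx0] at hx
    refine ⟨?_, Or.inl⟩
    rintro (h | h | h | h)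
    · exact h
    · exact absurd h (Fb_excl (by norm_num) (by norm_num) (by norm_num) hx y)
    · exact absurd h (Fb_excl (by norm_num) (by norm_num) (by norm_num) hx y)
    · exact absurd h (Fb_excl (by norm_num) (by norm_num) (by norm_num) hx y)
  right
  by_cases h2 : (Fb 2 q).Nonempty
  · left
    obtain ⟨x, hx⟩ := h2
    refine ⟨x, by rw [(mem_Fb.mp hx).1]; norm_num, fun y => ?_⟩
    rw [short_iff, mem_Fb_pair (by norm_num) hx]
    refine ⟨?_, fun h => Or.inr (Or.inl h)⟩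
    rintro (h | h | h | h)
    · exact absurd h (Fb_excl (by norm_num) (by norm_num) (by norm_num) hx y)
    · exact h
    · exact absurd h (Fb_excl (by norm_num) (by norm_num) (by norm_num) hx y)
    · exact absurd h (Fb_excl (by norm_num) (by norm_num) (by norm_num) hx y)
  right
  by_cases h3 : (Fb 3 q).Nonempty
  · left
    obtain ⟨x, hx⟩ := h3
    refine ⟨x, by rw [(mem_Fb.mp hx).1]; norm_num, fun y => ?_⟩
    rw [short_iff, mem_Fb_pair (k := 3) le_rfl hx]
    refine ⟨?_, fun h => Or.inr (Or.inr (Or.inl h))⟩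
    rintro (h | h | h | h)
    · exact absurd h (Fb_excl (by norm_num) (by norm_num) (by norm_num) hx y)
    · exact absurd h (Fb_excl (by norm_num) (by norm_num) (by norm_num) hx y)
    · exact h
    · exact absurd h (Fb_excl (by norm_num) (by norm_num) (by norm_num) hx y)
  right
  rw [Finset.not_nonempty_iff_eq_empty] at h0 h2 h3
  have h4 := (wgt_eq q).1
  rw [wgt, h0, h2, h3, Finset.card_empty] at h4
  refine ⟨Fb 4 q, by omega, fun y => ?_, fun y hy => ?_, fun y hy z hz => ?_⟩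
  · rw [short_iff, h0, h2, h3]
    simp only [Finset.notMem_empty, false_or]
  · rw [(mem_Fb.mp hy).1]
    norm_num
  · rcases (Fb_cases le_rfl le_rfl hy hz).2 with h | h | ⟨h, -⟩
    · exact Or.inl h
    · exact Or.inr (Or.inl h)
    · exact Or.inr (Or.inr h)

end Fermat.Agent.Cor.Leech
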