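import Fermat.Agent.Corollaries.Quat.Niemeier

/-!
# The theta series of the Leech lattice: identities

`P(t) = ∑ r₄(n) tⁿ`, `Qo(t) = P(t) - P(-t)`.  The transformations of Landen
`4 P(t²) = P(t) + P(-t) + 2 P(-t²)`, `P(-t²)² = P(t) P(-t)`, `Qo(t)² = 16 P(t²) Qo(t²)`; and
`691 E₄³ = 691 + 65520 ∑ σ₁₁(n) qⁿ + 432000 Δ`.
-/

set_option autoImplicit false

noncomputable section

namespace Fermat.Agent.Cor.Leech

open Finset Fermat.Agent.Cor.Quat

/-- `f(t) ↦ f(t²)` -/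
abbrev sqX : PowerSeries ℤ →ₐ[ℤ] PowerSeries ℤ := PowerSeries.expand 2 two_ne_zero

/-- `f(t) ↦ f(-t)` -/
abbrev negX : PowerSeries ℤ →+* PowerSeries ℤ := PowerSeries.rescale (-1 : ℤ)

theorem coeff_sqX (f : PowerSeries ℤ) (n : ℕ) : PowerSeries.coeff n (sqX f) =
    if 2 ∣ n then PowerSeries.coeff (n / 2) f else 0 := PowerSeries.coeff_expand _ _ _

theorem coeff_sqX_two_mul (f : PowerSeries ℤ) (n : ℕ) : PowerSeries.coeff (2 * n) (sqX f) =
    PowerSeries.coeff n f := PowerSeries.coeff_expand_mul _ _ _ _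

theorem coeff_negX (f : PowerSeries ℤ) (n : ℕ) : PowerSeries.coeff n (negX f) =
    (-1) ^ n * PowerSeries.coeff n f := PowerSeries.coeff_rescale _ _ _

theorem coeff_ofNat_mul (k : ℕ) [k.AtLeastTwo] (f : PowerSeries ℤ) (n : ℕ) :
    PowerSeries.coeff n ((OfNat.ofNat k : PowerSeries ℤ) * f) =
      OfNat.ofNat k * PowerSeries.coeff n f := by
  rw [show (OfNat.ofNat k : PowerSeries ℤ) = PowerSeries.C (OfNat.ofNat k : ℤ) by simp,
    PowerSeries.coeff_C_mul]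

theorem rr_two_mul {m : ℕ} : 2 * rr m = rr (2 * m) + (-1) ^ m * rr m := by
  rcases eq_or_ne m 0 with rfl | hm
  · simp [rr]
  have h2m : 2 * m ≠ 0 := by omega
  have e1 : ∀ n, n ≠ 0 → rr n =
      ({(x, y, z, w) : ℤ × ℤ × ℤ × ℤ | x ^ 2 + y ^ 2 + z ^ 2 + w ^ 2 = n}.ncard : ℤ) := by
    intro n hn
    rw [jacobi_four_squares hn, rr, if_neg hn]
    push_cast
    rfl
  have e2 := four_squares_even h2m (even_two_mul m)
  have e3 : ∑ d ∈ (2 * m).divisors with Odd d, d = ∑ d ∈ m.divisors with Odd d, d := by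
    refine Finset.sum_congr ?_ fun _ _ => rfl
    ext d
    simp only [mem_filter, Nat.mem_divisors]
    constructor
    · rintro ⟨⟨h, -⟩, ho⟩
      exact ⟨⟨(Nat.Coprime.dvd_of_dvd_mul_left (Nat.coprime_two_right.mpr ho) h), hm⟩, ho⟩
    · rintro ⟨⟨h, -⟩, ho⟩
      exact ⟨⟨h.mul_left 2, h2m⟩, ho⟩
  rw [e1 _ h2m, e1 _ hm, e2, e3]
  rcases Nat.even_or_odd m with he | ho
  · rw [four_squares_even hm he, he.neg_one_pow]
    ring
  · rw [four_squares_odd ho, ho.neg_one_pow]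
    have e4 : ∑ d ∈ m.divisors with Odd d, d = ∑ d ∈ m.divisors, d := by
      rw [Finset.filter_true_of_mem]
      intro d hd
      exact ho.of_dvd_nat (Nat.dvd_of_mem_divisors hd)
    rw [e4]
    push_cast
    ring

/-- **`4 P(t²) = P(t) + P(-t) + 2 P(-t²)`** -/
theorem landen_one :
    4 * sqX (gf nsq) = gf nsq + negX (gf nsq) + 2 * sqX (negX (gf nsq)) := by
  ext n
  rw [map_add, map_add, coeff_ofNat_mul, coeff_ofNat_mul, coeff_sqX, coeff_sqX, coeff_negX,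
    coeff_negX, coeff_nsq, coeff_nsq]
  split_ifs with h
  · obtain ⟨m, rfl⟩ := h
    rw [Nat.mul_div_cancel_left m (by norm_num), (even_two_mul m).neg_one_pow]
    have := @rr_two_mul m
    linarith
  · rw [(Nat.not_even_iff_odd.mp fun h' => h (even_iff_two_dvd.mp h')).neg_one_pow]
    ring

theorem coeff_nsq_sq {n : ℕ} (hn : n ≠ 0) :
    PowerSeries.coeff n (gf nsq ^ 2) = 16 * s3 1 n - 32 * s3 2 n + 256 * s3 4 n := by
  have h1 : {z : Fin 2 × Fin 4 → ℤ | ∑ i, z i ^ 2 = (n : ℤ)}.ncard =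
      {x : Fin 8 → ℤ | ∑ i, x i ^ 2 = n}.ncard := by
    rw [← Nat.card_coe_set_eq, ← Nat.card_coe_set_eq]
    refine Nat.card_congr
      ((Equiv.arrowCongr (finProdFinEquiv (m := 2) (n := 4)) (Equiv.refl ℤ)).subtypeEquiv
        fun z => ?_)
    change ∑ i, z i ^ 2 = (n : ℤ) ↔ ∑ i, z (finProdFinEquiv.symm i) ^ 2 = (n : ℤ)
    rw [Equiv.sum_comp (finProdFinEquiv (m := 2) (n := 4)).symm fun i => z i ^ 2]
  rw [← gf_pi finite_nsq 2, coeff_gf, ← card_block, h1, card_eight_squares hn]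
  have hw : ∀ e, wt4 {1, 2, 4} (fun d => if d = 1 then 16 else if d = 2 then -4 else 4) e =
      if 4 ∣ e then 16 else if 2 ∣ e then 12 else 16 := by
    intro e
    simp [wt4, Finset.sum_filter, Finset.sum_insert]
    split_ifs <;> omega
  have h2 := sum_wt4 {1, 2, 4} (fun d => if d = 1 then 16 else if d = 2 then -4 else 4) hn
  simp only [hw] at h2
  rw [h2, Finset.sum_insert (by decide), Finset.sum_insert (by decide), Finset.sum_singleton]
  have h3 : ∀ d : ℕ, (if d ∣ n then (d : ℤ) ^ 3 * ∑ e ∈ (n / d).divisors, (e : ℤ) ^ 3 else 0) =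
      (d : ℤ) ^ 3 * s3 d n := by
    intro d
    unfold s3
    split_ifs <;> simp
  rw [h3, h3, h3]
  norm_num
  ring

theorem s3_one_two_mul {m : ℕ} (hm : m ≠ 0) : s3 1 (2 * m) = 9 * s3 1 m - 8 * s3 2 m := by
  have h2m : 2 * m ≠ 0 := by omega
  have e1 : ∀ k : ℕ, s3 1 k = ∑ d ∈ k.divisors, (d : ℤ) ^ 3 := fun k => by
    rw [s3, if_pos (one_dvd k), Nat.div_one]
  have h : ∀ k : ℕ, k ≠ 0 → s3 1 k - 8 * s3 2 k = ∑ d ∈ k.divisors with ¬ 2 ∣ d, (d : ℤ) ^ 3 := by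
    intro k hk
    have h1 : 8 * s3 2 k = ∑ f ∈ k.divisors.filter (fun f => 2 ∣ f), (f : ℤ) ^ 3 := by
      unfold s3
      split_ifs with hd
      · rw [← sum_cube 2 k hk hd]
        norm_num
      · symm
        rw [mul_zero]
        refine Finset.sum_eq_zero fun f hf => ?_
        rw [mem_filter, Nat.mem_divisors] at hf
        exact absurd (hf.2.trans hf.1.1) hd
    rw [h1, e1, ← Finset.sum_filter_add_sum_filter_not k.divisors (fun d => 2 ∣ d)
      (fun d => (d : ℤ) ^ 3), add_sub_cancel_left]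
  have h3 : ∑ d ∈ (2 * m).divisors with ¬ 2 ∣ d, (d : ℤ) ^ 3 =
      ∑ d ∈ m.divisors with ¬ 2 ∣ d, (d : ℤ) ^ 3 := by
    refine Finset.sum_congr ?_ fun _ _ => rfl
    ext d
    simp only [mem_filter, Nat.mem_divisors]
    constructor
    · rintro ⟨⟨h, -⟩, ho⟩
      refine ⟨⟨Nat.Coprime.dvd_of_dvd_mul_left ?_ h, hm⟩, ho⟩
      exact (((Nat.prime_two.coprime_iff_not_dvd).mpr ho)).symm
    · rintro ⟨⟨h, -⟩, ho⟩
      exact ⟨⟨h.mul_left 2, h2m⟩, ho⟩
  have h4 := h (2 * m) h2m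
  have h5 := h m hm
  have h6 : s3 2 (2 * m) = s3 1 m := by
    have := s3_two_mul 1 m
    rwa [mul_one] at this
  rw [h3, h6] at h4
  linarith

/-- **`P(-t²)² = P(t) P(-t)`** -/
theorem landen_two : sqX (negX (gf nsq)) ^ 2 = gf nsq * negX (gf nsq) := by
  have hE := two_mul_thetaD 2
  rw [← thetaD_eight] at hE
  have hJ := jacobi_identity
  have h1 : gf nsq * negX (gf nsq) = gf nsq ^ 2 + negX (gf nsq ^ 2) - thetaD (Fin 8) := by
    have h2 : (2 : PowerSeries ℤ) * (gf nsq * negX (gf nsq)) =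
        2 * (gf nsq ^ 2 + negX (gf nsq ^ 2) - thetaD (Fin 8)) := by
      rw [mul_sub, hE, map_pow]
      change gf nsq = negX (gf nsq) + gf osq at hJ
      have h3 : gf osq = gf nsq - negX (gf nsq) := by rw [eq_sub_iff_add_eq, add_comm]; exact hJ.symm
      rw [h3]
      ring
    have h0 : (2 : PowerSeries ℤ) ≠ 0 := by
      intro h8
      have h9 := congrArg (PowerSeries.constantCoeff (R := ℤ)) h8
      rw [map_ofNat, map_zero] at h9
      norm_num at h9
    exact mul_left_cancel₀ h0 h2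
  rw [h1, ← map_pow, ← map_pow]
  ext n
  rw [map_sub, map_add, coeff_sqX, coeff_negX, coeff_negX, thetaD, PowerSeries.coeff_mk]
  split_ifs with h
  · obtain ⟨m, rfl⟩ := h
    rw [Nat.mul_div_cancel_left m (by norm_num), (even_two_mul m).neg_one_pow, nD_eight_two_mul]
    rcases eq_or_ne m 0 with rfl | hm
    · rw [mul_zero, sq, PowerSeries.coeff_mul, Finset.Nat.antidiagonal_zero, sum_singleton,
        coeff_nsq]
      simp [rr, e4c]
    · have h2m : 2 * m ≠ 0 := by omega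
      have e2 : s3 2 (2 * m) = s3 1 m := by
        have := s3_two_mul 1 m
        rwa [mul_one] at this
      have e4 : s3 4 (2 * m) = s3 2 m := s3_two_mul 2 m
      have e1 : ((∑ d ∈ m.divisors, d ^ 3 : ℕ) : ℤ) = s3 1 m := by
        rw [s3, if_pos (one_dvd m), Nat.div_one]
        push_cast
        rfl
      rw [coeff_nsq_sq h2m, coeff_nsq_sq hm, e2, e4, s3_one_two_mul hm, e4c, if_neg hm,
        Nat.cast_mul, e1]
      rcases Nat.even_or_odd m with he | ho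
      · obtain ⟨k, rfl⟩ := even_iff_two_dvd.mp he
        have hk : k ≠ 0 := fun h => hm (by rw [h, mul_zero])
        have f2 : s3 2 (2 * k) = s3 1 k := by
          have := s3_two_mul 1 k
          rwa [mul_one] at this
        have f4 : s3 4 (2 * k) = s3 2 k := s3_two_mul 2 k
        rw [he.neg_one_pow, f2, f4, s3_one_two_mul hk]
        push_cast
        ring
      · have hn2 : ¬ 2 ∣ m := fun h => Nat.not_even_iff_odd.mpr ho (even_iff_two_dvd.mpr h)
        have f2 : s3 2 m = 0 := if_neg hn2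
        have f4 : s3 4 m = 0 := if_neg fun h => hn2 ((by norm_num : 2 ∣ 4).trans h)
        rw [ho.neg_one_pow, f2, f4]
        push_cast
        ring
  · rw [(Nat.not_even_iff_odd.mp fun h' => h (even_iff_two_dvd.mp h')).neg_one_pow,
      nD_eight_odd h]
    push_cast
    ring

theorem osq_eq : gf osq = gf nsq - negX (gf nsq) := by
  rw [eq_sub_iff_add_eq, add_comm]
  exact jacobi_identity.symm

/-- **`Qo(t)² = 16 P(t²) Qo(t²)`** -/
theorem landen_three : gf osq ^ 2 = 16 * (sqX (gf nsq) * sqX (gf osq)) := by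
  have h1 := landen_one
  have h2 := landen_two
  rw [osq_eq, map_sub]
  set x := gf nsq
  set y := negX x
  set A := sqX x
  set v := sqX y
  linear_combination (-4 * A + 4 * v - (x + y + 2 * v)) * h1 + 4 * h2

/-- the theta series of the two halves of the Leech lattice -/
theorem leech_identity :
    sqX (gf nsq ^ 6 + negX (gf nsq) ^ 6 + 759 * gf nsq ^ 4 * gf osq ^ 2 +
      2576 * gf nsq ^ 3 * gf osq ^ 3 + 759 * gf nsq ^ 2 * gf osq ^ 4 + gf osq ^ 6) +
      (gf nsq ^ 3 * gf osq ^ 3 + negX (gf nsq ^ 3 * gf osq ^ 3)) =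
    2 * thetaD (Fin 8) ^ 3 - 1440 * PowerSeries.mk tau2 := by
  have h1 := landen_one
  have h2 := landen_two
  have h3 := landen_three
  have hE := two_mul_thetaD 2
  rw [← thetaD_eight] at hE
  have hT := theta_product
  have hJ : gf nsq = negX (gf nsq) + gf osq := jacobi_identity
  have hN : negX (gf osq) = -gf osq := by
    rw [osq_eq, map_sub]
    have h4 : negX (negX (gf nsq)) = gf nsq := by
      ext n
      rw [coeff_negX, coeff_negX, ← mul_assoc, ← mul_pow]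
      norm_num
    rw [h4]
    ring
  have hS : sqX (gf nsq) = sqX (negX (gf nsq)) + sqX (gf osq) := by
    rw [← map_add, ← hJ]
  simp only [map_add, map_mul, map_pow, map_ofNat, hN]
  set x := gf nsq
  set y := negX x
  set o := gf osq
  set A := sqX x
  set v := sqX y
  set B := sqX o
  set T := PowerSeries.mk tau2
  set θ := thetaD (Fin 8)
  change 2 * θ = x ^ 2 + y ^ 2 + o ^ 2 at hE
  change (x * y * o) ^ 2 = 256 * T at hT
  have hab : (4 * A) * (4 * B) = o ^ 2 := by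
    rw [h3]
    ring
  have hs : 4 * A + 4 * B = 2 * (x + y) := by
    linear_combination 2 * h1 - 4 * hS
  have hp : (4 * A) ^ 2 + (4 * B) ^ 2 = 4 * (x + y) ^ 2 - 2 * o ^ 2 := by
    linear_combination (4 * A + 4 * B + 2 * (x + y)) * hs - 2 * hab
  have key : (4096 : PowerSeries ℤ) * (A ^ 6 + v ^ 6 + 759 * A ^ 4 * B ^ 2 + 2576 * A ^ 3 * B ^ 3 +
      759 * A ^ 2 * B ^ 4 + B ^ 6 + (x ^ 3 * o ^ 3 + y ^ 3 * (-o) ^ 3)) =
      4096 * (2 * θ ^ 3 - 1440 * T) := by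
    have e1 : (4096 : PowerSeries ℤ) * (A ^ 6 + v ^ 6 + 759 * A ^ 4 * B ^ 2 +
        2576 * A ^ 3 * B ^ 3 + 759 * A ^ 2 * B ^ 4 + B ^ 6 +
        (x ^ 3 * o ^ 3 + y ^ 3 * (-o) ^ 3)) =
        ((4 * A) ^ 2 + (4 * B) ^ 2) ^ 3 + 756 * ((4 * A) * (4 * B)) ^ 2 *
          ((4 * A) ^ 2 + (4 * B) ^ 2) + 2576 * ((4 * A) * (4 * B)) ^ 3 + 4096 * (v ^ 2) ^ 3 +
          4096 * (x ^ 3 * o ^ 3 - y ^ 3 * o ^ 3) := by ring
    have e2 : (4096 : PowerSeries ℤ) * (2 * θ ^ 3 - 1440 * T) =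
        1024 * (2 * θ) ^ 3 - 23040 * (256 * T) := by ring
    rw [e1, e2, hp, hab, h2, hE, ← hT, hJ]
    ring
  have h0 : (4096 : PowerSeries ℤ) ≠ 0 := by
    intro h8
    have h9 := congrArg (PowerSeries.constantCoeff (R := ℤ)) h8
    rw [map_ofNat, map_zero] at h9
    norm_num at h9
  exact mul_left_cancel₀ h0 key

/-- `[t^(4n)] Qo(t)⁶ = 4096 [t^(2n)] P(t)³ Qo(t)³` -/
theorem coeff_osq_six (n : ℕ) : PowerSeries.coeff (4 * n) (gf osq ^ 6) =
    4096 * PowerSeries.coeff (2 * n) (gf nsq ^ 3 * gf osq ^ 3) := by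
  have h : gf osq ^ 6 = 4096 * sqX (gf nsq ^ 3 * gf osq ^ 3) := by
    rw [map_mul, map_pow, map_pow, show gf osq ^ 6 = (gf osq ^ 2) ^ 3 by ring, landen_three]
    ring
  rw [h, coeff_ofNat_mul, show 4 * n = 2 * (2 * n) by ring, coeff_sqX_two_mul]

/-! ### `E₄³` -/

/-- `E₄` -/
def E4z : PowerSeries ℤ := PowerSeries.mk fun n => (e4c n : ℤ)

theorem thetaD_eight_eq : thetaD (Fin 8) = sqX E4z := by
  ext n
  rw [thetaD, PowerSeries.coeff_mk, coeff_sqX]
  split_ifs with h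
  · obtain ⟨m, rfl⟩ := h
    rw [Nat.mul_div_cancel_left m (by norm_num), nD_eight_two_mul, E4z, PowerSeries.coeff_mk]
  · rw [nD_eight_odd h, Nat.cast_zero]

open Tau in
theorem map_E4z : PowerSeries.map (Int.castRingHom ℂ) E4z =
    UpperHalfPlane.qExpansion 1 ModularForm.E₄ := by
  ext n
  rw [PowerSeries.coeff_map, E4z, PowerSeries.coeff_mk, Q_eq, map_add, Tau.coeff_ofNat_mul,
    coeff_sig, PowerSeries.coeff_one, ArithmeticFunction.sigma_apply, e4c]
  split_ifs with h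
  · subst h
    simp
  · push_cast
    simp

/-- **`691 E₄³ = 691 + 65520 ∑ σ₁₁(n) qⁿ + 432000 Δ`** -/
theorem coeff_E4_cube {n : ℕ} (hn : n ≠ 0) :
    691 * PowerSeries.coeff n (E4z ^ 3) =
      65520 * (∑ d ∈ n.divisors, (d : ℤ) ^ 11) + 432000 * Tau.tau n := by
  have h1 := Tau.E₁₂_eq_E₄_E₆
  have h2 := Tau.discriminant_eq
  rw [Tau.E₁₂_eq] at h1
  have h3 : 691 * UpperHalfPlane.qExpansion 1 ModularForm.E₄ ^ 3 =
      691 + 65520 * Tau.sig 11 + 432000 * Tau.tauSer := by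
    linear_combination -h1 - 250 * h2
  rw [← map_E4z, ← map_pow] at h3
  have h4 := congrArg (PowerSeries.coeff n) h3
  rw [map_add, map_add, Tau.coeff_ofNat_mul, Tau.coeff_ofNat_mul, Tau.coeff_ofNat_mul,
    PowerSeries.coeff_map, Tau.coeff_sig, Tau.coeff_tauSer,
    show (691 : PowerSeries ℂ) = PowerSeries.C (691 : ℂ) from (map_ofNat _ _).symm,
    PowerSeries.coeff_C, if_neg hn,
    ArithmeticFunction.sigma_apply, zero_add] at h4
  have h5 : ((691 * PowerSeries.coeff n (E4z ^ 3) : ℤ) : ℂ) =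
      ((65520 * (∑ d ∈ n.divisors, (d : ℤ) ^ 11) + 432000 * Tau.tau n : ℤ) : ℂ) := by
    push_cast
    push_cast at h4
    exact h4
  exact_mod_cast h5

/-- **`E₈ ⊕ E₈ ⊕ E₈`: `691 N(2n) = 65520 σ₁₁(n) + 432000 τ(n)`** -/
theorem card_E8_three {n : ℕ} (hn : n ≠ 0) :
    691 * ({x : (Fin 8 → ℚ) × (Fin 8 → ℚ) × (Fin 8 → ℚ) | x ∈ E8.prod (E8.prod E8) ∧
        ∑ i, x.1 i ^ 2 + (∑ i, x.2.1 i ^ 2 + ∑ i, x.2.2 i ^ 2) = 2 * n}.ncard : ℤ) =
      65520 * (∑ d ∈ n.divisors, (d : ℤ) ^ 11) + 432000 * Tau.tau n := by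
  have h1 := card_E8_cube (2 * n)
  rw [thetaD_eight_eq, ← map_pow, coeff_sqX_two_mul] at h1
  rw [← coeff_E4_cube hn, ← h1]
  push_cast
  rfl

/-- **`D₂₄⁺`: `691 N(2n) = 65520 σ₁₁(n) + 697344 τ(n)`** -/
theorem card_D24' {n : ℕ} (hn : n ≠ 0) :
    691 * ({x : Fin 24 → ℚ | x ∈ Dplus (Fin 24) ∧ ∑ i, x i ^ 2 = 2 * n}.ncard : ℤ) =
      65520 * (∑ d ∈ n.divisors, (d : ℤ) ^ 11) + 697344 * Tau.tau n := by
  rw [card_D24, mul_add, card_E8_three hn]
  ring

end Fermat.Agent.Cor.Leech
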