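import Fermat.Agent.Corollaries.Leech.Defs
import Fermat.Agent.Corollaries.Leech.Theta

/-!
# Counting the vectors of the Leech lattice, class by class

For a code word `c` of weight `4 v` the number of `y ∈ ℤ²⁴` with `|y|² = 4 n` and `y ≡ c mod 2` is the
coefficient of `tⁿ` in `P^(6 - v) Qo^v`; half of them have `∑ yᵢ ≡ 0 (mod 4)` if `c ≠ 0`.
-/

set_option autoImplicit false

noncomputable section

namespace Fermat.Agent.Cor.Leech

open Finset Fermat.Agent.Cor.Quat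

/-- `y ∈ ℤ²⁴` with `y ≡ c mod 2` and `|y|² = 4 n` -/
def full (c : Fin 24 → ZMod 2) (n : ℕ) : Set (Fin 24 → ℤ) :=
  {y | (∀ i, Odd (y i) ↔ c i ≠ 0) ∧ ∑ i, y i ^ 2 = 4 * (n : ℤ)}

/-- those with `∑ yᵢ ≡ 0 (mod 4)` -/
def half (c : Fin 24 → ZMod 2) (n : ℕ) : Set (Fin 24 → ℤ) :=
  {y | (∀ i, Odd (y i) ↔ c i ≠ 0) ∧ 4 ∣ ∑ i, y i ∧ ∑ i, y i ^ 2 = 4 * (n : ℤ)}

theorem finite_full (c : Fin 24 → ZMod 2) (n : ℕ) : (full c n).Finite :=
  (finite_sq (4 * n)).subset fun y hy => by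
    show ∑ i, y i ^ 2 = ((4 * n : ℕ) : ℤ)
    rw [hy.2]
    push_cast
    rfl

theorem half_subset (c : Fin 24 → ZMod 2) (n : ℕ) : half c n ⊆ full c n := fun _ hy =>
  ⟨hy.1, hy.2.2⟩

theorem card_full {c : Fin 24 → ZMod 2} {v : ℕ} (hv : wt c = 4 * v) (n : ℕ) :
    ((full c n).ncard : ℤ) = PowerSeries.coeff n (gf nsq ^ (6 - v) * gf osq ^ v) := by
  have hc1 : Fintype.card {i // c i ≠ 0} = 4 * v := by
    rw [← hv, wt, Fintype.card_subtype]
  have hc2 : Fintype.card {i // ¬ c i ≠ 0} = 4 * (6 - v) := by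
    rw [Fintype.card_subtype_compl, hc1, Fintype.card_fin]
    omega
  let e1 : Fin v × Fin 4 ≃ {i // c i ≠ 0} := Fintype.equivOfCardEq (by
    rw [hc1, Fintype.card_prod, Fintype.card_fin, Fintype.card_fin, mul_comm])
  let e2 : Fin (6 - v) × Fin 4 ≃ {i // ¬ c i ≠ 0} := Fintype.equivOfCardEq (by
    rw [hc2, Fintype.card_prod, Fintype.card_fin, Fintype.card_fin, mul_comm])
  have hsum : ∀ y : Fin 24 → ℤ, ∑ i, y i ^ 2 =
      ∑ j, ∑ l, y (e1 (j, l)) ^ 2 + ∑ j, ∑ l, y (e2 (j, l)) ^ 2 := by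
    intro y
    rw [← Fintype.sum_subtype_add_sum_subtype (fun i => c i ≠ 0) (fun i => y i ^ 2),
      ← Equiv.sum_comp e1, ← Equiv.sum_comp e2, Fintype.sum_prod_type, Fintype.sum_prod_type]
  rw [← gf_pi finite_nsq, ← gf_pi finite_osq,
    ← gf_prod (finite_pi finite_nsq _) (finite_pi finite_osq _), coeff_gf, Nat.cast_inj,
    ← Nat.card_coe_set_eq]
  have key : ∀ (a : Fin (6 - v) → Fin 4 → ℤ) (b : Fin v → O4) (y : Fin 24 → ℤ),
      (∀ j l, y (e1 (j, l)) = (b j).1 l) → (∀ j l, y (e2 (j, l)) = 2 * a j l) →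
      (∑ i, y i ^ 2 = 4 * (n : ℤ) ↔ ∑ j, nsq (a j) + ∑ j, osq (b j) = n) := by
    intro a b y h1 h2
    rw [hsum]
    simp only [h1, h2]
    have h3 : ∀ j, ∑ l, (b j).1 l ^ 2 = 4 * ((osq (b j) : ℕ) : ℤ) := fun j => by
      have h3 := (osq_eq_iff (b j) _).mp rfl
      rw [nsq_eq_iff] at h3
      rw [h3]
      push_cast
      rfl
    have h4 : ∀ j, ∑ l, (2 * a j l) ^ 2 = 4 * ((nsq (a j) : ℕ) : ℤ) := fun j => by
      have h4 := (nsq_eq_iff (a j) _).mp rfl
      rw [← h4, Finset.mul_sum]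
      exact Finset.sum_congr rfl fun l _ => by ring
    simp only [h3, h4, ← Finset.mul_sum]
    rw [← mul_add, mul_right_inj' (by norm_num : (4 : ℤ) ≠ 0), ← Nat.cast_inj (R := ℤ)]
    push_cast
    rw [add_comm]
  refine Nat.card_congr
    { toFun := fun y => ⟨(fun j l => y.1 (e2 (j, l)) / 2,
        fun j => ⟨fun l => y.1 (e1 (j, l)), fun l => (y.2.1 _).mpr (e1 (j, l)).2⟩), ?_⟩
      invFun := fun p => ⟨fun i => if h : c i ≠ 0 then
          (p.1.2 (e1.symm ⟨i, h⟩).1).1 (e1.symm ⟨i, h⟩).2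
          else 2 * p.1.1 (e2.symm ⟨i, h⟩).1 (e2.symm ⟨i, h⟩).2, ?_, ?_⟩
      left_inv := fun y => ?_
      right_inv := fun p => ?_ }
  · refine (key _ _ y.1 (fun j l => rfl) fun j l => ?_).mp y.2.2
    have h1 : Even (y.1 (e2 (j, l))) := by
      rw [← Int.not_odd_iff_even, y.2.1]
      exact (e2 (j, l)).2
    have := h1.two_dvd
    dsimp only
    omega
  · intro i
    dsimp only
    split_ifs with h
    · exact ⟨fun _ => h, fun _ => (p.1.2 _).2 _⟩
    · exact ⟨fun h' => absurd (even_two_mul _) (Int.not_even_iff_odd.mpr h'), fun h' => absurd h' h⟩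
  · refine (key p.1.1 p.1.2 _ (fun j l => ?_) fun j l => ?_).mpr p.2
    · rw [dif_pos (e1 (j, l)).2, Subtype.coe_eta, Equiv.symm_apply_apply]
    · rw [dif_neg (e2 (j, l)).2, Subtype.coe_eta, Equiv.symm_apply_apply]
  · apply Subtype.ext
    funext i
    dsimp only
    split_ifs with h
    · rw [Prod.mk.eta, Equiv.apply_symm_apply]
    · rw [Prod.mk.eta, Equiv.apply_symm_apply]
      have h1 : Even (y.1 i) := by
        rw [← Int.not_odd_iff_even, y.2.1]
        exact h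
      have := h1.two_dvd
      dsimp only
      omega
  · apply Subtype.ext
    refine Prod.ext ?_ ?_
    · funext j l
      dsimp only
      rw [dif_neg (e2 (j, l)).2, Subtype.coe_eta, Equiv.symm_apply_apply]
      dsimp only
      omega
    · funext j
      apply Subtype.ext
      funext l
      dsimp only
      rw [dif_pos (e1 (j, l)).2, Subtype.coe_eta, Equiv.symm_apply_apply]

theorem dvd_sum_sub {c : Fin 24 → ZMod 2} {y : Fin 24 → ℤ} (hy : ∀ i, Odd (y i) ↔ c i ≠ 0) :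
    (2 : ℤ) ∣ ∑ i, y i - (wt c : ℤ) := by
  have h1 : (wt c : ℤ) = ∑ i, if c i ≠ 0 then (1 : ℤ) else 0 := by
    rw [wt, Finset.card_filter]
    push_cast
    rfl
  rw [h1, ← Finset.sum_sub_distrib]
  refine Finset.dvd_sum fun i _ => ?_
  split_ifs with h
  · obtain ⟨k, hk⟩ := (hy i).mpr h
    exact ⟨k, by rw [hk]; ring⟩
  · have h1 : Even (y i) := by
      rw [← Int.not_odd_iff_even, hy]
      exact h
    rw [sub_zero]
    exact h1.two_dvd

theorem two_mul_half {c : Fin 24 → ZMod 2} (h2 : 2 ∣ wt c) (hc : wt c ≠ 0) (n : ℕ) :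
    2 * (half c n).ncard = (full c n).ncard := by
  obtain ⟨i₀, hi₀⟩ : ∃ i₀, c i₀ ≠ 0 := by
    by_contra h
    push Not at h
    apply hc
    rw [wt, Finset.card_eq_zero, Finset.filter_eq_empty_iff]
    intro i _
    rw [not_not]
    exact h i
  have hodd : ∀ (y : Fin 24 → ℤ) (i : Fin 24), Odd (flipAt i₀ y i) ↔ Odd (y i) := by
    intro y i
    unfold flipAt
    by_cases h : i = i₀
    · subst h
      rw [Function.update_self, odd_neg]
    · rw [Function.update_of_ne h]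
  have hflip : ∀ y : Fin 24 → ℤ, (∀ i, Odd (y i) ↔ c i ≠ 0) →
      (4 ∣ ∑ i, flipAt i₀ y i ↔ ¬ 4 ∣ ∑ i, y i) := by
    intro y hy
    rw [flipAt_sum]
    have h3 := dvd_sum_sub hy
    have h4 := Int.odd_iff.mp ((hy i₀).mpr hi₀)
    have h5 : (2 : ℤ) ∣ (wt c : ℤ) := by exact_mod_cast h2
    omega
  have hU : full c n = half c n ∪ flipAt i₀ '' half c n := by
    ext y
    constructor
    · rintro ⟨h1, h3⟩
      by_cases h : 4 ∣ ∑ i, y i
      · exact Or.inl ⟨h1, h, h3⟩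
      · exact Or.inr ⟨flipAt i₀ y, ⟨fun i => (hodd y i).trans (h1 i), (hflip y h1).mpr h,
          (flipAt_sq i₀ y).trans h3⟩, flipAt_flipAt i₀ y⟩
    · rintro (h | ⟨z, ⟨h1, -, h3⟩, rfl⟩)
      · exact half_subset c n h
      · exact ⟨fun i => (hodd z i).trans (h1 i), (flipAt_sq i₀ z).trans h3⟩
  have hd : Disjoint (half c n) (flipAt i₀ '' half c n) := by
    rw [Set.disjoint_left]
    rintro y ⟨-, h1, -⟩ ⟨z, ⟨h3, h4, -⟩, rfl⟩
    exact (hflip z h3).mp h1 h4
  have hinj : Function.Injective (flipAt i₀ : (Fin 24 → ℤ) → Fin 24 → ℤ) := fun y z h => by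
    rw [← flipAt_flipAt i₀ y, h, flipAt_flipAt]
  have hfin := finite_full c n
  rw [hU, Set.ncard_union_eq hd (hfin.subset (hU ▸ Set.subset_union_left))
    (hfin.subset (hU ▸ Set.subset_union_right)), Set.ncard_image_of_injective _ hinj]
  ring

theorem two_mul_half_zero {c : Fin 24 → ZMod 2} (hc : wt c = 0) (n : ℕ) :
    2 * ((half c n).ncard : ℤ) = PowerSeries.coeff n (gf nsq ^ 6 + negX (gf nsq) ^ 6) := by
  have h1 := card_full (v := 0) (c := c) hc n
  rw [pow_zero, mul_one, Nat.sub_zero] at h1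
  rw [map_add, ← map_pow, coeff_negX, ← h1]
  have hc0 : ∀ i, c i = 0 := by
    intro i
    by_contra h
    rw [wt, Finset.card_eq_zero, Finset.filter_eq_empty_iff] at hc
    exact hc (mem_univ i) h
  have hpar : ∀ y ∈ full c n, (4 ∣ ∑ i, y i ↔ Even n) := by
    rintro y ⟨hy, hn⟩
    have he : ∀ i, ∃ k, y i = 2 * k := fun i => by
      have h3 : Even (y i) := by
        rw [← Int.not_odd_iff_even, hy, not_not]
        exact hc0 i
      exact h3.two_dvd
    choose k hk using he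
    simp only [hk, mul_pow, ← Finset.mul_sum] at hn ⊢
    have h4 : (2 : ℤ) ∣ ∑ i, k i ^ 2 - ∑ i, k i := by
      rw [← Finset.sum_sub_distrib]
      refine Finset.dvd_sum fun i _ => ?_
      rcases Int.even_or_odd (k i) with h | h
      · exact (((Int.even_pow' (by norm_num)).mpr h).sub h).two_dvd
      · exact ((h.pow).sub_odd h).two_dvd
    rw [← Int.even_coe_nat, Int.even_iff]
    omega
  rcases Nat.even_or_odd n with he | ho
  · have h2 : half c n = full c n := by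
      refine Set.Subset.antisymm (half_subset c n) fun y hy => ⟨hy.1, ?_, hy.2⟩
      exact (hpar y hy).mpr he
    rw [h2, he.neg_one_pow]
    ring
  · have h2 : half c n = ∅ := by
      rw [Set.eq_empty_iff_forall_notMem]
      intro y hy
      exact Nat.not_even_iff_odd.mpr ho ((hpar y (half_subset c n hy)).mp hy.2.1)
    rw [h2, ho.neg_one_pow, Set.ncard_empty]
    push_cast
    ring

/-! ### odd vectors -/

/-- the sign pattern of an odd vector -/
def pat (x : Fin 24 → ℤ) : Fin 24 → ZMod 2 := fun i => if x i % 4 = 3 then 1 else 0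

/-- odd vectors with given sign patterns -/
def oddVec (C : Set (Fin 24 → ZMod 2)) (N : ℤ) : Set (Fin 24 → ℤ) :=
  {x | (∀ i, Odd (x i)) ∧ pat x ∈ C ∧ ∑ i, x i ^ 2 = N}

/-- vectors `≡ 1 mod 4` -/
def oneVec (N : ℤ) : Set (Fin 24 → ℤ) := {x | (∀ i, x i % 4 = 1) ∧ ∑ i, x i ^ 2 = N}

theorem sgn_pat (a : ZMod 2) {t : ℤ} (ht : t % 4 = 1) :
    (if (if a ≠ 0 then -t else t) % 4 = 3 then (1 : ZMod 2) else 0) = a := by
  have h2 : ∀ a : ZMod 2, a = 0 ∨ a = 1 := by decide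
  rcases h2 a with rfl | rfl
  · have h : ¬ t % 4 = 3 := by omega
    simp [h]
  · have h : -t % 4 = 3 := by omega
    simp [h]

theorem sgn_val (a : ZMod 2) {t : ℤ} (ht : t % 4 = 1) :
    (if (if a ≠ 0 then -t else t) % 4 = 3 then -(if a ≠ 0 then -t else t)
      else (if a ≠ 0 then -t else t)) = t := by
  have h2 : ∀ a : ZMod 2, a = 0 ∨ a = 1 := by decide
  rcases h2 a with rfl | rfl
  · have h : ¬ t % 4 = 3 := by omega
    simp [h]
  · have h : -t % 4 = 3 := by omega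
    simp [h]

theorem sgn_left (t : ℤ) :
    (if (if t % 4 = 3 then (1 : ZMod 2) else 0) ≠ 0 then -(if t % 4 = 3 then -t else t)
      else (if t % 4 = 3 then -t else t)) = t := by
  by_cases h : t % 4 = 3
  · simp [h]
  · simp [h]

theorem card_oddVec (C : Set (Fin 24 → ZMod 2)) (N : ℤ) :
    (oddVec C N).ncard = C.ncard * (oneVec N).ncard := by
  rw [← Nat.card_coe_set_eq, ← Nat.card_coe_set_eq, ← Nat.card_coe_set_eq, ← Nat.card_prod]
  refine Nat.card_congr
    { toFun := fun x => (⟨pat x.1, x.2.2.1⟩,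
        ⟨fun i => if x.1 i % 4 = 3 then -x.1 i else x.1 i, fun i => ?_, ?_⟩)
      invFun := fun p => ⟨fun i => if p.1.1 i ≠ 0 then -p.2.1 i else p.2.1 i, fun i => ?_, ?_, ?_⟩
      left_inv := fun x => ?_
      right_inv := fun p => ?_ }
  · have h1 := Int.odd_iff.mp (x.2.1 i)
    dsimp only
    split_ifs with h <;> omega
  · refine Eq.trans (Finset.sum_congr rfl fun i _ => ?_) x.2.2.2
    dsimp only
    split_ifs
    · ring
    · rfl
  · have h1 := p.2.2.1 i
    rw [Int.odd_iff]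
    dsimp only
    split_ifs with h <;> omega
  · have h1 : pat (fun i => if p.1.1 i ≠ 0 then -p.2.1 i else p.2.1 i) = p.1.1 := by
      funext i
      exact sgn_pat _ (p.2.2.1 i)
    rw [h1]
    exact p.1.2
  · refine Eq.trans (Finset.sum_congr rfl fun i _ => ?_) p.2.2.2
    dsimp only
    split_ifs
    · ring
    · rfl
  · apply Subtype.ext
    funext i
    exact sgn_left _
  · refine Prod.ext (Subtype.ext ?_) (Subtype.ext ?_)
    · funext i
      exact sgn_pat _ (p.2.2.1 i)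
    · funext i
      exact sgn_val _ (p.2.2.1 i)

theorem card_oddVec_univ (m : ℕ) :
    ((oddVec Set.univ (4 * (m : ℤ))).ncard : ℤ) = PowerSeries.coeff m (gf osq ^ 6) := by
  rw [← gf_pi finite_osq, coeff_gf, ← Nat.card_congr (oddBlock 6 m), Nat.cast_inj,
    ← Nat.card_coe_set_eq]
  refine Nat.card_congr
    ((Equiv.arrowCongr (finProdFinEquiv (m := 6) (n := 4)).symm (Equiv.refl ℤ)).subtypeEquiv
      fun z => ?_)
  change ((∀ i, Odd (z i)) ∧ pat z ∈ Set.univ ∧ ∑ i, z i ^ 2 = 4 * (m : ℤ)) ↔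
    (∀ i, Odd (z (finProdFinEquiv i))) ∧ ∑ i, z (finProdFinEquiv i) ^ 2 = 4 * (m : ℤ)
  rw [Equiv.sum_comp (finProdFinEquiv (m := 6) (n := 4)) fun i => z i ^ 2]
  constructor
  · rintro ⟨h1, -, h2⟩
    exact ⟨fun i => h1 _, h2⟩
  · rintro ⟨h1, h2⟩
    refine ⟨fun i => ?_, Set.mem_univ _, h2⟩
    have := h1 (finProdFinEquiv.symm i)
    rwa [Equiv.apply_symm_apply] at this

/-- odd vectors with sign patterns in a set of `4096` patterns -/
theorem card_oddVec_code {C : Set (Fin 24 → ZMod 2)} (hC : C.ncard = 4096) (n : ℕ) :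
    ((oddVec C (16 * (n : ℤ))).ncard : ℤ) =
      PowerSeries.coeff (2 * n) (gf nsq ^ 3 * gf osq ^ 3) := by
  have h1 := card_oddVec C (16 * (n : ℤ))
  have h2 := card_oddVec Set.univ (16 * (n : ℤ))
  have h3 := card_oddVec_univ (4 * n)
  have h4 : (Set.univ : Set (Fin 24 → ZMod 2)).ncard = 2 ^ 24 := by
    rw [Set.ncard_univ, Nat.card_eq_fintype_card, Fintype.card_fun, ZMod.card, Fintype.card_fin]
  rw [coeff_osq_six] at h3
  rw [show (4 : ℤ) * ((4 * n : ℕ) : ℤ) = 16 * (n : ℤ) by push_cast; ring, h2, h4] at h3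
  rw [h1, hC]
  push_cast at h3 ⊢
  linarith

end Fermat.Agent.Cor.Leech
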