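import Mathlib

/-!
# The extended binary Golay code and the Leech lattice: definitions

The code is spanned by the rows of `[I | A]`, where `A` is a bordered circulant matrix built from the
squares modulo `11`.  The Leech lattice (scaled by `√8`) consists of the `x ∈ ℤ²⁴` with
`x ≡ m (mod 2)`, `(x - m) / 2 mod 2` in the Golay code and `∑ xᵢ ≡ 4 m (mod 8)` for some `m ∈ ℤ`.
The norm of `x` in the unscaled lattice is `(∑ xᵢ²) / 8`.
-/

set_option autoImplicit false

namespace Fermat.Agent.Cor.Leech

open Finset

/-- the right half of the generator matrix -/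
def halfA (i j : ℕ) : Bool :=
  if i = 11 ∧ j = 11 then false
  else if i = 11 ∨ j = 11 then true
  else (i + j) % 11 ∈ [0, 1, 3, 4, 5, 9]

/-- row `i` of the generator matrix `[I | A]` -/
def row (i : Fin 12) (j : Fin 24) : ZMod 2 :=
  if (j : ℕ) < 12 then (if (j : ℕ) = i then 1 else 0) else (if halfA i (j - 12) then 1 else 0)

/-- the extended binary Golay code -/
def golay : Submodule (ZMod 2) (Fin 24 → ZMod 2) := Submodule.span (ZMod 2) (Set.range row)

/-- the Hamming weight -/
def wt (c : Fin 24 → ZMod 2) : ℕ := (univ.filter fun i => c i ≠ 0).card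

/-- **the Leech lattice**, scaled by `√8` -/
def leech : AddSubgroup (Fin 24 → ℤ) where
  carrier := {x | ∃ (m : ℤ) (z : Fin 24 → ℤ), (∀ i, x i = m + 2 * z i) ∧
    (fun i => (z i : ZMod 2)) ∈ golay ∧ ∑ i, x i ≡ 4 * m [ZMOD 8]}
  zero_mem' := ⟨0, 0, fun i => by simp, by
    have h : (fun i => ((0 : Fin 24 → ℤ) i : ZMod 2)) = 0 := by
      funext i
      simp
    rw [h]
    exact golay.zero_mem, by simp⟩
  add_mem' := by
    rintro x y ⟨m, z, h1, h2, h3⟩ ⟨m', z', h1', h2', h3'⟩
    refine ⟨m + m', z + z', fun i => ?_, ?_, ?_⟩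
    · rw [Pi.add_apply, Pi.add_apply, h1, h1']
      ring
    · have h : (fun i => ((z + z') i : ZMod 2)) =
          (fun i => (z i : ZMod 2)) + fun i => (z' i : ZMod 2) := by
        funext i
        simp
      rw [h]
      exact golay.add_mem h2 h2'
    · have h : ∑ i, (x + y) i = ∑ i, x i + ∑ i, y i := by
        simp [Finset.sum_add_distrib]
      rw [h, mul_add]
      exact h3.add h3'
  neg_mem' := by
    rintro x ⟨m, z, h1, h2, h3⟩
    refine ⟨-m, -z, fun i => ?_, ?_, ?_⟩
    · rw [Pi.neg_apply, Pi.neg_apply, h1]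
      ring
    · have h : (fun i => ((-z) i : ZMod 2)) = -fun i => (z i : ZMod 2) := by
        funext i
        simp
      rw [h]
      exact golay.neg_mem h2
    · have h : ∑ i, (-x) i = -∑ i, x i := by
        simp [Finset.sum_neg_distrib]
      rw [h, mul_neg]
      exact h3.neg

end Fermat.Agent.Cor.Leech
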