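import Fermat.Agent.Corollaries.Leech.Schlafli

/-!
# Spherical designs

Equality in Delsarte's bound; the `196560` points of a maximal kissing configuration in dimension `24` form
a spherical design, each of them has `4600` neighbours; these give the optimal code of `4600` points in
dimension `23`.
-/

set_option autoImplicit false

noncomputable section

namespace Fermat.Agent.Cor.Leech

open Finset

theorem zonal_eq_zero {n : ℕ} (hn : 3 ≤ n) (C : Finset (Fin n → ℝ))
    (hC : ∀ x ∈ C, ∑ i, x i ^ 2 = 1) (k : ℕ)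
    (h0 : ∑ x ∈ C, ∑ y ∈ C, zon n k (∑ i, x i * y i) = 0) (x : Fin n → ℝ)
    (hx : ∑ i, x i ^ 2 = 1) : ∑ y ∈ C, zon n k (∑ i, x i * y i) = 0 := by
  obtain ⟨B, h1, h2, h3⟩ := exists_fischer n
  have hk : (0 : ℝ) < k.factorial := by exact_mod_cast k.factorial_pos
  set p := ∑ y ∈ C, Z y k with hp
  have hpp : B p p = 0 := by
    have h4 : B p p = k.factorial * ∑ x ∈ C, ∑ y ∈ C, zon n k (∑ i, x i * y i) := by
      rw [hp, map_sum B, LinearMap.sum_apply, Finset.mul_sum]
      refine Finset.sum_congr rfl fun x hx => ?_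
      rw [map_sum (B (Z x k)), Finset.mul_sum]
      exact Finset.sum_congr rfl fun y hy => B_Z B h2 h3 hn (hC x hx) (hC y hy) k
    rw [h4, h0, mul_zero]
  have hxp : B (Z x k) p = k.factorial * ∑ y ∈ C, zon n k (∑ i, x i * y i) := by
    rw [hp, map_sum (B (Z x k)), Finset.mul_sum]
    exact Finset.sum_congr rfl fun y hy => B_Z B h2 h3 hn hx (hC y hy) k
  have hpx : B p (Z x k) = k.factorial * ∑ y ∈ C, zon n k (∑ i, x i * y i) := by
    rw [hp, map_sum B, LinearMap.sum_apply, Finset.mul_sum]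
    refine Finset.sum_congr rfl fun y hy => ?_
    rw [B_Z B h2 h3 hn (hC y hy) hx k]
    congr 2
    exact Finset.sum_congr rfl fun i _ => mul_comm _ _
  set a := ∑ y ∈ C, zon n k (∑ i, x i * y i) with ha
  by_contra hne
  have h4 : ∀ t : ℝ, 0 ≤ B (Z x k) (Z x k) + 2 * t * (k.factorial * a) := by
    intro t
    have h5 := h1 (Z x k + t • p)
    simp only [map_add, map_smul, LinearMap.add_apply, LinearMap.smul_apply, smul_eq_mul, hpp,
      hxp, hpx, mul_zero, add_zero] at h5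
    linarith
  have hka : (k.factorial : ℝ) * a ≠ 0 := mul_ne_zero hk.ne' hne
  have h5 := h4 (-(B (Z x k) (Z x k) + 1) / (2 * (k.factorial * a)))
  have h6 : 2 * (-(B (Z x k) (Z x k) + 1) / (2 * (k.factorial * a))) * (k.factorial * a) =
      -(B (Z x k) (Z x k) + 1) := by
    field_simp
  rw [h6] at h5
  linarith

/-- equality in Delsarte's bound -/
theorem delsarte_eq {n : ℕ} (hn : 3 ≤ n) (d : ℕ) (c : ℕ → ℝ) (hc : ∀ k ≤ d, 0 < c k)
    (f : ℝ → ℝ) (hf : ∀ t, f t = ∑ k ∈ range (d + 1), c k * zon n k t)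
    (C : Finset (Fin n → ℝ)) (hC : ∀ x ∈ C, ∑ i, x i ^ 2 = 1)
    (hC' : ∀ x ∈ C, ∀ y ∈ C, x ≠ y → f (∑ i, x i * y i) ≤ 0) (heq : c 0 * C.card = f 1) :
    (∀ x ∈ C, ∀ y ∈ C, x ≠ y → f (∑ i, x i * y i) = 0) ∧
      ∀ k, 1 ≤ k → k ≤ d → ∀ x : Fin n → ℝ, ∑ i, x i ^ 2 = 1 →
        ∑ y ∈ C, zon n k (∑ i, x i * y i) = 0 := by
  classical
  have h1 : ∑ x ∈ C, ∑ y ∈ C, f (∑ i, x i * y i) =
      ∑ k ∈ range (d + 1), c k * ∑ x ∈ C, ∑ y ∈ C, zon n k (∑ i, x i * y i) := by
    simp only [hf, Finset.mul_sum]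
    rw [Finset.sum_comm]
    have h2 : ∀ y ∈ C, ∑ x ∈ C, ∑ k ∈ range (d + 1), c k * zon n k (∑ i, x i * y i) =
        ∑ k ∈ range (d + 1), ∑ x ∈ C, c k * zon n k (∑ i, x i * y i) := fun y _ =>
      Finset.sum_comm
    rw [Finset.sum_congr rfl h2, Finset.sum_comm]
    exact Finset.sum_congr rfl fun k _ => Finset.sum_comm
  have h3 : ∑ x ∈ C, ∑ y ∈ C, zon n 0 (∑ i, x i * y i) = (C.card : ℝ) ^ 2 := by
    simp only [zon, Finset.sum_const, nsmul_eq_mul, mul_one]
    ring
  rw [Finset.sum_range_succ', h3] at h1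
  have h4 : ∀ k ∈ range d, 0 ≤ c (k + 1) * ∑ x ∈ C, ∑ y ∈ C, zon n (k + 1) (∑ i, x i * y i) :=
    fun k hk => mul_nonneg (hc _ (by have := mem_range.mp hk; omega)).le (zonal_nonneg hn C hC _)
  have h5 : ∑ x ∈ C, ∑ y ∈ C, f (∑ i, x i * y i) =
      C.card * f 1 + ∑ x ∈ C, ∑ y ∈ C.erase x, f (∑ i, x i * y i) := by
    have h6 : ∀ x ∈ C, ∑ y ∈ C, f (∑ i, x i * y i) =
        f 1 + ∑ y ∈ C.erase x, f (∑ i, x i * y i) := by
      intro x hx
      rw [← Finset.add_sum_erase C _ hx]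
      have h7 : ∑ i, x i * x i = 1 := by
        rw [← hC x hx]
        exact Finset.sum_congr rfl fun i _ => (sq (x i)).symm
      rw [h7]
    rw [Finset.sum_congr rfl h6, Finset.sum_add_distrib, Finset.sum_const, nsmul_eq_mul]
  have h6 : ∀ x ∈ C, 0 ≤ -∑ y ∈ C.erase x, f (∑ i, x i * y i) := by
    intro x hx
    rw [neg_nonneg]
    refine Finset.sum_nonpos fun y hy => ?_
    obtain ⟨hyx, hy⟩ := mem_erase.mp hy
    exact hC' x hx y hy hyx.symm
  have h7 : ∑ k ∈ range d, c (k + 1) * ∑ x ∈ C, ∑ y ∈ C, zon n (k + 1) (∑ i, x i * y i) +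
      ∑ x ∈ C, -∑ y ∈ C.erase x, f (∑ i, x i * y i) = 0 := by
    rw [Finset.sum_neg_distrib]
    rw [h5, ← heq] at h1
    linear_combination -h1
  have h8 := Finset.sum_nonneg h4
  have h9 := Finset.sum_nonneg h6
  refine ⟨?_, ?_⟩
  · intro x hx y hy hxy
    have h10 : ∑ x ∈ C, -∑ y ∈ C.erase x, f (∑ i, x i * y i) = 0 := by linarith
    have h11 := (Finset.sum_eq_zero_iff_of_nonneg h6).mp h10 x hx
    rw [neg_eq_zero] at h11
    have h12 : ∑ y ∈ C.erase x, -f (∑ i, x i * y i) = 0 := by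
      rw [Finset.sum_neg_distrib, h11, neg_zero]
    have h13 := (Finset.sum_eq_zero_iff_of_nonneg (fun y hy => by
      obtain ⟨hyx, hy⟩ := mem_erase.mp hy
      have := hC' x hx y hy hyx.symm
      linarith)).mp h12 y (mem_erase.mpr ⟨hxy.symm, hy⟩)
    linarith
  · intro k hk1 hkd x hx
    have h10 : ∑ k ∈ range d, c (k + 1) *
        ∑ x ∈ C, ∑ y ∈ C, zon n (k + 1) (∑ i, x i * y i) = 0 := by linarith
    have h11 := (Finset.sum_eq_zero_iff_of_nonneg h4).mp h10 (k - 1)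
      (mem_range.mpr (by omega))
    rw [Nat.sub_add_cancel hk1] at h11
    exact zonal_eq_zero hn C hC k ((mul_eq_zero.mp h11).resolve_left (hc k hkd).ne') x hx

/-- equality in Delsarte's bound: the set is a spherical design -/
theorem delsarte_eq_euclidean {n : ℕ} (hn : 3 ≤ n) (d : ℕ) (c : ℕ → ℝ) (hc : ∀ k ≤ d, 0 < c k)
    (f : ℝ → ℝ) (hf : ∀ t, f t = ∑ k ∈ range (d + 1), c k * zon n k t)
    (S : Finset (EuclideanSpace ℝ (Fin n))) (hS : ∀ x ∈ S, ‖x‖ = 1)
    (hS' : ∀ x ∈ S, ∀ y ∈ S, x ≠ y → f (inner ℝ x y) ≤ 0) (heq : c 0 * S.card = f 1) :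
    (∀ x ∈ S, ∀ y ∈ S, x ≠ y → f (inner ℝ x y) = 0) ∧
      ∀ k, 1 ≤ k → k ≤ d → ∀ x : EuclideanSpace ℝ (Fin n), ‖x‖ = 1 →
        ∑ y ∈ S, zon n k (inner ℝ x y) = 0 := by
  classical
  have hinj : Function.Injective fun (x : EuclideanSpace ℝ (Fin n)) (i : Fin n) => x i := by
    intro x y hxy
    ext i
    exact congrFun hxy i
  have hnorm : ∀ x : EuclideanSpace ℝ (Fin n), ‖x‖ = 1 → ∑ i, x i ^ 2 = 1 := by
    intro x hx
    have h3 := inner_eq_sum x x
    rw [real_inner_self_eq_norm_sq, hx] at h3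
    rw [Finset.sum_congr rfl fun i _ => sq (x i), ← h3, one_pow]
  obtain ⟨h1, h2⟩ := delsarte_eq hn d c hc f hf (S.image fun x i => x i)
    (fun v hv => by
      obtain ⟨x, hx, rfl⟩ := mem_image.mp hv
      exact hnorm x (hS x hx))
    (fun v hv w hw hvw => by
      obtain ⟨x, hx, rfl⟩ := mem_image.mp hv
      obtain ⟨y, hy, rfl⟩ := mem_image.mp hw
      have hxy : x ≠ y := fun h => hvw (by rw [h])
      have h3 := hS' x hx y hy hxy
      rwa [inner_eq_sum] at h3)
    (by rw [card_image_of_injective S hinj, heq])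
  refine ⟨fun x hx y hy hxy => ?_, fun k hk1 hkd x hx => ?_⟩
  · rw [inner_eq_sum]
    exact h1 _ (mem_image_of_mem _ hx) _ (mem_image_of_mem _ hy) fun h => hxy (hinj h)
  · have h3 := h2 k hk1 hkd (fun i => x i) (hnorm x hx)
    rw [Finset.sum_image fun a _ b _ h => hinj h] at h3
    rw [← h3]
    exact Finset.sum_congr rfl fun y _ => by rw [inner_eq_sum]

/-- **the structure of the maximal kissing configurations in dimension `24`** -/
theorem code24 (S : Finset (EuclideanSpace ℝ (Fin 24))) (hS : IsSphericalCode S)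
    (hc : S.card = 196560) :
    (∀ x ∈ S, ∀ y ∈ S, x ≠ y → inner ℝ x y = (-1 : ℝ) ∨ inner ℝ x y = (-1 / 2 : ℝ) ∨
      inner ℝ x y = (-1 / 4 : ℝ) ∨ inner ℝ x y = (0 : ℝ) ∨ inner ℝ x y = (1 / 4 : ℝ) ∨
      inner ℝ x y = (1 / 2 : ℝ)) ∧
    ∀ k, 1 ≤ k → k ≤ 10 → ∀ x : EuclideanSpace ℝ (Fin 24), ‖x‖ = 1 →
      ∑ y ∈ S, zon 24 k (inner ℝ x y) = 0 := by
  obtain ⟨h1, h2⟩ := delsarte_eq_euclidean (n := 24) (by norm_num) 10 c24
    (fun k hk => by
      interval_cases k <;> norm_num [c24])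
    (fun t => (t + 1) * (t + 1 / 2) ^ 2 * (t + 1 / 4) ^ 2 * t ^ 2 * (t - 1 / 4) ^ 2 *
      (t - 1 / 2)) f24_eq S hS.1
    (fun x hx y hy hxy => by
      have h1 := hS.2 x hx y hy hxy
      have h2 := abs_le.mp (abs_inner_le_one (hS.1 x hx) (hS.1 y hy))
      have h4 : 0 ≤ inner ℝ x y + 1 := by linarith
      exact mul_nonpos_of_nonneg_of_nonpos (by positivity) (by linarith))
    (by
      rw [hc]
      norm_num [c24])
  refine ⟨fun x hx y hy hxy => ?_, h2⟩
  have h3 := h1 x hx y hy hxy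
  simp only [mul_eq_zero, pow_eq_zero_iff, ne_eq, OfNat.ofNat_ne_zero, not_false_eq_true] at h3
  rcases h3 with ((((h3 | h3) | h3) | h3) | h3) | h3
  · left; linarith
  · right; left; linarith
  · right; right; left; linarith
  · right; right; right; left; exact h3
  · right; right; right; right; left; linarith
  · right; right; right; right; right; linarith

theorem g24_eq (t : ℝ) : (t + 1) * (t + 1 / 2) * (t + 1 / 4) * t * (t - 1 / 4) =
    11 / 3328 * zon 24 0 t + 29 / 728 * zon 24 1 t + 51 / 224 * zon 24 2 t +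
      37 / 48 * zon 24 3 t + 3 / 2 * zon 24 4 t + zon 24 5 t := by
  simp only [zon, bet]
  norm_num
  ring

/-- every point of a maximal kissing configuration in dimension `24` has `4600` neighbours -/
theorem card_neighbours24 (S : Finset (EuclideanSpace ℝ (Fin 24))) (hS : IsSphericalCode S)
    (hc : S.card = 196560) (x : EuclideanSpace ℝ (Fin 24)) (hx : x ∈ S) :
    {y | y ∈ S ∧ inner ℝ x y = (1 / 2 : ℝ)}.ncard = 4600 := by
  classical
  obtain ⟨h1, h2⟩ := code24 S hS hc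
  have hx1 := hS.1 x hx
  have h3 : ∑ y ∈ S, (fun t : ℝ => (t + 1) * (t + 1 / 2) * (t + 1 / 4) * t * (t - 1 / 4))
      (inner ℝ x y) = 11 / 3328 * 196560 := by
    have h4 : ∀ y ∈ S, (fun t : ℝ => (t + 1) * (t + 1 / 2) * (t + 1 / 4) * t * (t - 1 / 4))
        (inner ℝ x y) = 11 / 3328 + 29 / 728 * zon 24 1 (inner ℝ x y) +
        51 / 224 * zon 24 2 (inner ℝ x y) + 37 / 48 * zon 24 3 (inner ℝ x y) +
        3 / 2 * zon 24 4 (inner ℝ x y) + zon 24 5 (inner ℝ x y) := by
      intro y _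
      have h5 := g24_eq (inner ℝ x y)
      rw [show zon 24 0 (inner ℝ x y) = 1 from rfl, mul_one] at h5
      exact h5
    rw [Finset.sum_congr rfl h4, Finset.sum_add_distrib, Finset.sum_add_distrib,
      Finset.sum_add_distrib, Finset.sum_add_distrib, Finset.sum_add_distrib,
      ← Finset.mul_sum, ← Finset.mul_sum, ← Finset.mul_sum, ← Finset.mul_sum,
      h2 1 (by norm_num) (by norm_num) x hx1, h2 2 (by norm_num) (by norm_num) x hx1,
      h2 3 (by norm_num) (by norm_num) x hx1, h2 4 (by norm_num) (by norm_num) x hx1,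
      h2 5 (by norm_num) (by norm_num) x hx1, Finset.sum_const, hc, nsmul_eq_mul]
    norm_num
  have h4 : ∀ y ∈ S.erase x, (fun t : ℝ => (t + 1) * (t + 1 / 2) * (t + 1 / 4) * t * (t - 1 / 4))
      (inner ℝ x y) = if inner ℝ x y = (1 / 2 : ℝ) then 9 / 64 else 0 := by
    intro y hy
    obtain ⟨hyx, hy⟩ := mem_erase.mp hy
    rcases h1 x hx y hy hyx.symm with h5 | h5 | h5 | h5 | h5 | h5 <;> rw [h5] <;> norm_num
  have h5 : inner ℝ x x = (1 : ℝ) := by rw [real_inner_self_eq_norm_sq, hx1, one_pow]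
  rw [← Finset.add_sum_erase S _ hx, Finset.sum_congr rfl h4, h5, ← Finset.sum_filter,
    Finset.sum_const, nsmul_eq_mul] at h3
  have h6 : ((#{y ∈ S.erase x | inner ℝ x y = (1 / 2 : ℝ)} : ℕ) : ℝ) = 4600 := by
    norm_num at h3
    linarith
  have h7 : {y | y ∈ S ∧ inner ℝ x y = (1 / 2 : ℝ)} =
      ((S.erase x).filter fun y => inner ℝ x y = (1 / 2 : ℝ) : Finset _) := by
    ext y
    simp only [Set.mem_ofPred_eq, coe_filter, mem_erase]
    constructor
    · rintro ⟨h8, h9⟩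
      refine ⟨⟨?_, h8⟩, h9⟩
      rintro rfl
      rw [h5] at h9
      norm_num at h9
    · rintro ⟨⟨-, h8⟩, h9⟩
      exact ⟨h8, h9⟩
  rw [h7, Set.ncard_coe_finset]
  exact_mod_cast h6

/-! ### dimension `23` -/

/-- the zonal coefficients -/
def c23 : ℕ → ℝ
  | 0 => 8 / 15525
  | 1 => 8 / 675
  | 2 => 164 / 2349
  | 3 => 244 / 783
  | 4 => 197 / 279
  | 5 => 4 / 3
  | 6 => 1
  | _ => 0

theorem c23_nonneg (k : ℕ) : 0 ≤ c23 k := by
  unfold c23
  split <;> norm_num

theorem f23_eq (t : ℝ) : (t + 1) * (t + 1 / 3) ^ 2 * t ^ 2 * (t - 1 / 3) =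
    ∑ k ∈ range (6 + 1), c23 k * zon 23 k t := by
  simp only [Finset.sum_range_succ, Finset.sum_range_zero, c23, zon, bet]
  norm_num
  ring

theorem card_le_4600 (S : Finset (EuclideanSpace ℝ (Fin 23))) (hS : IsCode (1 / 3) S) :
    S.card ≤ 4600 := by
  have h := delsarte_euclidean (n := 23) (by norm_num) 6 c23 c23_nonneg
    (fun t => (t + 1) * (t + 1 / 3) ^ 2 * t ^ 2 * (t - 1 / 3)) f23_eq (by norm_num) S hS.1
    (fun x hx y hy hxy => by
      have h1 := hS.2 x hx y hy hxy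
      have h2 := abs_le.mp (abs_inner_le_one (hS.1 x hx) (hS.1 y hy))
      have h4 : 0 ≤ inner ℝ x y + 1 := by linarith
      exact mul_nonpos_of_nonneg_of_nonpos (by positivity) (by linarith))
  simp only [c23] at h
  norm_num at h
  have h1 : (S.card : ℝ) ≤ 4600 := by linarith
  exact_mod_cast h1

/-- **4600 points in dimension `23`**: the maximal number of unit vectors in `ℝ²³` with pairwise inner
products `≤ 1/3` is `4600` -/
theorem optimal_23_third :
    IsGreatest {k | ∃ S : Finset (EuclideanSpace ℝ (Fin 23)), S.card = k ∧ IsCode (1 / 3) S}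
      4600 := by
  classical
  constructor
  · obtain ⟨S, hc, hS⟩ := kissing_24
    have hS' : IsSphericalCode S := hS
    obtain ⟨x, hx⟩ := Finset.card_pos.mp (by rw [hc]; norm_num : 0 < S.card)
    have hx1 : inner ℝ x x = (1 : ℝ) := by
      rw [real_inner_self_eq_norm_sq, hS'.1 x hx, one_pow]
    set T : Finset (EuclideanSpace ℝ (Fin 24)) := S.filter fun y => inner ℝ x y = (1 / 2 : ℝ)
      with hT
    have hTc : T.card = 4600 := by
      rw [← card_neighbours24 S hS' hc x hx, ← Set.ncard_coe_finset]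
      congr 1
      ext y
      simp [hT]
    have hT' : ∀ y : T, (y : EuclideanSpace ℝ (Fin 24)) ∈ S ∧
        inner ℝ x (y : EuclideanSpace ℝ (Fin 24)) = (1 / 2 : ℝ) := fun y =>
      mem_filter.mp y.2
    have key : ∀ y z : EuclideanSpace ℝ (Fin 24), ∑ i, (y i - 1 / 2 * x i) * (z i - 1 / 2 * x i) =
        inner ℝ y z - 1 / 2 * inner ℝ x y - 1 / 2 * inner ℝ x z + 1 / 4 * inner ℝ x x := by
      intro y z
      rw [inner_eq_sum, inner_eq_sum, inner_eq_sum, inner_eq_sum, Finset.mul_sum, Finset.mul_sum,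
        Finset.mul_sum, ← Finset.sum_sub_distrib, ← Finset.sum_sub_distrib,
        ← Finset.sum_add_distrib]
      exact Finset.sum_congr rfl fun i _ => by ring
    obtain ⟨w, hw⟩ := exists_vectors (n := 23) (ι := T) (fun i => x i) (fun h => by
        have h1 : inner ℝ x x = (0 : ℝ) := by
          rw [inner_eq_sum]
          exact Finset.sum_eq_zero fun i _ => by
            have := congrFun h i
            simp only [Pi.zero_apply] at this
            rw [this, zero_mul]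
        rw [hx1] at h1
        exact one_ne_zero h1)
      (fun y i => (y : EuclideanSpace ℝ (Fin 24)) i - 1 / 2 * x i) (r := 3 / 4) (by norm_num)
      (fun y => by
        have h1 : ∑ i, ((y : EuclideanSpace ℝ (Fin 24)) i - 1 / 2 * x i) * x i =
            inner ℝ x (y : EuclideanSpace ℝ (Fin 24)) - 1 / 2 * inner ℝ x x := by
          rw [inner_eq_sum, inner_eq_sum, Finset.mul_sum, ← Finset.sum_sub_distrib]
          exact Finset.sum_congr rfl fun i _ => by ring
        rw [h1, (hT' y).2, hx1]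
        norm_num)
    obtain ⟨S', h1, h2⟩ := exists_code w (s := 1 / 3) (by norm_num) (fun y => by
      rw [hw, key, (hT' y).2, hx1, real_inner_self_eq_norm_sq, hS'.1 _ (hT' y).1]
      norm_num) (fun y z hyz => by
      rw [hw, key, (hT' y).2, (hT' z).2, hx1]
      have h3 := hS'.2 _ (hT' y).1 _ (hT' z).1 fun h => hyz (Subtype.ext h)
      linarith)
    exact ⟨S', by rw [h1, Fintype.card_coe, hTc], h2⟩
  · rintro k ⟨S, rfl, hS⟩
    exact card_le_4600 S hS

end Fermat.Agent.Cor.Leech
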