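import Fermat.Agent.Corollaries.Leech.Design

/-!
# The maximal kissing configurations in dimension `8`
-/

set_option autoImplicit false

noncomputable section

namespace Fermat.Agent.Cor.Leech

open Finset

/-- **the structure of the maximal kissing configurations in dimension `8`** -/
theorem code8 (S : Finset (EuclideanSpace ℝ (Fin 8))) (hS : IsSphericalCode S)
    (hc : S.card = 240) :
    (∀ x ∈ S, ∀ y ∈ S, x ≠ y → inner ℝ x y = (-1 : ℝ) ∨ inner ℝ x y = (-1 / 2 : ℝ) ∨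
      inner ℝ x y = (0 : ℝ) ∨ inner ℝ x y = (1 / 2 : ℝ)) ∧
    ∀ k, 1 ≤ k → k ≤ 6 → ∀ x : EuclideanSpace ℝ (Fin 8), ‖x‖ = 1 →
      ∑ y ∈ S, zon 8 k (inner ℝ x y) = 0 := by
  obtain ⟨h1, h2⟩ := delsarte_eq_euclidean (n := 8) (by norm_num) 6 c8
    (fun k hk => by
      interval_cases k <;> norm_num [c8])
    (fun t => (t + 1) * (t + 1 / 2) ^ 2 * t ^ 2 * (t - 1 / 2)) f8_eq S hS.1
    (fun x hx y hy hxy => by
      have h1 := hS.2 x hx y hy hxy
      have h2 := abs_le.mp (abs_inner_le_one (hS.1 x hx) (hS.1 y hy))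
      have h4 : 0 ≤ inner ℝ x y + 1 := by linarith
      exact mul_nonpos_of_nonneg_of_nonpos (by positivity) (by linarith))
    (by
      rw [hc]
      norm_num [c8])
  refine ⟨fun x hx y hy hxy => ?_, h2⟩
  have h3 := h1 x hx y hy hxy
  simp only [mul_eq_zero, pow_eq_zero_iff, ne_eq, OfNat.ofNat_ne_zero, not_false_eq_true] at h3
  rcases h3 with ((h3 | h3) | h3) | h3
  · left; linarith
  · right; left; linarith
  · right; right; left; exact h3
  · right; right; right; linarith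

theorem g8_eq (t : ℝ) : (t + 1) * (t + 1 / 2) * t =
    3 / 16 * zon 8 0 t + 4 / 5 * zon 8 1 t + 3 / 2 * zon 8 2 t + zon 8 3 t := by
  simp only [zon, bet]
  norm_num
  ring

/-- every point of a maximal kissing configuration in dimension `8` has `56` neighbours -/
theorem card_neighbours8 (S : Finset (EuclideanSpace ℝ (Fin 8))) (hS : IsSphericalCode S)
    (hc : S.card = 240) (x : EuclideanSpace ℝ (Fin 8)) (hx : x ∈ S) :
    {y | y ∈ S ∧ inner ℝ x y = (1 / 2 : ℝ)}.ncard = 56 := by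
  classical
  obtain ⟨h1, h2⟩ := code8 S hS hc
  have hx1 := hS.1 x hx
  have h3 : ∑ y ∈ S, (fun t : ℝ => (t + 1) * (t + 1 / 2) * t) (inner ℝ x y) = 3 / 16 * 240 := by
    have h4 : ∀ y ∈ S, (fun t : ℝ => (t + 1) * (t + 1 / 2) * t) (inner ℝ x y) =
        3 / 16 + 4 / 5 * zon 8 1 (inner ℝ x y) + 3 / 2 * zon 8 2 (inner ℝ x y) +
          zon 8 3 (inner ℝ x y) := by
      intro y _
      have h5 := g8_eq (inner ℝ x y)
      rw [show zon 8 0 (inner ℝ x y) = 1 from rfl, mul_one] at h5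
      exact h5
    rw [Finset.sum_congr rfl h4, Finset.sum_add_distrib, Finset.sum_add_distrib,
      Finset.sum_add_distrib, ← Finset.mul_sum, ← Finset.mul_sum,
      h2 1 (by norm_num) (by norm_num) x hx1, h2 2 (by norm_num) (by norm_num) x hx1,
      h2 3 (by norm_num) (by norm_num) x hx1, Finset.sum_const, hc, nsmul_eq_mul]
    norm_num
  have h4 : ∀ y ∈ S.erase x, (fun t : ℝ => (t + 1) * (t + 1 / 2) * t) (inner ℝ x y) =
      if inner ℝ x y = (1 / 2 : ℝ) then 3 / 4 else 0 := by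
    intro y hy
    obtain ⟨hyx, hy⟩ := mem_erase.mp hy
    rcases h1 x hx y hy hyx.symm with h5 | h5 | h5 | h5 <;> rw [h5] <;> norm_num
  have h5 : inner ℝ x x = (1 : ℝ) := by rw [real_inner_self_eq_norm_sq, hx1, one_pow]
  rw [← Finset.add_sum_erase S _ hx, Finset.sum_congr rfl h4, h5, ← Finset.sum_filter,
    Finset.sum_const, nsmul_eq_mul] at h3
  have h6 : ((#{y ∈ S.erase x | inner ℝ x y = (1 / 2 : ℝ)} : ℕ) : ℝ) = 56 := by
    norm_num at h3
    linarith
  have h7 : {y | y ∈ S ∧ inner ℝ x y = (1 / 2 : ℝ)} =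
      ((S.erase x).filter fun y => inner ℝ x y = (1 / 2 : ℝ) : Finset _) := by
    ext y
    simp only [Set.mem_ofPred_eq, coe_filter, mem_erase]
    constructor
    · rintro ⟨h8, h9⟩
      refine ⟨⟨?_, h8⟩, h9⟩
      rintro rfl
      rw [h5] at h9
      norm_num at h9
    · rintro ⟨⟨-, h8⟩, h9⟩
      exact ⟨h8, h9⟩
  rw [h7, Set.ncard_coe_finset]
  exact_mod_cast h6

end Fermat.Agent.Cor.Leech
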