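import Fermat.Agent.Corollaries.Leech.FrameE
import Fermat.Agent.Corollaries.Quat.Dplus

/-!
# The classes of `E₈` modulo `2 E₈`

Every class contains a vector of norm `≤ 4`; the short vectors of a class are `0`, or `±x` of norm `2`, or
`8` mutually orthogonal pairs `±x` of norm `4`: `1 + 240 / 2 + 2160 / 16 = 2⁸`.
-/

set_option autoImplicit false

noncomputable section

namespace Fermat.Agent.Cor.Leech.Eight

open Finset Fermat.Agent.Cor.Quat

/-- the lattice `E₈`, scaled by `2` -/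
def e8z : AddSubgroup (Fin 8 → ℤ) where
  carrier := {z | (fun i => (z i : ℚ) / 2) ∈ E8}
  zero_mem' := by
    have h : (fun i => (((0 : Fin 8 → ℤ) i : ℤ) : ℚ) / 2) = 0 := by
      funext i
      simp
    show (fun i => (((0 : Fin 8 → ℤ) i : ℤ) : ℚ) / 2) ∈ E8
    rw [h]
    exact E8.zero_mem
  add_mem' := by
    intro x y hx hy
    have h : (fun i => (((x + y) i : ℤ) : ℚ) / 2) =
        (fun i => (x i : ℚ) / 2) + fun i => (y i : ℚ) / 2 := by
      funext i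
      simp [add_div]
    show (fun i => (((x + y) i : ℤ) : ℚ) / 2) ∈ E8
    rw [h]
    exact E8.add_mem hx hy
  neg_mem' := by
    intro x hx
    have h : (fun i => (((-x) i : ℤ) : ℚ) / 2) = -fun i => (x i : ℚ) / 2 := by
      funext i
      simp [neg_div]
    show (fun i => (((-x) i : ℤ) : ℚ) / 2) ∈ E8
    rw [h]
    exact E8.neg_mem hx

/-- `∑ xᵢ²` -/
def sqn (x : Fin 8 → ℤ) : ℤ := ∑ i, x i ^ 2

theorem sqn_nonneg (x : Fin 8 → ℤ) : 0 ≤ sqn x := Finset.sum_nonneg fun _ _ => sq_nonneg _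

theorem sqn_eq_zero {x : Fin 8 → ℤ} : sqn x = 0 ↔ x = 0 := by
  unfold sqn
  rw [Finset.sum_eq_zero_iff_of_nonneg fun i _ => sq_nonneg _]
  constructor
  · intro h
    funext i
    exact pow_eq_zero_iff two_ne_zero |>.mp (h i (mem_univ i))
  · rintro rfl i -
    simp

theorem sqn_add_sub (x y : Fin 8 → ℤ) : sqn (x + y) + sqn (x - y) = 2 * (sqn x + sqn y) := by
  unfold sqn
  rw [← Finset.sum_add_distrib, ← Finset.sum_add_distrib, Finset.mul_sum]
  refine Finset.sum_congr rfl fun i _ => ?_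
  rw [Pi.add_apply, Pi.sub_apply]
  ring

theorem sqn_add (x y : Fin 8 → ℤ) : sqn (x + y) = sqn x + sqn y + 2 * ∑ i, x i * y i := by
  unfold sqn
  rw [Finset.mul_sum, ← Finset.sum_add_distrib, ← Finset.sum_add_distrib]
  refine Finset.sum_congr rfl fun i _ => ?_
  rw [Pi.add_apply]
  ring

theorem sqn_two (w : Fin 8 → ℤ) : sqn (2 • w) = 4 * sqn w := by
  unfold sqn
  rw [Finset.mul_sum]
  refine Finset.sum_congr rfl fun i _ => ?_
  rw [Pi.smul_apply, nsmul_eq_mul]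
  push_cast
  ring

theorem sqn_neg (x : Fin 8 → ℤ) : sqn (-x) = sqn x := by
  unfold sqn
  exact Finset.sum_congr rfl fun i _ => by rw [Pi.neg_apply, neg_sq]


theorem sqn_half (z : Fin 8 → ℤ) : (sqn z : ℚ) = 4 * ∑ i, ((z i : ℚ) / 2) ^ 2 := by
  unfold sqn
  push_cast
  rw [Finset.mul_sum]
  exact Finset.sum_congr rfl fun i _ => by ring

theorem e8z_even {z : Fin 8 → ℤ} (hz : z ∈ e8z) : ∃ k : ℕ, sqn z = 8 * (k : ℤ) := by
  obtain ⟨m, hm⟩ := E8_even (x := fun i => (z i : ℚ) / 2) hz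
  refine ⟨m, ?_⟩
  have h := sqn_half z
  rw [hm] at h
  have h1 : (sqn z : ℚ) = ((8 * (m : ℤ) : ℤ) : ℚ) := by
    rw [h]
    push_cast
    ring
  exact_mod_cast h1

theorem e8z_min {x : Fin 8 → ℤ} (hx : x ∈ e8z) (h0 : x ≠ 0) : 8 ≤ sqn x := by
  obtain ⟨k, hk⟩ := e8z_even hx
  have h3 : sqn x ≠ 0 := fun h => h0 (sqn_eq_zero.mp h)
  omega

theorem short_congr {x y w : Fin 8 → ℤ} (hy : y ∈ e8z) (hw : w ∈ e8z)
    (h : x = y + 2 • w) (hx8 : sqn x ≤ 16) (hy8 : sqn y ≤ 16) :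
    x = y ∨ x = -y ∨ (∑ i, x i * y i = 0 ∧ sqn x = 16 ∧ sqn y = 16) := by
  by_cases h0 : w = 0
  · left
    rw [h, h0, smul_zero, add_zero]
  by_cases h1 : y + w = 0
  · right; left
    have h2 : w = -y := by
      rw [eq_neg_iff_add_eq_zero, add_comm]
      exact h1
    rw [h, h2, two_nsmul]
    abel
  right; right
  have h2 := e8z_min hw h0
  have h3 := e8z_min (e8z.add_mem hy hw) h1
  have h4 : x + y = 2 • (y + w) := by
    rw [h, smul_add, two_nsmul, two_nsmul]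
    abel
  have h5 : x - y = 2 • w := by
    rw [h]
    abel
  have h6 := sqn_add_sub x y
  rw [h4, h5, sqn_two, sqn_two] at h6
  have h7 := sqn_add x y
  rw [h4, sqn_two] at h7
  refine ⟨?_, ?_, ?_⟩ <;> linarith

/-- `E₈ / 2 E₈` -/
abbrev Q : Type := e8z ⧸ (nsmulAddMonoidHom (α := e8z) 2).range

theorem mk_eq_iff (x y : e8z) : (x : Q) = y ↔ ∃ w ∈ e8z, (y : Fin 8 → ℤ) = x + 2 • w := by
  rw [QuotientAddGroup.eq, AddMonoidHom.mem_range]
  constructor
  · rintro ⟨w, hw⟩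
    refine ⟨w, w.2, ?_⟩
    have h1 : (2 • w : e8z) = -x + y := hw
    have h2 := congrArg (fun z : e8z => (z : Fin 8 → ℤ)) h1
    change 2 • (w : Fin 8 → ℤ) = -(x : Fin 8 → ℤ) + y at h2
    rw [h2]
    abel
  · rintro ⟨w, hw, h⟩
    refine ⟨⟨w, hw⟩, ?_⟩
    apply Subtype.ext
    change 2 • w = -(x : Fin 8 → ℤ) + y
    rw [h]
    abel


theorem shell_card {k : ℕ} (hk : k ≠ 0) :
    {z : Fin 8 → ℤ | z ∈ e8z ∧ sqn z = 8 * (k : ℤ)}.ncard = 240 * ∑ d ∈ k.divisors, d ^ 3 := by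
  rw [← card_E8 hk]
  refine Set.ncard_congr (fun z _ => fun i => (z i : ℚ) / 2) ?_ ?_ ?_
  · rintro z ⟨hz, h⟩
    refine ⟨hz, ?_⟩
    have h1 := sqn_half z
    rw [h] at h1
    push_cast at h1
    show ∑ i, ((z i : ℚ) / 2) ^ 2 = 2 * (k : ℚ)
    linarith
  · intro z w _ _ h
    funext i
    have h1 : (z i : ℚ) / 2 = (w i : ℚ) / 2 := congrFun h i
    have h2 : (z i : ℚ) = (w i : ℚ) := by linarith
    exact_mod_cast h2
  · rintro x ⟨hx, h⟩
    obtain ⟨z, hz⟩ : ∃ z : Fin 8 → ℤ, x = fun i => (z i : ℚ) / 2 := by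
      have h1 : (∀ i, ∃ a : ℤ, x i = a) ∨ (∀ i, ∃ a : ℤ, x i = a + 1 / 2) := hx.1
      rcases h1 with h1 | h1
      · choose a ha using h1
        exact ⟨fun i => 2 * a i, by funext i; rw [ha]; push_cast; ring⟩
      · choose a ha using h1
        exact ⟨fun i => 2 * a i + 1, by funext i; rw [ha]; push_cast; ring⟩
    subst hz
    refine ⟨z, ⟨hx, ?_⟩, rfl⟩
    have h1 := sqn_half z
    rw [h] at h1
    have h2 : (sqn z : ℚ) = ((8 * (k : ℤ) : ℤ) : ℚ) := by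
      rw [h1]
      push_cast
      ring
    exact_mod_cast h2

theorem finite_T (k : ℕ) : {x : e8z | sqn x = 8 * (k : ℤ)}.Finite := by
  have h := finite_sq (ι := Fin 8) (8 * k)
  refine Set.Finite.of_injOn (f := fun x : e8z => (x : Fin 8 → ℤ)) (t := _) ?_
    (fun x _ y _ h => Subtype.ext h) h
  intro x hx
  have h1 : sqn x = 8 * (k : ℤ) := hx
  show ∑ i, (x : Fin 8 → ℤ) i ^ 2 = ((8 * k : ℕ) : ℤ)
  unfold sqn at h1
  rw [h1]
  push_cast
  rfl

/-- the vectors of norm `2 k` -/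
def T (k : ℕ) : Finset e8z := (finite_T k).toFinset

theorem mem_T {k : ℕ} {x : e8z} : x ∈ T k ↔ sqn x = 8 * (k : ℤ) := by
  rw [T, Set.Finite.mem_toFinset]
  rfl

theorem card_T (k : ℕ) :
    (T k).card = {z : Fin 8 → ℤ | z ∈ e8z ∧ sqn z = 8 * (k : ℤ)}.ncard := by
  rw [T, ← Set.ncard_eq_toFinset_card _ (finite_T k)]
  refine Set.ncard_congr (fun x _ => (x : Fin 8 → ℤ)) (fun x hx => ⟨x.2, hx⟩)
    (fun x y _ _ h => Subtype.ext h) ?_
  rintro x ⟨hx, h⟩
  exact ⟨⟨x, hx⟩, h, rfl⟩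

open Classical in
/-- the vectors of norm `2 k` in a class -/
def Fb (k : ℕ) (q : Q) : Finset e8z := (T k).filter fun x => (x : Q) = q

theorem mem_Fb {k : ℕ} {q : Q} {x : e8z} : x ∈ Fb k q ↔ sqn x = 8 * (k : ℤ) ∧ (x : Q) = q := by
  classical
  rw [Fb, mem_filter, mem_T]


theorem Fb_cases {k l : ℕ} (hk : k ≤ 2) (hl : l ≤ 2) {q : Q} {x y : e8z} (hx : x ∈ Fb k q)
    (hy : y ∈ Fb l q) : k = l ∧ (x = y ∨ x = -y ∨
      (∑ i, (x : Fin 8 → ℤ) i * (y : Fin 8 → ℤ) i = 0 ∧ k = 2)) := by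
  rw [mem_Fb] at hx hy
  have h1 : (y : Q) = x := hy.2.trans hx.2.symm
  obtain ⟨w, hw, h⟩ := (mk_eq_iff y x).mp h1
  have hk' : (k : ℤ) ≤ 2 := by exact_mod_cast hk
  have hl' : (l : ℤ) ≤ 2 := by exact_mod_cast hl
  rcases short_congr y.2 hw h (by rw [hx.1]; linarith) (by rw [hy.1]; linarith) with h2 | h2 | h2
  · have h3 : x = y := Subtype.ext h2
    refine ⟨?_, Or.inl h3⟩
    have h4 := hx.1
    rw [h3, hy.1] at h4
    omega
  · refine ⟨?_, Or.inr (Or.inl (Subtype.ext h2))⟩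
    have h4 := hx.1
    rw [h2, sqn_neg, hy.1] at h4
    omega
  · obtain ⟨h3, h4, h5⟩ := h2
    rw [hx.1] at h4
    rw [hy.1] at h5
    exact ⟨by omega, Or.inr (Or.inr ⟨h3, by omega⟩)⟩

theorem Fb_card_one (q : Q) : (Fb 1 q).card ≤ 2 := by
  classical
  rcases (Fb 1 q).eq_empty_or_nonempty with h | ⟨x, hx⟩
  · rw [h]
    simp
  · refine (Finset.card_le_card (t := {x, -x}) fun y hy => ?_).trans Finset.card_le_two
    rw [mem_insert, mem_singleton]
    rcases (Fb_cases (by omega) (by omega) hy hx).2 with h | h | ⟨-, h⟩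
    · exact Or.inl h
    · exact Or.inr h
    · omega

theorem Fb_card_zero (q : Q) : (Fb 0 q).card ≤ 1 := by
  rw [Finset.card_le_one]
  intro x hx y hy
  rw [mem_Fb, Nat.cast_zero, mul_zero, sqn_eq_zero] at hx hy
  exact Subtype.ext (hx.1.trans hy.1.symm)

theorem Fb_card_two (q : Q) : (Fb 2 q).card ≤ 16 := by
  classical
  have h1 : ((Fb 2 q).image fun x : e8z => (x : Fin 8 → ℤ)).card = (Fb 2 q).card :=
    Finset.card_image_of_injective _ Subtype.coe_injective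
  rw [← h1]
  apply frame_card
  · rw [mem_image]
    rintro ⟨x, hx, h⟩
    have h2 := (mem_Fb.mp hx).1
    rw [h, sqn_eq_zero.mpr rfl] at h2
    norm_num at h2
  · intro x hx y hy
    rw [mem_image] at hx hy
    obtain ⟨x, hx, rfl⟩ := hx
    obtain ⟨y, hy, rfl⟩ := hy
    rcases (Fb_cases le_rfl le_rfl hx hy).2 with h | h | ⟨h, -⟩
    · exact Or.inl (congrArg _ h)
    · exact Or.inr (Or.inl (by rw [h]; rfl))
    · exact Or.inr (Or.inr h)

/-- the weighted number of short vectors in a class -/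
def wgt (q : Q) : ℕ := 16 * (Fb 0 q).card + 8 * (Fb 1 q).card + (Fb 2 q).card

theorem wgt_le (q : Q) : wgt q ≤ 16 := by
  have h0 := Fb_card_zero q
  have h2 := Fb_card_one q
  have h4 := Fb_card_two q
  have key : ∀ k l : ℕ, k ≤ 2 → l ≤ 2 → k ≠ l → (Fb k q).card = 0 ∨ (Fb l q).card = 0 := by
    intro k l hk hl hkl
    by_contra h
    push Not at h
    obtain ⟨x, hx⟩ := Finset.card_pos.mp (Nat.pos_of_ne_zero h.1)
    obtain ⟨y, hy⟩ := Finset.card_pos.mp (Nat.pos_of_ne_zero h.2)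
    exact hkl (Fb_cases hk hl hx hy).1
  have e01 := key 0 1 (by norm_num) (by norm_num) (by norm_num)
  have e02 := key 0 2 (by norm_num) (by norm_num) (by norm_num)
  have e12 := key 1 2 (by norm_num) (by norm_num) (by norm_num)
  unfold wgt
  omega

theorem card_T_zero : (T 0).card = 1 := by
  rw [Finset.card_eq_one]
  refine ⟨0, ?_⟩
  ext x
  rw [mem_T, Nat.cast_zero, mul_zero, sqn_eq_zero, mem_singleton]
  exact ⟨fun h => Subtype.ext h, fun h => by rw [h]; rfl⟩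

theorem card_T_one : (T 1).card = 240 := by
  rw [card_T, shell_card one_ne_zero]
  simp

theorem card_T_two : (T 2).card = 2160 := by
  rw [card_T, shell_card two_ne_zero]
  decide +kernel

instance : Finite Q := (card_quot e8z).1

theorem sum_Fb [Fintype Q] (k : ℕ) : ∑ q : Q, (Fb k q).card = (T k).card := by
  classical
  exact (Finset.card_eq_sum_card_fiberwise fun x _ => mem_univ _).symm

/-- every class has total weight `16` -/
theorem wgt_eq (q : Q) : wgt q = 16 ∧ Nat.card Q = 2 ^ 8 := by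
  classical
  let _ : Fintype Q := Fintype.ofFinite Q
  have h1 : ∑ q : Q, wgt q = 16 * 2 ^ 8 := by
    unfold wgt
    rw [Finset.sum_add_distrib, Finset.sum_add_distrib, ← Finset.mul_sum,
      ← Finset.mul_sum, sum_Fb, sum_Fb, sum_Fb, card_T_zero, card_T_one, card_T_two]
    norm_num
  have h2 := (card_quot e8z).2
  have h3 : ∑ q : Q, wgt q ≤ ∑ _q : Q, 16 := Finset.sum_le_sum fun q _ => wgt_le q
  have h4 : ∑ _q : Q, 16 = 16 * Nat.card Q := by
    rw [Finset.sum_const, Finset.card_univ, smul_eq_mul, mul_comm, Nat.card_eq_fintype_card]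
  have h5 : Nat.card Q = 2 ^ 8 := by
    have h6 : Nat.card Q ≤ 2 ^ 8 := h2
    rw [h1, h4] at h3
    omega
  refine ⟨?_, h5⟩
  have h6 : ∑ q : Q, wgt q = ∑ _q : Q, 16 := by rw [h1, h4, h5]
  exact (Finset.sum_eq_sum_iff_of_le fun q _ => wgt_le q).mp h6 q (mem_univ q)

/-- **every vector of `E₈` is congruent modulo `2 E₈` to a vector of norm `≤ 4`** (in the scale of `e8z` the
norm is `(∑ xᵢ²) / 4`) -/
theorem e8_short {x : Fin 8 → ℤ} (hx : x ∈ e8z) :
    ∃ y ∈ e8z, ∃ w ∈ e8z, x = y + 2 • w ∧ ∑ i, y i ^ 2 ≤ 16 := by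
  have h1 := (wgt_eq (⟨x, hx⟩ : e8z)).1
  have h2 : ∃ k ≤ 2, (Fb k ((⟨x, hx⟩ : e8z) : Q)).Nonempty := by
    by_contra h
    push Not at h
    have e : ∀ k ≤ 2, (Fb k ((⟨x, hx⟩ : e8z) : Q)).card = 0 := fun k hk => by
      rw [h k hk, Finset.card_empty]
    rw [wgt, e 0 (by norm_num), e 1 (by norm_num), e 2 (by norm_num)] at h1
    norm_num at h1
  obtain ⟨k, hk, y, hy⟩ := h2
  rw [mem_Fb] at hy
  obtain ⟨w, hw, h⟩ := (mk_eq_iff y ⟨x, hx⟩).mp hy.2
  refine ⟨y, y.2, w, hw, h, ?_⟩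
  have h3 : ∑ i, (y : Fin 8 → ℤ) i ^ 2 = 8 * (k : ℤ) := hy.1
  rw [h3]
  have hk' : (k : ℤ) ≤ 2 := by exact_mod_cast hk
  linarith

end Fermat.Agent.Cor.Leech.Eight
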