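import Fermat.Agent.Corollaries.Leech.Steiner

/-!
# Octads through a point

`253` octads contain a given point, two of them meet in two or four points.
-/

set_option autoImplicit false

namespace Fermat.Agent.Cor.Leech

open Finset

open Classical in
theorem card_octads_through (k : Fin 24) :
    #{c : Fin 24 → ZMod 2 | c ∈ golay ∧ wt c = 8 ∧ c k ≠ 0} = 253 := by
  set O : Finset (Fin 24 → ZMod 2) := {c | c ∈ golay ∧ wt c = 8 ∧ c k ≠ 0} with hO
  have hO' : ∀ c, c ∈ O ↔ c ∈ golay ∧ wt c = 8 ∧ c k ≠ 0 := by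
    intro c
    rw [hO, mem_filter, and_iff_right (mem_univ c)]
  set P : Finset (Σ _ : Fin 24 → ZMod 2, Finset (Fin 24)) :=
    O.sigma fun c => (({i | c i ≠ 0} : Finset (Fin 24)).erase k).powersetCard 4 with hP
  have hPc : P.card = #O * 35 := by
    rw [hP, card_sigma, sum_congr rfl (g := fun _ => 35), sum_const, smul_eq_mul]
    intro c hc
    obtain ⟨-, h8, h0⟩ := (hO' c).mp hc
    rw [card_powersetCard, card_erase_of_mem (mem_filter.mpr ⟨mem_univ k, h0⟩)]
    rw [wt] at h8
    rw [h8]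
    rfl
  have hPT : P.card = ((univ.erase k).powersetCard 4).card := by
    refine card_bij (fun p _ => p.2) ?_ ?_ ?_
    · rintro ⟨c, T⟩ h
      rw [hP, mem_sigma, mem_powersetCard] at h
      rw [mem_powersetCard]
      exact ⟨h.2.1.trans (erase_subset_erase _ (subset_univ _)), h.2.2⟩
    · rintro ⟨c, T⟩ hc ⟨d, T'⟩ hd (rfl : T = T')
      rw [hP, mem_sigma, mem_powersetCard] at hc hd
      obtain ⟨hc1, hc2, hc3⟩ := hc
      obtain ⟨hd1, hd2, -⟩ := hd
      have h0 : k ∉ T := fun h => (mem_erase.mp (hc2 h)).1 rfl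
      obtain ⟨e, -, he⟩ := steiner (insert k T) (by rw [card_insert_of_notMem h0, hc3])
      obtain ⟨hc4, hc5, hc6⟩ := (hO' c).mp hc1
      obtain ⟨hd4, hd5, hd6⟩ := (hO' d).mp hd1
      have h1 : c = e := he c ⟨hc4, hc5, fun i hi => by
        rcases mem_insert.mp hi with rfl | hi
        · exact hc6
        · exact (mem_filter.mp (mem_erase.mp (hc2 hi)).2).2⟩
      have h2 : d = e := he d ⟨hd4, hd5, fun i hi => by
        rcases mem_insert.mp hi with rfl | hi
        · exact hd6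
        · exact (mem_filter.mp (mem_erase.mp (hd2 hi)).2).2⟩
      rw [h1, h2]
    · intro T hT
      rw [mem_powersetCard] at hT
      have h0 : k ∉ T := fun h => (mem_erase.mp (hT.1 h)).1 rfl
      obtain ⟨c, ⟨hc1, hc2, hc3⟩, -⟩ :=
        steiner (insert k T) (by rw [card_insert_of_notMem h0, hT.2])
      refine ⟨⟨c, T⟩, ?_, rfl⟩
      rw [hP, mem_sigma, mem_powersetCard]
      refine ⟨(hO' c).mpr ⟨hc1, hc2, hc3 k (mem_insert_self k T)⟩, fun i hi => ?_, hT.2⟩
      exact mem_erase.mpr ⟨fun h => h0 (h ▸ hi), mem_filter.mpr ⟨mem_univ i,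
        hc3 i (mem_insert_of_mem hi)⟩⟩
  rw [card_powersetCard, card_erase_of_mem (mem_univ k), card_univ, Fintype.card_fin, hPc] at hPT
  have h1 : Nat.choose (24 - 1) 4 = 253 * 35 := by decide
  rw [h1] at hPT
  exact Nat.eq_of_mul_eq_mul_right (by norm_num) hPT

/-- **there are `253` octads which contain a given point** -/
theorem card_octads_point (k : Fin 24) :
    {c : Fin 24 → ZMod 2 | c ∈ golay ∧ wt c = 8 ∧ c k ≠ 0}.ncard = 253 := by
  classical
  rw [← card_octads_through k, ← Set.ncard_coe_finset]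
  congr 1
  ext c
  simp

theorem card_octads_zero :
    {c : Fin 24 → ZMod 2 | c ∈ golay ∧ wt c = 8 ∧ c 0 ≠ 0}.ncard = 253 :=
  card_octads_point 0

/-- two different octads meet in zero, two or four points -/
theorem octad_inter' {c d : Fin 24 → ZMod 2} (hc : c ∈ golay) (hd : d ∈ golay) (hc8 : wt c = 8)
    (hd8 : wt d = 8) (h : c ≠ d) :
    (univ.filter fun i => c i ≠ 0 ∧ d i ≠ 0).card = 0 ∨
      (univ.filter fun i => c i ≠ 0 ∧ d i ≠ 0).card = 2 ∨
      (univ.filter fun i => c i ≠ 0 ∧ d i ≠ 0).card = 4 := by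
  have h1 := wt_add c d
  have h2 := wt_mem (golay.add_mem hc hd)
  have h3 : ¬ wt (c + d) < 8 := fun h3 => h (eq_of_wt_add_lt hc hd h3)
  simp only [mem_insert, mem_singleton] at h2
  omega

/-- two different octads with a common point meet in two or four points -/
theorem octad_inter {c d : Fin 24 → ZMod 2} (hc : c ∈ golay) (hd : d ∈ golay) (hc8 : wt c = 8)
    (hd8 : wt d = 8) (hc0 : c 0 ≠ 0) (hd0 : d 0 ≠ 0) (h : c ≠ d) :
    (univ.filter fun i => c i ≠ 0 ∧ d i ≠ 0).card = 2 ∨
      (univ.filter fun i => c i ≠ 0 ∧ d i ≠ 0).card = 4 := by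
  refine (octad_inter' hc hd hc8 hd8 h).resolve_left fun h1 => ?_
  rw [card_eq_zero, filter_eq_empty_iff] at h1
  exact h1 (mem_univ 0) ⟨hc0, hd0⟩

end Fermat.Agent.Cor.Leech
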