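import Fermat.Agent.Corollaries.Leech.Gerzon
import Fermat.Agent.Corollaries.Leech.Octads

/-!
# Equiangular lines in `ℝ⁷` and `ℝ²³`

The maximal number of equiangular lines in `ℝ⁷` is `28`, in `ℝ²³` it is `276`.
-/

set_option autoImplicit false

noncomputable section

namespace Fermat.Agent.Cor.Leech

open Finset

/-- unit vectors which span pairwise different lines with one common angle -/
def IsEquiangular {n : ℕ} (S : Finset (EuclideanSpace ℝ (Fin n))) : Prop :=
  (∀ x ∈ S, ‖x‖ = 1) ∧ ∃ α : ℝ, α < 1 ∧ ∀ x ∈ S, ∀ y ∈ S, x ≠ y → |inner ℝ x y| = α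

theorem inner_eq_sum {n : ℕ} (x y : EuclideanSpace ℝ (Fin n)) :
    inner ℝ x y = ∑ i, x i * y i := by
  rw [PiLp.inner_apply]
  refine Finset.sum_congr rfl fun i _ => ?_
  simp only [RCLike.inner_apply, conj_trivial]
  ring

theorem equiangular_le {n : ℕ} (S : Finset (EuclideanSpace ℝ (Fin n))) (hS : IsEquiangular S) :
    2 * S.card ≤ n * (n + 1) := by
  classical
  obtain ⟨h1, α, hα, h2⟩ := hS
  have hinj : Function.Injective fun (x : EuclideanSpace ℝ (Fin n)) (i : Fin n) => x i := by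
    intro x y hxy
    ext i
    exact congrFun hxy i
  by_cases hc : S.card ≤ 1
  · rcases Nat.eq_zero_or_pos n with rfl | hn
    · have h3 : S.card = 0 := by
        rw [Finset.card_eq_zero, Finset.eq_empty_iff_forall_notMem]
        intro x hx
        have h4 := h1 x hx
        have h5 : x = 0 := Subsingleton.elim _ _
        rw [h5, norm_zero] at h4
        exact zero_ne_one h4
      omega
    · nlinarith
  · push Not at hc
    obtain ⟨x₀, hx₀, y₀, hy₀, hxy₀⟩ := Finset.one_lt_card.mp hc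
    have hα0 : 0 ≤ α := (h2 x₀ hx₀ y₀ hy₀ hxy₀) ▸ abs_nonneg _
    rw [← card_image_of_injective S hinj]
    refine gerzon (α := α) _ (by nlinarith) ?_ ?_
    · intro v hv
      obtain ⟨x, hx, rfl⟩ := mem_image.mp hv
      have h3 := inner_eq_sum x x
      rw [real_inner_self_eq_norm_sq, h1 x hx] at h3
      show ∑ i, x i ^ 2 = 1
      rw [Finset.sum_congr rfl fun i _ => sq (x i), ← h3, one_pow]
    · intro v hv w hw hvw
      obtain ⟨x, hx, rfl⟩ := mem_image.mp hv
      obtain ⟨y, hy, rfl⟩ := mem_image.mp hw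
      have hxy : x ≠ y := fun h => hvw (by rw [h])
      have h3 := h2 x hx y hy hxy
      rw [inner_eq_sum] at h3
      show (∑ i, x i * y i) ^ 2 = α ^ 2
      rw [← h3, sq_abs]

/-- equiangular lines in a hyperplane -/
theorem exists_equiangular {n : ℕ} {ι : Type} [Fintype ι] (v : Fin (n + 1) → ℝ) (hv : v ≠ 0)
    (a : ι → Fin (n + 1) → ℝ) {r s : ℝ} (hr : 0 < r) (hsr : s < r)
    (h0 : ∀ k, ∑ i, a k i * v i = 0) (h1 : ∀ k, ∑ i, a k i ^ 2 = r)
    (h2 : ∀ k l, k ≠ l → |∑ i, a k i * a l i| = s) :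
    ∃ S : Finset (EuclideanSpace ℝ (Fin n)), S.card = Fintype.card ι ∧ IsEquiangular S := by
  classical
  let V : EuclideanSpace ℝ (Fin (n + 1)) := WithLp.toLp 2 v
  have hV : V ≠ 0 := by
    intro h
    apply hv
    funext i
    have h3 : V i = 0 := by rw [h]; rfl
    exact h3
  have : Fact (Module.finrank ℝ (EuclideanSpace ℝ (Fin (n + 1))) = n + 1) :=
    ⟨finrank_euclideanSpace_fin⟩
  let b := OrthonormalBasis.fromOrthogonalSpanSingleton (𝕜 := ℝ) n hV
  let x : ι → EuclideanSpace ℝ (Fin (n + 1)) := fun k =>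
    WithLp.toLp 2 fun i => (1 / Real.sqrt r) * a k i
  have hsq : (1 / Real.sqrt r) ^ 2 = 1 / r := by
    rw [div_pow, one_pow, Real.sq_sqrt hr.le]
  have hx : ∀ k, x k ∈ (ℝ ∙ V)ᗮ := by
    intro k
    rw [Submodule.mem_orthogonal_singleton_iff_inner_right, inner_eq_sum]
    have h3 : ∑ i, V i * x k i = (1 / Real.sqrt r) * ∑ i, a k i * v i := by
      rw [Finset.mul_sum]
      refine Finset.sum_congr rfl fun i _ => ?_
      change v i * ((1 / Real.sqrt r) * a k i) = _
      ring
    rw [h3, h0, mul_zero]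
  let y : ι → EuclideanSpace ℝ (Fin n) := fun k => b.repr ⟨x k, hx k⟩
  have hy : ∀ k l, inner ℝ (y k) (y l) = 1 / r * ∑ i, a k i * a l i := by
    intro k l
    change inner ℝ (b.repr ⟨x k, hx k⟩) (b.repr ⟨x l, hx l⟩) = _
    rw [LinearIsometryEquiv.inner_map_map, Submodule.coe_inner, inner_eq_sum, Finset.mul_sum]
    refine Finset.sum_congr rfl fun i _ => ?_
    change ((1 / Real.sqrt r) * a k i) * ((1 / Real.sqrt r) * a l i) = _
    rw [← hsq]
    ring
  have hyy : ∀ k, inner ℝ (y k) (y k) = (1 : ℝ) := by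
    intro k
    rw [hy, ← Finset.sum_congr rfl fun i _ => sq (a k i), h1, one_div_mul_cancel hr.ne']
  have hkl : ∀ k l, k ≠ l → |inner ℝ (y k) (y l)| = s / r := by
    intro k l h
    rw [hy, abs_mul, h2 k l h, abs_of_pos (by positivity)]
    ring
  have hsr' : s / r < 1 := (div_lt_one hr).mpr hsr
  have hinj : Function.Injective y := by
    intro k l h
    by_contra hne
    have h3 := hkl k l hne
    rw [← h, hyy, abs_one] at h3
    exact hsr'.ne h3.symm
  refine ⟨univ.image y, by rw [card_image_of_injective _ hinj, card_univ], ?_, s / r, hsr', ?_⟩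
  · intro z hz
    obtain ⟨k, -, rfl⟩ := mem_image.mp hz
    have h3 := hyy k
    rw [real_inner_self_eq_norm_sq] at h3
    have h4 := norm_nonneg (y k)
    nlinarith
  · intro z hz w hw hzw
    obtain ⟨k, -, rfl⟩ := mem_image.mp hz
    obtain ⟨l, -, rfl⟩ := mem_image.mp hw
    exact hkl k l fun h => hzw (by rw [h])

/-! ### `28` lines in `ℝ⁷` -/

/-- pairs -/
abbrev P28 : Type := {p : Fin 8 × Fin 8 // p.1 < p.2}

/-- `(3, 3, -1, …, -1)` -/
def a28 (p : P28) (i : Fin 8) : ℤ := if i = p.1.1 ∨ i = p.1.2 then 3 else -1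

theorem a28_sum : ∀ p : P28, ∑ i, a28 p i = 0 := by decide +kernel

theorem a28_sq : ∀ p : P28, ∑ i, a28 p i ^ 2 = 24 := by decide +kernel

theorem a28_mul : ∀ p q : P28, p ≠ q → |∑ i, a28 p i * a28 q i| = 8 := by decide +kernel

theorem exists_28 :
    ∃ S : Finset (EuclideanSpace ℝ (Fin 7)), S.card = 28 ∧ IsEquiangular S := by
  have h := exists_equiangular (n := 7) (ι := P28) (fun _ => 1) (fun h => by
      have := congrFun h 0
      norm_num at this) (fun p i => (a28 p i : ℝ)) (r := 24) (s := 8) (by norm_num) (by norm_num)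
    (fun p => by
      simp only [mul_one]
      exact_mod_cast a28_sum p) (fun p => by exact_mod_cast a28_sq p)
    (fun p q h => by exact_mod_cast a28_mul p q h)
  have h28 : Fintype.card P28 = 28 := by decide +kernel
  rwa [h28] at h

/-- **the maximal number of equiangular lines in `ℝ⁷` is `28`** -/
theorem equiangular_7 :
    IsGreatest {k | ∃ S : Finset (EuclideanSpace ℝ (Fin 7)), S.card = k ∧ IsEquiangular S} 28 := by
  refine ⟨exists_28, ?_⟩
  rintro k ⟨S, rfl, hS⟩
  have := equiangular_le S hS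
  omega

/-! ### `276` lines in `ℝ²³` -/

/-- the octads which contain the point `0` -/
abbrev Oct : Type := {c : Fin 24 → ZMod 2 // c ∈ golay ∧ wt c = 8 ∧ c 0 ≠ 0}

instance : Fintype Oct := Fintype.ofFinite _

theorem card_Oct : Fintype.card Oct = 253 := by
  rw [← Nat.card_eq_fintype_card]
  exact card_octads_zero

/-- the minimal vectors `u` with `u · v = 24` -/
def u276 : {j : Fin 24 // j ≠ 0} ⊕ Oct → Fin 24 → ℝ
  | .inl j => fun i => 4 * (if i = 0 then 1 else 0) + 4 * (if i = j then 1 else 0)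
  | .inr c => fun i => 2 * (if c.1 i ≠ 0 then 1 else 0)

/-- `(5, 1, …, 1)` -/
def v276 (i : Fin 24) : ℝ := 1 + 4 * (if i = 0 then 1 else 0)

theorem sum_ind (c : Fin 24 → ZMod 2) : ∑ i, (if c i ≠ 0 then (1 : ℝ) else 0) = wt c := by
  rw [wt, Finset.card_filter]
  push_cast
  rfl

theorem sum_ind_mul (c : Fin 24 → ZMod 2) (j : Fin 24) :
    ∑ i, (if c i ≠ 0 then (1 : ℝ) else 0) * (if i = j then 1 else 0) =
      if c j ≠ 0 then 1 else 0 := by
  rw [Finset.sum_eq_single j]
  · rw [if_pos rfl, mul_one]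
  · intro i _ hi
    rw [if_neg hi, mul_zero]
  · intro h
    exact absurd (mem_univ j) h

theorem sum_delta (f : Fin 24 → ℝ) (j : Fin 24) :
    ∑ i, (if i = j then 1 else 0) * f i = f j := by
  rw [Finset.sum_eq_single j]
  · rw [if_pos rfl, one_mul]
  · intro i _ hi
    rw [if_neg hi, zero_mul]
  · intro h
    exact absurd (mem_univ j) h

theorem sum_inl_mul (j : {j : Fin 24 // j ≠ 0}) (f : Fin 24 → ℝ) :
    ∑ i, u276 (.inl j) i * f i = 4 * f 0 + 4 * f j := by
  rw [← sum_delta f 0, ← sum_delta f j, Finset.mul_sum, Finset.mul_sum,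
    ← Finset.sum_add_distrib]
  refine Finset.sum_congr rfl fun i _ => ?_
  change (4 * (if i = 0 then 1 else 0) + 4 * (if i = (j : Fin 24) then 1 else 0)) * f i = _
  ring

theorem u276_v (k : {j : Fin 24 // j ≠ 0} ⊕ Oct) : ∑ i, u276 k i * v276 i = 24 := by
  rcases k with j | c
  · rw [sum_inl_mul, v276, v276, if_pos rfl, if_neg j.2]
    norm_num
  · have h1 : ∑ i, u276 (.inr c) i * v276 i =
        2 * ∑ i, (if c.1 i ≠ 0 then (1 : ℝ) else 0) +
          8 * ∑ i, (if c.1 i ≠ 0 then (1 : ℝ) else 0) * (if i = 0 then 1 else 0) := by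
      rw [Finset.mul_sum, Finset.mul_sum, ← Finset.sum_add_distrib]
      refine Finset.sum_congr rfl fun i _ => ?_
      change (2 * (if c.1 i ≠ 0 then (1 : ℝ) else 0)) * (1 + 4 * (if i = 0 then 1 else 0)) = _
      ring
    rw [h1, sum_ind, sum_ind_mul, if_pos c.2.2.2, c.2.2.1]
    norm_num

theorem u276_sq (k : {j : Fin 24 // j ≠ 0} ⊕ Oct) : ∑ i, u276 k i * u276 k i = 32 := by
  rcases k with j | c
  · rw [sum_inl_mul]
    change 4 * (4 * (if (0 : Fin 24) = 0 then 1 else 0) + 4 * (if (0 : Fin 24) = j then 1 else 0)) +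
      4 * (4 * (if (j : Fin 24) = 0 then 1 else 0) + 4 * (if (j : Fin 24) = j then 1 else 0)) =
      (32 : ℝ)
    rw [if_pos rfl, if_neg j.2.symm, if_neg j.2, if_pos rfl]
    norm_num
  · have h1 : ∑ i, u276 (.inr c) i * u276 (.inr c) i =
        4 * ∑ i, (if c.1 i ≠ 0 then (1 : ℝ) else 0) := by
      rw [Finset.mul_sum]
      refine Finset.sum_congr rfl fun i _ => ?_
      change (2 * (if c.1 i ≠ 0 then (1 : ℝ) else 0)) * (2 * (if c.1 i ≠ 0 then (1 : ℝ) else 0)) = _
      split_ifs <;> norm_num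
    rw [h1, sum_ind, c.2.2.1]
    norm_num

theorem u276_mul (k l : {j : Fin 24 // j ≠ 0} ⊕ Oct) (h : k ≠ l) :
    ∑ i, u276 k i * u276 l i = 8 ∨ ∑ i, u276 k i * u276 l i = 16 := by
  have hLR : ∀ (j : {j : Fin 24 // j ≠ 0}) (c : Oct),
      ∑ i, u276 (.inl j) i * u276 (.inr c) i = 8 ∨
        ∑ i, u276 (.inl j) i * u276 (.inr c) i = 16 := by
    intro j c
    rw [sum_inl_mul]
    change 4 * (2 * (if c.1 0 ≠ 0 then (1 : ℝ) else 0)) + 4 * (2 * (if c.1 j ≠ 0 then 1 else 0)) = 8 ∨
      4 * (2 * (if c.1 0 ≠ 0 then (1 : ℝ) else 0)) + 4 * (2 * (if c.1 j ≠ 0 then 1 else 0)) = 16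
    rw [if_pos c.2.2.2]
    split_ifs
    · right
      norm_num
    · left
      norm_num
  rcases k with j | c <;> rcases l with j' | c'
  · right
    have hjj : (j : Fin 24) ≠ j' := fun h' => h (by rw [Subtype.ext h'])
    rw [sum_inl_mul]
    change 4 * (4 * (if (0 : Fin 24) = 0 then 1 else 0) + 4 * (if (0 : Fin 24) = j' then 1 else 0)) +
      4 * (4 * (if (j : Fin 24) = 0 then 1 else 0) + 4 * (if (j : Fin 24) = j' then 1 else 0)) =
      (16 : ℝ)
    rw [if_pos rfl, if_neg j'.2.symm, if_neg j.2, if_neg hjj]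
    norm_num
  · exact hLR j c'
  · have h1 := hLR j' c
    have h2 : ∑ i, u276 (.inr c) i * u276 (.inl j') i = ∑ i, u276 (.inl j') i * u276 (.inr c) i :=
      Finset.sum_congr rfl fun i _ => mul_comm _ _
    rwa [h2]
  · have hcc : c.1 ≠ c'.1 := fun h' => h (by rw [Subtype.ext h'])
    have h1 : ∑ i, u276 (.inr c) i * u276 (.inr c') i =
        4 * ((univ.filter fun i => c.1 i ≠ 0 ∧ c'.1 i ≠ 0).card : ℝ) := by
      rw [Finset.card_filter]
      push_cast
      rw [Finset.mul_sum]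
      refine Finset.sum_congr rfl fun i _ => ?_
      change (2 * (if c.1 i ≠ 0 then (1 : ℝ) else 0)) * (2 * (if c'.1 i ≠ 0 then (1 : ℝ) else 0)) = _
      by_cases h1 : c.1 i ≠ 0 <;> by_cases h2 : c'.1 i ≠ 0 <;> simp [h1, h2] <;> norm_num
    rw [h1]
    rcases octad_inter c.2.1 c'.2.1 c.2.2.1 c'.2.2.1 c.2.2.2 c'.2.2.2 hcc with h2 | h2
    · left
      rw [h2]
      norm_num
    · right
      rw [h2]
      norm_num

theorem v276_sq : ∑ i, v276 i * v276 i = 48 := by
  have h1 : ∑ i, v276 i * v276 i =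
      ∑ i : Fin 24, (1 : ℝ) + ∑ i : Fin 24, (if i = 0 then (1 : ℝ) else 0) * 24 := by
    rw [← Finset.sum_add_distrib]
    refine Finset.sum_congr rfl fun i _ => ?_
    rw [v276]
    split_ifs <;> norm_num
  rw [h1, sum_delta (fun _ => 24) 0]
  norm_num

theorem exists_276 :
    ∃ S : Finset (EuclideanSpace ℝ (Fin 23)), S.card = 276 ∧ IsEquiangular S := by
  classical
  have key : ∀ k l, ∑ i, (2 * u276 k i - v276 i) * (2 * u276 l i - v276 i) =
      4 * ∑ i, u276 k i * u276 l i - 48 := by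
    intro k l
    have h1 : ∑ i, (2 * u276 k i - v276 i) * (2 * u276 l i - v276 i) =
        4 * ∑ i, u276 k i * u276 l i - 2 * ∑ i, u276 k i * v276 i - 2 * ∑ i, u276 l i * v276 i +
          ∑ i, v276 i * v276 i := by
      rw [Finset.mul_sum, Finset.mul_sum, Finset.mul_sum, ← Finset.sum_sub_distrib,
        ← Finset.sum_sub_distrib, ← Finset.sum_add_distrib]
      exact Finset.sum_congr rfl fun i _ => by ring
    rw [h1, u276_v, u276_v, v276_sq]
    ring
  have h := exists_equiangular (n := 23) (ι := {j : Fin 24 // j ≠ 0} ⊕ Oct) v276 (fun h => by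
      have := congrFun h 0
      norm_num [v276] at this) (fun k i => 2 * u276 k i - v276 i) (r := 80) (s := 16)
    (by norm_num) (by norm_num)
    (fun k => by
      have h1 : ∑ i, (2 * u276 k i - v276 i) * v276 i =
          2 * ∑ i, u276 k i * v276 i - ∑ i, v276 i * v276 i := by
        rw [Finset.mul_sum, ← Finset.sum_sub_distrib]
        exact Finset.sum_congr rfl fun i _ => by ring
      rw [h1, u276_v, v276_sq]
      norm_num)
    (fun k => by
      rw [Finset.sum_congr rfl fun i _ => sq (2 * u276 k i - v276 i), key, u276_sq]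
      norm_num)
    (fun k l hkl => by
      rw [key]
      rcases u276_mul k l hkl with h1 | h1 <;> rw [h1] <;> norm_num)
  have hc : Fintype.card ({j : Fin 24 // j ≠ 0} ⊕ Oct) = 276 := by
    rw [Fintype.card_sum, card_Oct]
    have : Fintype.card {j : Fin 24 // j ≠ 0} = 23 := by decide +kernel
    rw [this]
  rwa [hc] at h

/-- **the maximal number of equiangular lines in `ℝ²³` is `276`** -/
theorem equiangular_23 :
    IsGreatest {k | ∃ S : Finset (EuclideanSpace ℝ (Fin 23)), S.card = k ∧ IsEquiangular S}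
      276 := by
  refine ⟨exists_276, ?_⟩
  rintro k ⟨S, rfl, hS⟩
  have := equiangular_le S hS
  omega

end Fermat.Agent.Cor.Leech
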