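import Fermat.Agent.Corollaries.Leech.TwentyFour
import Fermat.Agent.Corollaries.Tau.Partition

/-!
# Jacobi's products for `θ₂⁴`, `θ₃⁴`, `θ₄⁴`

With `φ(t) = ∏ (1 - tⁿ)` (as a power series with integral coefficients):
`P(t) φ(t)⁸ φ(t⁴)⁸ = φ(t²)²⁰`, `P(-t) φ(t²)⁴ = φ(t)⁸`, `Qo(t) φ(t²)⁴ = 16 t φ(t⁴)⁸`.
-/

set_option autoImplicit false

noncomputable section

namespace Fermat.Agent.Cor.Leech

open Finset Fermat.Agent.Cor.Quat

/-- roots in `ℤ⟦X⟧` are determined by their constant coefficients -/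
theorem root_unique {a b : PowerSeries ℤ} {k : ℕ} (hk : k ≠ 0) (h : a ^ k = b ^ k)
    (hab : PowerSeries.constantCoeff a = PowerSeries.constantCoeff b)
    (h0 : PowerSeries.constantCoeff a ≠ 0) : a = b := by
  have h1 := (Commute.all a b).geom_sum₂_mul k
  rw [h, sub_self] at h1
  rcases mul_eq_zero.mp h1 with h2 | h2
  · exfalso
    have h3 := congrArg (PowerSeries.constantCoeff (R := ℤ)) h2
    rw [map_sum, map_zero] at h3
    simp only [map_mul, map_pow, ← hab, ← pow_add] at h3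
    have h4 : ∀ i ∈ range k, PowerSeries.constantCoeff a ^ (i + (k - 1 - i)) =
        PowerSeries.constantCoeff a ^ (k - 1) := by
      intro i hi
      rw [mem_range] at hi
      congr 1
      omega
    rw [Finset.sum_congr rfl h4, Finset.sum_const, card_range, nsmul_eq_mul] at h3
    exact mul_ne_zero (Nat.cast_ne_zero.mpr hk) (pow_ne_zero _ h0) h3
  · exact sub_eq_zero.mp h2

/-- Euler's product -/
abbrev ph : PowerSeries ℤ := Tau.phi ℤ

theorem cc_ph : PowerSeries.constantCoeff ph = 1 := by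
  rw [← PowerSeries.coeff_zero_eq_constantCoeff_apply]
  exact Tau.coeff_zero_phi ℤ

theorem Dz_eq_ph : Dz = PowerSeries.X * ph ^ 24 := by
  rw [← Tau.ta_eq_phi ℤ]
  ext n
  rw [Dz, Tau.ta, PowerSeries.coeff_mk, PowerSeries.coeff_mk, Int.cast_id]

theorem sqX_X : sqX PowerSeries.X = PowerSeries.X ^ 2 := PowerSeries.expand_X _ _

/-- `∑ σ(n + 1) tⁿ` over the even `n` -/
def oser : PowerSeries ℤ := PowerSeries.mk fun n => (oddσ (n + 1) : ℤ)

theorem osq_eq_oser : gf osq = 16 * (PowerSeries.X * oser) := by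
  ext n
  rw [coeff_osq, coeff_ofNat_mul]
  rcases n with _ | n
  · rw [PowerSeries.coeff_zero_X_mul]
    simp [oddσ]
  · rw [PowerSeries.coeff_succ_X_mul, oser, PowerSeries.coeff_mk]

theorem cc_sqX (f : PowerSeries ℤ) :
    PowerSeries.constantCoeff (sqX f) = PowerSeries.constantCoeff f :=
  PowerSeries.constantCoeff_expand _ _ _

theorem cc_nsq : PowerSeries.constantCoeff (gf nsq) = 1 := by
  rw [← PowerSeries.coeff_zero_eq_constantCoeff_apply, coeff_nsq]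
  rfl

theorem cc_negX (f : PowerSeries ℤ) :
    PowerSeries.constantCoeff (negX f) = PowerSeries.constantCoeff f := by
  rw [← PowerSeries.coeff_zero_eq_constantCoeff_apply, ← PowerSeries.coeff_zero_eq_constantCoeff_apply,
    coeff_negX, pow_zero, one_mul]

theorem cc_oser : PowerSeries.constantCoeff oser = 1 := by
  rw [← PowerSeries.coeff_zero_eq_constantCoeff_apply, oser, PowerSeries.coeff_mk]
  decide +kernel

theorem X_pow_ne (k : ℕ) : (PowerSeries.X ^ k : PowerSeries ℤ) ≠ 0 :=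
  pow_ne_zero _ PowerSeries.X_ne_zero

/-- `φ(t)²⁴ = P(t) w(t) P(-t)⁴`, where `Qo = 16 t w` -/
theorem ph_24 : ph ^ 24 = gf nsq * oser * negX (gf nsq) ^ 4 := by
  have h := Dz_eq
  rw [Dz_eq_ph, osq_eq_oser] at h
  refine mul_left_cancel₀ (mul_ne_zero (ofNat_ne_zero' 16) PowerSeries.X_ne_zero) ?_
  linear_combination h

/-- `φ(t²)¹² = P(t) P(-t) w(t)` (`θ₂ θ₃ θ₄ = 2 η³`) -/
theorem ph2_12 : sqX ph ^ 12 = gf nsq * negX (gf nsq) * oser := by
  have h := theta_product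
  rw [← sqX_Dz, Dz_eq_ph, map_mul, map_pow, sqX_X, osq_eq_oser] at h
  have h1 : (sqX ph ^ 12) ^ 2 = (gf nsq * negX (gf nsq) * oser) ^ 2 := by
    refine mul_left_cancel₀ (mul_ne_zero (ofNat_ne_zero' 256) (X_pow_ne 2)) ?_
    linear_combination -h
  refine root_unique two_ne_zero h1 ?_ ?_
  · simp only [map_mul, map_pow, cc_sqX, cc_ph, cc_nsq,
      cc_negX, cc_oser]
    norm_num
  · simp only [map_pow, cc_sqX, cc_ph]
    norm_num

/-- `φ(t⁴)²⁴ = w(t)⁴ P(t) P(-t)` -/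
theorem ph4_24 : sqX (sqX ph) ^ 24 = oser ^ 4 * (gf nsq * negX (gf nsq)) := by
  have h := sqX_sqX_Dz
  rw [Dz_eq_ph, map_mul, map_mul, map_pow, map_pow, sqX_X, map_pow, sqX_X, osq_eq_oser] at h
  refine mul_left_cancel₀ (mul_ne_zero (ofNat_ne_zero' 65536) (X_pow_ne 4)) ?_
  linear_combination h

/-- **`P(-t) φ(t²)⁴ = φ(t)⁸`** -/
theorem theta4_prod : negX (gf nsq) * sqX ph ^ 4 = ph ^ 8 := by
  have h1 := ph_24
  have h2 := ph2_12
  refine root_unique three_ne_zero ?_ ?_ ?_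
  · linear_combination negX (gf nsq) ^ 3 * h2 - h1
  · simp only [map_mul, map_pow, cc_sqX, cc_ph, cc_nsq,
      cc_negX]
    norm_num
  · simp only [map_mul, map_pow, cc_sqX, cc_ph, cc_nsq,
      cc_negX]
    norm_num

/-- `w(t) φ(t²)⁴ = φ(t⁴)⁸` -/
theorem oser_prod : oser * sqX ph ^ 4 = sqX (sqX ph) ^ 8 := by
  have h1 := ph4_24
  have h2 := ph2_12
  refine root_unique three_ne_zero ?_ ?_ ?_
  · linear_combination oser ^ 3 * h2 - h1
  · simp only [map_mul, map_pow, cc_sqX, cc_ph, cc_oser]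
    norm_num
  · simp only [map_mul, map_pow, cc_sqX, cc_ph, cc_oser]
    norm_num

/-- **`Qo(t) φ(t²)⁴ = 16 t φ(t⁴)⁸`** -/
theorem theta2_prod : gf osq * sqX ph ^ 4 = 16 * (PowerSeries.X * sqX (sqX ph) ^ 8) := by
  rw [osq_eq_oser]
  linear_combination 16 * PowerSeries.X * oser_prod

/-- **Jacobi's product for the sums of four squares**: `P(t) φ(t)⁸ φ(t⁴)⁸ = φ(t²)²⁰`,
`P(t) = ∑ r₄(n) tⁿ` -/
theorem theta3_prod : gf nsq * ph ^ 8 * sqX (sqX ph) ^ 8 = sqX ph ^ 20 := by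
  have h1 := ph_24
  have h2 := ph2_12
  have h3 := ph4_24
  refine root_unique three_ne_zero ?_ ?_ ?_
  · have e1 : (gf nsq * ph ^ 8 * sqX (sqX ph) ^ 8) ^ 3 =
        gf nsq ^ 3 * ph ^ 24 * sqX (sqX ph) ^ 24 := by ring
    have e2 : (sqX ph ^ 20) ^ 3 = (sqX ph ^ 12) ^ 5 := by ring
    rw [e1, e2, h1, h2, h3]
    ring
  · simp only [map_mul, map_pow, cc_sqX, cc_ph, cc_nsq]
    norm_num
  · simp only [map_mul, map_pow, cc_sqX, cc_ph, cc_nsq]
    norm_num

/-- `P(t) P(-t) Qo(t) = 16 t φ(t²)¹²` -/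
theorem eta_twelve : gf nsq * negX (gf nsq) * gf osq = 16 * (PowerSeries.X * sqX ph ^ 12) := by
  rw [osq_eq_oser, ph2_12]
  ring

/-- `P(t) Qo(t) P(-t)² = 16 t φ(t)⁸ φ(t²)⁸` -/
theorem eta_sixteen : gf nsq * gf osq * negX (gf nsq) ^ 2 =
    16 * (PowerSeries.X * (ph ^ 8 * sqX ph ^ 8)) := by
  have h1 := ph_24
  have h2 := ph2_12
  have h3 : gf nsq * oser * negX (gf nsq) ^ 2 = ph ^ 8 * sqX ph ^ 8 := by
    refine root_unique three_ne_zero ?_ ?_ ?_
    · have e1 : (ph ^ 8 * sqX ph ^ 8) ^ 3 = ph ^ 24 * (sqX ph ^ 12) ^ 2 := by ring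
      rw [e1, h1, h2]
      ring
    · simp only [map_mul, map_pow, cc_sqX, cc_ph, cc_nsq,
        cc_negX, cc_oser]
      norm_num
    · simp only [map_mul, map_pow, cc_nsq, cc_negX, cc_oser]
      norm_num
  rw [osq_eq_oser, ← h3]
  ring

end Fermat.Agent.Cor.Leech
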