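import Mathlib

/-!
# Fischer's inner product on polynomials

The symmetric form `B(p, q) = ∑ m! p_m q_m` on `ℝ[X_1, ..., X_n]` is positive and the
multiplication by `X_i` is adjoint to the derivative `∂_i`.
-/

set_option autoImplicit false

namespace Fermat.Agent.Cor.Leech

namespace Fischer

variable {n : ℕ}

/-- `m! = ∏ m_i!` -/
def fac (m : Fin n →₀ ℕ) : ℕ := ∏ i, (m i).factorial

theorem fac_add_single (m : Fin n →₀ ℕ) (i : Fin n) :
    fac (m + Finsupp.single i 1) = (m i + 1) * fac m := by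
  unfold fac
  rw [← Finset.mul_prod_erase _ _ (Finset.mem_univ i),
    ← Finset.mul_prod_erase _ (fun j => (m j).factorial) (Finset.mem_univ i), ← mul_assoc]
  congr 1
  · rw [Finsupp.add_apply, Finsupp.single_eq_same, Nat.factorial_succ]
  · refine Finset.prod_congr rfl fun j hj => ?_
    rw [Finsupp.add_apply, Finsupp.single_eq_of_ne (Finset.ne_of_mem_erase hj), add_zero]

/-- the form -/
noncomputable def B (n : ℕ) :
    MvPolynomial (Fin n) ℝ →ₗ[ℝ] MvPolynomial (Fin n) ℝ →ₗ[ℝ] ℝ :=
  (MvPolynomial.basisMonomials (Fin n) ℝ).constr ℝ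
    fun m => (fac m : ℝ) • MvPolynomial.lcoeff (R := ℝ) m

theorem B_monomial (m : Fin n →₀ ℕ) (q : MvPolynomial (Fin n) ℝ) :
    B n (MvPolynomial.monomial m 1) q = fac m * MvPolynomial.coeff m q := by
  have h := (MvPolynomial.basisMonomials (Fin n) ℝ).constr_basis ℝ
    (fun m => (fac m : ℝ) • MvPolynomial.lcoeff (R := ℝ) m) m
  rw [MvPolynomial.coe_basisMonomials] at h
  unfold B
  rw [h]
  rfl

theorem B_apply (p q : MvPolynomial (Fin n) ℝ) :
    B n p q = ∑ m ∈ p.support, fac m * MvPolynomial.coeff m p * MvPolynomial.coeff m q := by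
  conv_lhs => rw [p.as_sum]
  rw [map_sum, LinearMap.sum_apply]
  refine Finset.sum_congr rfl fun m _ => ?_
  have h : MvPolynomial.monomial m (MvPolynomial.coeff m p) =
      MvPolynomial.coeff m p • MvPolynomial.monomial m (1 : ℝ) := by
    rw [MvPolynomial.smul_monomial, smul_eq_mul, mul_one]
  rw [h, map_smul, LinearMap.smul_apply, B_monomial, smul_eq_mul]
  ring

theorem B_nonneg (p : MvPolynomial (Fin n) ℝ) : 0 ≤ B n p p := by
  rw [B_apply]
  refine Finset.sum_nonneg fun m _ => ?_
  rw [mul_assoc]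
  exact mul_nonneg (Nat.cast_nonneg _) (mul_self_nonneg _)

theorem B_adjoint (i : Fin n) (p q : MvPolynomial (Fin n) ℝ) :
    B n (MvPolynomial.X i * p) q = B n p (MvPolynomial.pderiv i q) := by
  induction p using MvPolynomial.induction_on' with
  | monomial m a =>
    have h1 : MvPolynomial.X i * MvPolynomial.monomial m a =
        a • MvPolynomial.monomial (m + Finsupp.single i 1) (1 : ℝ) := by
      rw [MvPolynomial.X, MvPolynomial.monomial_mul, MvPolynomial.smul_monomial, smul_eq_mul,
        mul_one, one_mul, add_comm]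
    have h2 : MvPolynomial.monomial m a = a • MvPolynomial.monomial m (1 : ℝ) := by
      rw [MvPolynomial.smul_monomial, smul_eq_mul, mul_one]
    rw [h1, h2, map_smul, map_smul, LinearMap.smul_apply, LinearMap.smul_apply, B_monomial,
      B_monomial, MvPolynomial.coeff_pderiv, fac_add_single]
    push_cast
    rw [smul_eq_mul, smul_eq_mul]
    ring
  | add p₁ p₂ h₁ h₂ =>
    rw [mul_add, map_add, LinearMap.add_apply, h₁, h₂, map_add, LinearMap.add_apply]

theorem B_one (q : MvPolynomial (Fin n) ℝ) : B n 1 q = MvPolynomial.constantCoeff q := by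
  have h : (1 : MvPolynomial (Fin n) ℝ) = MvPolynomial.monomial 0 1 := rfl
  rw [h, B_monomial]
  simp [fac, MvPolynomial.constantCoeff_eq]

end Fischer

/-- Fischer's inner product. -/
theorem exists_fischer (n : ℕ) :
    ∃ B : MvPolynomial (Fin n) ℝ →ₗ[ℝ] MvPolynomial (Fin n) ℝ →ₗ[ℝ] ℝ, (∀ p, 0 ≤ B p p) ∧
      (∀ i p q, B (MvPolynomial.X i * p) q = B p (MvPolynomial.pderiv i q)) ∧
      ∀ q, B 1 q = MvPolynomial.constantCoeff q :=
  ⟨Fischer.B n, Fischer.B_nonneg, Fischer.B_adjoint, Fischer.B_one⟩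

end Fermat.Agent.Cor.Leech
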