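import Fermat.Agent.Corollaries.Leech.Dual

/-!
# The minimal vectors generate the Leech lattice

`leech_eq_closure`: the Leech lattice is generated, as an abelian group, by its vectors of norm `4`
(`∑ xᵢ² = 32` in the scaled coordinates).
-/

set_option autoImplicit false

namespace Fermat.Agent.Cor.Leech

open Finset

/-- the subgroup generated by the minimal vectors -/
def minGen : AddSubgroup (Fin 24 → ℤ) :=
  AddSubgroup.closure {x : Fin 24 → ℤ | x ∈ leech ∧ ∑ i, x i ^ 2 = 32}

theorem minGen_of {x : Fin 24 → ℤ} (hx : x ∈ leech) (h : ∑ i, x i ^ 2 = 32) : x ∈ minGen :=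
  AddSubgroup.subset_closure ⟨hx, h⟩

/-- the vector `4 (e_i - e_0)` -/
def dvec (i : Fin 24) : Fin 24 → ℤ :=
  fun k => 4 * ((if k = i then 1 else 0) - if k = 0 then 1 else 0)

/-- the vector `4 (e_1 + e_0)` -/
def pvec : Fin 24 → ℤ := fun k => 4 * ((if k = 1 then 1 else 0) + if k = 0 then 1 else 0)

theorem dvec_mem (i : Fin 24) : dvec i ∈ minGen := by
  rcases eq_or_ne i 0 with rfl | hi
  · have h : dvec 0 = 0 := by
      funext k
      simp [dvec]
    rw [h]
    exact minGen.zero_mem
  · have h1 : ∑ k : Fin 24, (((if k = i then 1 else 0) - if k = 0 then 1 else 0 : ℤ)) = 0 := by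
      revert i
      decide +kernel
    have h2 : ∑ k : Fin 24, (dvec i k) ^ 2 = 32 := by
      clear h1
      revert i
      decide +kernel
    exact minGen_of (two_mul_mem (by rw [h1]; exact dvd_zero _)) h2

theorem pvec_mem : pvec ∈ minGen := by
  have h1 : ∑ k : Fin 24, (((if k = 1 then 1 else 0) + if k = 0 then 1 else 0 : ℤ)) = 2 := by
    decide +kernel
  have h2 : ∑ k : Fin 24, (pvec k) ^ 2 = 32 := by
    decide +kernel
  exact minGen_of (two_mul_mem (by rw [h1])) h2

theorem four_mul_mem {z : Fin 24 → ℤ} (hs : 2 ∣ ∑ i, z i) : (fun i => 4 * z i) ∈ minGen := by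
  obtain ⟨n, hn⟩ := hs
  have h : (fun i => 4 * z i) = ∑ i, z i • dvec i + n • (pvec - dvec 1) := by
    funext k
    rw [Pi.add_apply, Finset.sum_apply, Pi.smul_apply, Pi.sub_apply]
    have h1 : ∑ i, (z i • dvec i) k = 4 * z k - 4 * (if k = 0 then 1 else 0) * ∑ i, z i := by
      have h2 : ∀ i, (z i • dvec i) k = (if k = i then 4 * z i else 0) -
          4 * (if k = 0 then 1 else 0) * z i := by
        intro i
        rw [Pi.smul_apply, smul_eq_mul, dvec]
        split_ifs <;> ring
      rw [Finset.sum_congr rfl fun i _ => h2 i, Finset.sum_sub_distrib, ← Finset.mul_sum,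
        Finset.sum_ite_eq Finset.univ k, if_pos (Finset.mem_univ k)]
    rw [h1, hn, pvec, dvec, smul_eq_mul]
    ring
  rw [h]
  exact minGen.add_mem (AddSubgroup.sum_mem _ fun i _ => minGen.zsmul_mem (dvec_mem i) _)
    (minGen.zsmul_mem (minGen.sub_mem pvec_mem (dvec_mem 1)) _)

/-- `c` is the reduction of `z` with `2 z` in the group generated by the minimal vectors -/
def Lift (c : Fin 24 → ZMod 2) : Prop :=
  ∃ z : Fin 24 → ℤ, (∀ i, (z i : ZMod 2) = c i) ∧ 4 ∣ ∑ i, z i ∧ (fun i => 2 * z i) ∈ minGen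

theorem Lift.add {c d : Fin 24 → ZMod 2} (hc : Lift c) (hd : Lift d) : Lift (c + d) := by
  obtain ⟨z, h1, h2, h3⟩ := hc
  obtain ⟨w, h4, h5, h6⟩ := hd
  refine ⟨z + w, fun i => ?_, ?_, ?_⟩
  · rw [Pi.add_apply, Pi.add_apply, Int.cast_add, h1, h4]
  · simp only [Pi.add_apply, Finset.sum_add_distrib]
    exact dvd_add h2 h5
  · have h : (fun i => 2 * (z + w) i) = (fun i => 2 * z i) + fun i => 2 * w i := by
      funext i
      simp only [Pi.add_apply]
      ring
    rw [h]
    exact minGen.add_mem h3 h6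

theorem Lift.zero : Lift 0 := by
  refine ⟨0, fun i => by simp, by simp, ?_⟩
  have h : (fun i => 2 * (0 : Fin 24 → ℤ) i) = 0 := by
    funext i
    simp
  rw [h]
  exact minGen.zero_mem

theorem Lift.octad {c : Fin 24 → ZMod 2} (hc : c ∈ golay) (h8 : wt c = 8) : Lift c := by
  have h1 : ∀ i, (((if c i ≠ 0 then 1 else 0 : ℤ)) : ZMod 2) = c i := by
    intro i
    generalize c i = a
    revert a
    decide
  have h2 : ∑ i, (if c i ≠ 0 then 1 else 0 : ℤ) = 8 := by
    rw [wt, Finset.card_filter] at h8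
    exact_mod_cast h8
  refine ⟨fun i => if c i ≠ 0 then 1 else 0, h1, by rw [h2]; norm_num, minGen_of
    (mem_leech_of_even ?_ (by rw [h2]; norm_num)) ?_⟩
  · have h3 : (fun i => (((if c i ≠ 0 then 1 else 0 : ℤ)) : ZMod 2)) = c := funext h1
    rw [h3]
    exact hc
  · have h3 : ∀ i, (2 * (if c i ≠ 0 then 1 else 0 : ℤ)) ^ 2 = 4 * (if c i ≠ 0 then 1 else 0) := by
      intro i
      split_ifs <;> norm_num
    rw [Finset.sum_congr rfl fun i _ => h3 i, ← Finset.mul_sum, h2]
    norm_num

theorem row_mem (i : Fin 12) : row i ∈ golay := Submodule.subset_span ⟨i, rfl⟩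

theorem Lift.row (i : Fin 12) : Lift (row i) := by
  rcases eq_or_ne i 11 with rfl | hi
  · have h1 : Leech.row 11 = (Leech.row 11 + Leech.row 0) + Leech.row 0 := by
      decide +kernel
    rw [h1]
    exact (Lift.octad (golay.add_mem (row_mem 11) (row_mem 0)) (by decide +kernel)).add
      (Lift.octad (row_mem 0) (by decide +kernel))
  · refine Lift.octad (row_mem i) ?_
    revert i
    decide +kernel

theorem Lift.of_mem {c : Fin 24 → ZMod 2} (hc : c ∈ golay) : Lift c := by
  rw [golay] at hc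
  induction hc using Submodule.span_induction with
  | mem c hc =>
    obtain ⟨i, rfl⟩ := hc
    exact Lift.row i
  | zero => exact Lift.zero
  | add c d _ _ h1 h2 => exact h1.add h2
  | smul a c _ h1 =>
    have ha : a = 0 ∨ a = 1 := by
      revert a
      decide
    rcases ha with rfl | rfl
    · rw [zero_smul]
      exact Lift.zero
    · rwa [one_smul]

/-- **the minimal vectors generate the Leech lattice** -/
theorem leech_eq_closure : leech =
    AddSubgroup.closure {x : Fin 24 → ℤ | x ∈ leech ∧ ∑ i, x i ^ 2 = 32} := by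
  apply le_antisymm
  · intro x hx
    change x ∈ minGen
    obtain ⟨m, z, h1, h2, h3⟩ := hx
    obtain ⟨k, hk⟩ := sum_z h1 h3
    have hs : (fun i : Fin 24 => if i = 0 then (-3 : ℤ) else 1) ∈ minGen :=
      minGen_of special_mem (by decide +kernel)
    obtain ⟨w, h4, h5, h6⟩ := Lift.of_mem h2
    have h7 : ∀ i, ∃ y : ℤ, z i + (if i = 0 then 2 * m else 0) - w i = 2 * y := by
      intro i
      have h8 : ((z i - w i : ℤ) : ZMod 2) = 0 := by
        rw [Int.cast_sub, h4, sub_self]
      obtain ⟨y, hy⟩ := (ZMod.intCast_zmod_eq_zero_iff_dvd _ 2).mp h8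
      push_cast at hy
      split_ifs
      · exact ⟨y + m, by linarith⟩
      · exact ⟨y, by linarith⟩
    choose y hy using h7
    have h8 : 2 ∣ ∑ i, y i := by
      obtain ⟨l, hl⟩ := h5
      have h9 : 2 * ∑ i, y i = ∑ i, z i + 2 * m - ∑ i, w i := by
        rw [Finset.mul_sum, ← Finset.sum_congr rfl fun i _ => hy i, Finset.sum_sub_distrib,
          Finset.sum_add_distrib, Finset.sum_ite_eq' Finset.univ (0 : Fin 24),
          if_pos (Finset.mem_univ _)]
      rw [hk, hl] at h9
      exact ⟨m + k - l, by linarith⟩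
    have h9 : x = m • (fun i : Fin 24 => if i = 0 then (-3 : ℤ) else 1) + (fun i => 2 * w i) +
        fun i => 4 * y i := by
      funext i
      have h10 := hy i
      rw [Pi.add_apply, Pi.add_apply, Pi.smul_apply, smul_eq_mul, h1 i]
      split_ifs at h10 ⊢ <;> linarith
    rw [h9]
    exact minGen.add_mem (minGen.add_mem (minGen.zsmul_mem hs m) h6) (four_mul_mem h8)
  · rw [AddSubgroup.closure_le]
    exact fun x hx => hx.1

end Fermat.Agent.Cor.Leech
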