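import Mathlib

/-!
# Gerzon's bound for equiangular lines

A set of equiangular lines in `ℝⁿ` has at most `n (n + 1) / 2` elements: the products `x_i x_j` are
linearly independent.
-/

set_option autoImplicit false

open Finset

namespace Fermat.Agent.Cor.Leech

namespace Gerzon

/-- the symmetric matrix `x_i x_j` -/
def sq {n : ℕ} (x : Fin n → ℝ) : Sym2 (Fin n) → ℝ :=
  Sym2.lift ⟨fun i j => x i * x j, fun _ _ => mul_comm _ _⟩

theorem sq_mk {n : ℕ} (x : Fin n → ℝ) (i j : Fin n) : sq x s(i, j) = x i * x j := rfl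

theorem two_mul_card (n : ℕ) : 2 * Fintype.card (Sym2 (Fin n)) = n * (n + 1) := by
  rw [Sym2.card, Fintype.card_fin, Nat.choose_two_right, Nat.add_sub_cancel,
    Nat.mul_div_cancel' (by rw [mul_comm]; exact (Nat.even_mul_succ_self n).two_dvd), mul_comm]

end Gerzon

open Gerzon in
/-- **Gerzon's bound**. -/
theorem gerzon {n : ℕ} (S : Finset (Fin n → ℝ)) {α : ℝ} (hα : α ^ 2 < 1)
    (h1 : ∀ x ∈ S, ∑ i, x i ^ 2 = 1)
    (h2 : ∀ x ∈ S, ∀ y ∈ S, x ≠ y → (∑ i, x i * y i) ^ 2 = α ^ 2) :
    2 * S.card ≤ n * (n + 1) := by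
  classical
  have hli : LinearIndependent ℝ (fun x : S => sq x.1) := by
    rw [Fintype.linearIndependent_iff]
    intro c hc
    have h3 : ∀ i j, ∑ x : S, c x * (x.1 i * x.1 j) = 0 := by
      intro i j
      have h4 := congrFun hc s(i, j)
      rw [Finset.sum_apply] at h4
      exact h4
    have h4 : ∀ z : Fin n → ℝ, ∑ x : S, c x * (∑ i, x.1 i * z i) ^ 2 = 0 := by
      intro z
      calc ∑ x : S, c x * (∑ i, x.1 i * z i) ^ 2 =
            ∑ x : S, ∑ i, ∑ j, z i * z j * (c x * (x.1 i * x.1 j)) := by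
            refine sum_congr rfl fun x _ => ?_
            rw [pow_two, sum_mul_sum, mul_sum]
            refine sum_congr rfl fun i _ => ?_
            rw [mul_sum]
            exact sum_congr rfl fun j _ => by ring
        _ = ∑ i, ∑ j, ∑ x : S, z i * z j * (c x * (x.1 i * x.1 j)) := by
            rw [sum_comm]
            exact sum_congr rfl fun i _ => sum_comm
        _ = 0 := by
            refine sum_eq_zero fun i _ => sum_eq_zero fun j _ => ?_
            rw [← mul_sum, h3, mul_zero]
    have h5 : ∀ y : S, c y * (1 - α ^ 2) + α ^ 2 * ∑ x, c x = 0 := by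
      intro y
      have h6 := h4 y.1
      rw [← add_sum_erase _ _ (mem_univ y)] at h6
      have h7 : ∑ x ∈ univ.erase y, c x * (∑ i, x.1 i * y.1 i) ^ 2 =
          ∑ x ∈ univ.erase y, c x * α ^ 2 := by
        refine sum_congr rfl fun x hx => ?_
        rw [h2 x.1 x.2 y.1 y.2 fun h => (ne_of_mem_erase hx) (Subtype.ext h)]
      have h8 : ∑ i, y.1 i * y.1 i = 1 := by
        rw [← h1 y.1 y.2]
        exact sum_congr rfl fun i _ => (pow_two _).symm
      rw [h7, h8, ← sum_mul] at h6
      have h9 : ∑ x, c x = c y + ∑ x ∈ univ.erase y, c x := (add_sum_erase _ _ (mem_univ y)).symm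
      rw [h9]
      linear_combination h6
    have h6 : ∑ x, c x = 0 := by
      have h7 : ∑ y : S, (c y * (1 - α ^ 2) + α ^ 2 * ∑ x, c x) = 0 := sum_eq_zero fun y _ => h5 y
      rw [sum_add_distrib, ← sum_mul, sum_const, nsmul_eq_mul] at h7
      have h8 : (∑ x, c x) * (1 - α ^ 2 + (univ : Finset S).card * α ^ 2) = 0 := by
        linear_combination h7
      refine (mul_eq_zero.1 h8).resolve_right (ne_of_gt ?_)
      have : 0 ≤ ((univ : Finset S).card : ℝ) * α ^ 2 := by positivity
      linarith
    intro y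
    have h7 := h5 y
    rw [h6, mul_zero, add_zero] at h7
    exact (mul_eq_zero.1 h7).resolve_right (by linarith)
  have h3 := hli.fintype_card_le_finrank
  rw [Module.finrank_fintype_fun_eq_card, Fintype.card_coe] at h3
  rw [← two_mul_card n]
  omega

end Fermat.Agent.Cor.Leech
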