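import Fermat.Agent.Corollaries.Leech.Defs

/-!
# The weight enumerator of the extended binary Golay code

The code has `4096` words: `1, 759, 2576, 759, 1` of weight `0, 8, 12, 16, 24`.
The words are enumerated by bit masks and counted by evaluation in the kernel.
-/

set_option autoImplicit false

namespace Fermat.Agent.Cor.Leech

open Finset

/-- the vector of a bit mask -/
def val (m : ℕ) : Fin 24 → ZMod 2 := fun j => if m.testBit j then 1 else 0

theorem val_xor (m n : ℕ) : val (m ^^^ n) = val m + val n := by
  funext j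
  simp only [val, Pi.add_apply, Nat.testBit_xor]
  cases m.testBit j <;> cases n.testBit j <;> decide

theorem val_zero : val 0 = 0 := by
  funext j
  simp [val]

/-- the rows as bit masks -/
def rows : List ℕ := [10727425, 13750274, 15261700, 11825160, 14299152, 15536160, 16154688,
  12271744, 10330368, 9359872, 13067264, 8386560]

/-- the number of ones among the first `n` bits -/
def pc : ℕ → ℕ → ℕ
  | 0, _ => 0
  | n + 1, m => m % 2 + pc n (m / 2)

theorem pc_eq (n m : ℕ) : pc n m = ∑ j ∈ range n, (if m.testBit j then 1 else 0) := by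
  induction n generalizing m with
  | zero => rfl
  | succ n ih =>
    rw [pc, ih, Finset.sum_range_succ']
    simp only [Nat.testBit_succ, Nat.testBit_zero]
    rw [add_comm]
    congr 1
    rcases Nat.mod_two_eq_zero_or_one m with h | h <;> simp [h]

theorem wt_val (m : ℕ) : wt (val m) = pc 24 m := by
  rw [wt, Finset.card_filter, pc_eq, ← Fin.sum_univ_eq_sum_range
    (fun j => if m.testBit j then 1 else 0) 24]
  refine Finset.sum_congr rfl fun j _ => ?_
  simp only [val]
  by_cases h : m.testBit j <;> simp [h]

theorem pc_add (n k m : ℕ) : pc (n + k) m = pc n (m % 2 ^ n) + pc k (m / 2 ^ n) := by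
  rw [pc_eq, pc_eq, pc_eq, Finset.sum_range_add]
  congr 1
  · refine Finset.sum_congr rfl fun j hj => ?_
    rw [Nat.testBit_mod_two_pow]
    simp [Finset.mem_range.mp hj]
  · refine Finset.sum_congr rfl fun j _ => ?_
    rw [Nat.testBit_div_two_pow, add_comm]

/-- the table of the numbers of ones of the bytes, four bits each -/
def table : ℕ := 0x8776766576656554766565546554544376656554655454436554544354434332766565546554544365545443544343326554544354434332544343324332322176656554655454436554544354434332655454435443433254434332433232216554544354434332544343324332322154434332433232214332322132212110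

theorem table_spec : ∀ b < 256, (table >>> (4 * b)) % 16 = pc 8 b := by decide +kernel

/-- the number of ones among the first 24 bits -/
def fast (m : ℕ) : ℕ := (table >>> (4 * (m % 256))) % 16 +
  ((table >>> (4 * (m / 256 % 256))) % 16 + (table >>> (4 * (m / 65536 % 256))) % 16)

theorem fast_eq (m : ℕ) : fast m = pc 24 m := by
  have h1 : pc 24 m = pc 8 (m % 2 ^ 8) + pc 16 (m / 2 ^ 8) := pc_add 8 16 m
  have h2 : pc 16 (m / 2 ^ 8) = pc 8 (m / 2 ^ 8 % 2 ^ 8) + pc 8 (m / 2 ^ 8 / 2 ^ 8) :=
    pc_add 8 8 _
  have h3 : pc 8 (m / 2 ^ 8 / 2 ^ 8) = pc 8 (m / 2 ^ 8 / 2 ^ 8 % 2 ^ 8) + pc 0 _ := pc_add 8 0 _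
  rw [fast, table_spec _ (Nat.mod_lt _ (by norm_num)), table_spec _ (Nat.mod_lt _ (by norm_num)),
    table_spec _ (Nat.mod_lt _ (by norm_num)), h1, h2, h3, Nat.div_div_eq_div_mul]
  rfl

/-- all sums `m + (some of the rows)` -/
def words : List ℕ → ℕ → List ℕ
  | [], m => [m]
  | r :: rs, m => words rs m ++ words rs (m ^^^ r)

/-- the number of words of weight `v` -/
def cnt (v : ℕ) : List ℕ → ℕ → ℕ
  | [], m => if fast m = v then 1 else 0
  | r :: rs, m => cnt v rs m + cnt v rs (m ^^^ r)

theorem cnt0 : cnt 0 rows 0 = 1 := by decide +kernel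
theorem cnt8 : cnt 8 rows 0 = 759 := by decide +kernel
theorem cnt12 : cnt 12 rows 0 = 2576 := by decide +kernel
theorem cnt16 : cnt 16 rows 0 = 759 := by decide +kernel
theorem cnt24 : cnt 24 rows 0 = 1 := by decide +kernel

/-- the weights which occur -/
def wts : Finset ℕ := {0, 8, 12, 16, 24}

theorem length_words (L : List ℕ) (m : ℕ) : (words L m).length = 2 ^ L.length := by
  induction L generalizing m with
  | nil => rfl
  | cons r rs ih => rw [words, List.length_append, ih, ih, List.length_cons, pow_succ]; ring

theorem cnt_le (L : List ℕ) (m : ℕ) : ∑ v ∈ wts, cnt v L m ≤ 2 ^ L.length ∧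
    (∑ v ∈ wts, cnt v L m = 2 ^ L.length → ∀ w ∈ words L m, pc 24 w ∈ wts) := by
  induction L generalizing m with
  | nil =>
    have h : ∑ v ∈ wts, cnt v [] m = if pc 24 m ∈ wts then 1 else 0 := by
      simp only [cnt, fast_eq]
      rw [Finset.sum_ite_eq]
    rw [h]
    constructor
    · split_ifs <;> simp
    · intro h1 w hw
      rw [words, List.mem_singleton] at hw
      subst hw
      by_contra h2
      rw [if_neg h2] at h1
      simp at h1
  | cons r rs ih =>
    have h : ∑ v ∈ wts, cnt v (r :: rs) m =
        ∑ v ∈ wts, cnt v rs m + ∑ v ∈ wts, cnt v rs (m ^^^ r) := by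
      rw [← Finset.sum_add_distrib]
      rfl
    have h1 := ih m
    have h2 := ih (m ^^^ r)
    rw [h, List.length_cons, pow_succ]
    refine ⟨by linarith [h1.1, h2.1], fun h3 w hw => ?_⟩
    rw [words, List.mem_append] at hw
    rcases hw with hw | hw
    · exact h1.2 (by have := h1.1; have := h2.1; omega) w hw
    · exact h2.2 (by have := h1.1; have := h2.1; omega) w hw

theorem pc_mem {w : ℕ} (hw : w ∈ words rows 0) : pc 24 w ∈ wts := by
  refine (cnt_le rows 0).2 ?_ w hw
  rw [wts, Finset.sum_insert (by decide), Finset.sum_insert (by decide),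
    Finset.sum_insert (by decide), Finset.sum_insert (by decide), Finset.sum_singleton,
    cnt0, cnt8, cnt12, cnt16, cnt24]
  rfl

/-- the sum over the words -/
theorem sum_words {M : Type*} [AddCommMonoid M] (F : ℕ → M) (L : List ℕ) (m : ℕ)
    (h : ∀ w ∈ words L m, pc 24 w ∈ wts) :
    ((words L m).map fun w => F (pc 24 w)).sum = ∑ v ∈ wts, cnt v L m • F v := by
  induction L generalizing m with
  | nil =>
    have h1 := h m (by simp [words])
    simp only [cnt, fast_eq, words, List.map_cons, List.map_nil, List.sum_cons, List.sum_nil,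
      add_zero, ite_smul, one_smul, zero_smul]
    rw [Finset.sum_ite_eq, if_pos h1]
  | cons r rs ih =>
    rw [words, List.map_append, List.sum_append, ih m fun w hw => h w (by
      rw [words, List.mem_append]; exact Or.inl hw), ih (m ^^^ r) fun w hw => h w (by
      rw [words, List.mem_append]; exact Or.inr hw), ← Finset.sum_add_distrib]
    refine Finset.sum_congr rfl fun v _ => ?_
    rw [cnt, add_smul]

/-- the words are the elements of the span -/
theorem mem_words (L : List ℕ) (m : ℕ) (x : Fin 24 → ZMod 2) :
    (∃ w ∈ words L m, val w = x) ↔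
      x + val m ∈ Submodule.span (ZMod 2) {y | ∃ r ∈ L, val r = y} := by
  induction L generalizing m with
  | nil =>
    have h1 : {y | ∃ r ∈ ([] : List ℕ), val r = y} = (∅ : Set (Fin 24 → ZMod 2)) := by simp
    rw [h1, Submodule.span_empty, Submodule.mem_bot]
    simp only [words, List.mem_singleton, exists_eq_left]
    constructor
    · rintro rfl
      exact CharTwo.add_self_eq_zero _
    · intro h
      have h2 := CharTwo.add_self_eq_zero (val m)
      have h3 : x + val m + val m = val m := by rw [h, zero_add]
      rw [add_assoc, h2, add_zero] at h3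
      exact h3.symm
  | cons r rs ih =>
    have h1 : {y | ∃ s ∈ r :: rs, val s = y} = insert (val r) {y | ∃ s ∈ rs, val s = y} := by
      ext y
      simp only [List.mem_cons, Set.mem_ofPred_eq, Set.mem_insert_iff]
      constructor
      · rintro ⟨s, rfl | hs, rfl⟩
        · exact Or.inl rfl
        · exact Or.inr ⟨s, hs, rfl⟩
      · rintro (rfl | ⟨s, hs, rfl⟩)
        · exact ⟨r, Or.inl rfl, rfl⟩
        · exact ⟨s, Or.inr hs, rfl⟩
    have h2 : (∃ w ∈ words (r :: rs) m, val w = x) ↔
        (∃ w ∈ words rs m, val w = x) ∨ ∃ w ∈ words rs (m ^^^ r), val w = x := by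
      simp only [words, List.mem_append, or_and_right, exists_or]
    rw [h2, ih m, ih (m ^^^ r), h1, Submodule.mem_span_insert, val_xor, ← add_assoc]
    have h3 : ∀ c : ZMod 2, c = 0 ∨ c = 1 := by decide
    have h4 := CharTwo.add_self_eq_zero (val r)
    constructor
    · rintro (h | h)
      · exact ⟨0, _, h, by rw [zero_smul, zero_add]⟩
      · exact ⟨1, _, h, by rw [one_smul, add_comm (val r), add_assoc (x + val m), h4, add_zero]⟩
    · rintro ⟨c, z, hz, hc⟩
      rcases h3 c with rfl | rfl
      · left
        rwa [hc, zero_smul, zero_add]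
      · right
        rwa [hc, one_smul, add_comm (val r), add_assoc z, h4, add_zero]

theorem row_eq (i : Fin 12) : row i = val (rows.get (i.cast rfl)) := by
  funext j
  revert i j
  decide +kernel

theorem span_rows : Submodule.span (ZMod 2) {y | ∃ r ∈ rows, val r = y} = golay := by
  rw [golay]
  congr 1
  ext y
  constructor
  · rintro ⟨r, hr, rfl⟩
    obtain ⟨i, hi⟩ := List.get_of_mem hr
    exact ⟨i, by rw [row_eq, ← hi]; rfl⟩
  · rintro ⟨i, rfl⟩
    exact ⟨_, List.get_mem _ _, (row_eq i).symm⟩

theorem mem_golay (x : Fin 24 → ZMod 2) : x ∈ golay ↔ ∃ w ∈ words rows 0, val w = x := by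
  rw [mem_words, val_zero, add_zero, span_rows]

theorem linearIndependent_row : LinearIndependent (ZMod 2) row := by
  rw [Fintype.linearIndependent_iff]
  intro c hc i
  have h1 := congrFun hc (Fin.castLE (by norm_num) i)
  rw [Finset.sum_apply, Finset.sum_eq_single i] at h1
  · simpa [row] using h1
  · intro j _ hj
    have h2 : (i : ℕ) ≠ j := fun h => hj (Fin.ext h.symm)
    simp [row, h2]
  · simp

/-- **the Golay code has `4096` words** -/
theorem card_golay : Nat.card golay = 4096 := by
  rw [Module.natCard_eq_pow_finrank (K := ZMod 2), golay,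
    finrank_span_eq_card linearIndependent_row]
  simp

theorem nodup_words : ((words rows 0).map val).Nodup := by
  rw [← Multiset.coe_nodup, ← Multiset.toFinset_card_eq_card_iff_nodup]
  have h1 : (((words rows 0).map val : List _) : Multiset (Fin 24 → ZMod 2)).toFinset =
      (Set.toFinite (golay : Set (Fin 24 → ZMod 2))).toFinset := by
    ext x
    rw [Multiset.mem_toFinset, Multiset.mem_coe, List.mem_map, Set.Finite.mem_toFinset,
      SetLike.mem_coe, mem_golay]
  rw [h1, ← Set.ncard_eq_toFinset_card, Multiset.coe_card, List.length_map, length_words]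
  exact card_golay

/-- **the weight enumerator of the Golay code** -/
theorem sum_golay {M : Type*} [AddCommMonoid M] (F : ℕ → M) : ∑ᶠ c : golay, F (wt c.1) =
    F 0 + 759 • F 8 + 2576 • F 12 + 759 • F 16 + F 24 := by
  have h1 : (golay : Set (Fin 24 → ZMod 2)) = (((words rows 0).map val).toFinset : Set _) := by
    ext x
    rw [Finset.mem_coe, List.mem_toFinset, List.mem_map, SetLike.mem_coe, mem_golay]
  have h2 : ∑ᶠ c : golay, F (wt c.1) = ∑ᶠ c ∈ (golay : Set (Fin 24 → ZMod 2)), F (wt c) :=
    finsum_set_coe_eq_finsum_mem (s := (golay : Set (Fin 24 → ZMod 2))) (f := fun c => F (wt c))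
  rw [h2, h1, finsum_mem_coe_finset, List.sum_toFinset _ nodup_words, List.map_map]
  have h3 : ((fun c => F (wt c)) ∘ val) = fun w => F (pc 24 w) := by
    funext w
    rw [Function.comp_apply, wt_val]
  rw [h3, sum_words F rows 0 fun w hw => pc_mem hw, wts, Finset.sum_insert (by decide),
    Finset.sum_insert (by decide), Finset.sum_insert (by decide), Finset.sum_insert (by decide),
    Finset.sum_singleton, cnt0, cnt8, cnt12, cnt16, cnt24, one_smul, one_smul]
  abel

theorem wt_mem {c : Fin 24 → ZMod 2} (hc : c ∈ golay) : wt c ∈ ({0, 8, 12, 16, 24} : Finset ℕ) := by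
  obtain ⟨w, hw, rfl⟩ := (mem_golay c).mp hc
  rw [wt_val]
  exact pc_mem hw

/-- the Golay code is doubly even -/
theorem four_dvd_wt {c : Fin 24 → ZMod 2} (hc : c ∈ golay) : 4 ∣ wt c := by
  have h := wt_mem hc
  have h1 : ∀ n ∈ ({0, 8, 12, 16, 24} : Finset ℕ), 4 ∣ n := by decide
  exact h1 _ h

theorem one_mem_golay : (1 : Fin 24 → ZMod 2) ∈ golay := by
  have h : (1 : Fin 24 → ZMod 2) = ∑ i, row i := by
    funext j
    rw [Finset.sum_apply, Pi.one_apply]
    revert j
    decide +kernel
  rw [h]
  exact Submodule.sum_mem _ fun i _ => Submodule.subset_span ⟨i, rfl⟩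

end Fermat.Agent.Cor.Leech
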