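import Fermat.Agent.Corollaries.Leech.Conway

/-!
# Kissing configurations in dimensions `24` and `8`

`196560` unit vectors of `ℝ²⁴` and `240` unit vectors of `ℝ⁸` with pairwise inner products `≤ 1 / 2`.
-/

set_option autoImplicit false

noncomputable section

namespace Fermat.Agent.Cor.Leech

open Finset Fermat.Agent.Cor.Quat

/-- **the kissing number of `ℝ²⁴` is at least `196560`** -/
theorem kissing_24 : ∃ S : Finset (EuclideanSpace ℝ (Fin 24)), S.card = 196560 ∧
    (∀ x ∈ S, ‖x‖ = 1) ∧ ∀ x ∈ S, ∀ y ∈ S, x ≠ y → inner ℝ x y ≤ 1 / 2 := by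
  classical
  have hf0 : (0 : ℝ) < 1 / Real.sqrt 32 := by positivity
  have hf2 : (1 / Real.sqrt 32) ^ 2 = 1 / 32 := by
    rw [div_pow, one_pow, Real.sq_sqrt (by norm_num)]
  let f : leech → EuclideanSpace ℝ (Fin 24) := fun x =>
    WithLp.toLp 2 fun i => (1 / Real.sqrt 32) * ((x : Fin 24 → ℤ) i : ℝ)
  have hinj : Function.Injective f := by
    intro x y h
    apply Subtype.ext
    funext i
    have h1 : f x i = f y i := by rw [h]
    have h2 : (1 / Real.sqrt 32) * ((x : Fin 24 → ℤ) i : ℝ) =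
      (1 / Real.sqrt 32) * ((y : Fin 24 → ℤ) i : ℝ) := h1
    exact_mod_cast mul_left_cancel₀ hf0.ne' h2
  have hinner : ∀ x y : leech, inner ℝ (f x) (f y) =
      1 / 32 * ((∑ i, (x : Fin 24 → ℤ) i * (y : Fin 24 → ℤ) i : ℤ) : ℝ) := by
    intro x y
    rw [PiLp.inner_apply, ← hf2]
    push_cast
    rw [Finset.mul_sum]
    refine Finset.sum_congr rfl fun i _ => ?_
    simp only [f, RCLike.inner_apply, conj_trivial]
    ring
  refine ⟨(T 2).image f, ?_, ?_, ?_⟩
  · rw [Finset.card_image_of_injective _ hinj, card_T_two]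
  · intro v hv
    obtain ⟨x, hx, rfl⟩ := mem_image.mp hv
    have h1 : inner ℝ (f x) (f x) = 1 := by
      rw [hinner]
      have h2 : ∑ i, (x : Fin 24 → ℤ) i * (x : Fin 24 → ℤ) i = 32 := by
        have h3 := mem_T.mp hx
        unfold sqn at h3
        rw [← Finset.sum_congr rfl fun i _ => sq ((x : Fin 24 → ℤ) i), h3]
        norm_num
      rw [h2]
      norm_num
    rw [real_inner_self_eq_norm_sq] at h1
    have h3 := norm_nonneg (f x)
    nlinarith
  · intro v hv w hw hvw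
    obtain ⟨x, hx, rfl⟩ := mem_image.mp hv
    obtain ⟨y, hy, rfl⟩ := mem_image.mp hw
    have hxy : x ≠ y := fun h => hvw (by rw [h])
    rw [mem_T] at hx hy
    have h1 : (x : Fin 24 → ℤ) - y ≠ 0 := fun h => hxy (Subtype.ext (sub_eq_zero.mp h))
    have h2 := leech_min (leech.sub_mem x.2 y.2) h1
    have h3 : sqn ((x : Fin 24 → ℤ) - y) =
        sqn x + sqn y - 2 * ∑ i, (x : Fin 24 → ℤ) i * (y : Fin 24 → ℤ) i := by
      unfold sqn
      rw [Finset.mul_sum, ← Finset.sum_add_distrib, ← Finset.sum_sub_distrib]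
      refine Finset.sum_congr rfl fun i _ => ?_
      rw [Pi.sub_apply]
      ring
    rw [h3, hx, hy] at h2
    have h4 : ∑ i, (x : Fin 24 → ℤ) i * (y : Fin 24 → ℤ) i ≤ 16 := by
      push_cast at h2
      linarith
    rw [hinner]
    have h5 : ((∑ i, (x : Fin 24 → ℤ) i * (y : Fin 24 → ℤ) i : ℤ) : ℝ) ≤ 16 := by
      exact_mod_cast h4
    linarith

/-- **the kissing number of `ℝ⁸` is at least `240`** -/
theorem kissing_8 : ∃ S : Finset (EuclideanSpace ℝ (Fin 8)), S.card = 240 ∧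
    (∀ x ∈ S, ‖x‖ = 1) ∧ ∀ x ∈ S, ∀ y ∈ S, x ≠ y → inner ℝ x y ≤ 1 / 2 := by
  classical
  have hf0 : (0 : ℝ) < 1 / Real.sqrt 2 := by positivity
  have hf2 : (1 / Real.sqrt 2) ^ 2 = 1 / 2 := by
    rw [div_pow, one_pow, Real.sq_sqrt (by norm_num)]
  let f : (Fin 8 → ℚ) → EuclideanSpace ℝ (Fin 8) := fun x =>
    WithLp.toLp 2 fun i => (1 / Real.sqrt 2) * (x i : ℝ)
  have hinj : Function.Injective f := by
    intro x y h
    funext i
    have h1 : f x i = f y i := by rw [h]
    have h2 : (1 / Real.sqrt 2) * (x i : ℝ) = (1 / Real.sqrt 2) * (y i : ℝ) := h1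
    exact_mod_cast mul_left_cancel₀ hf0.ne' h2
  have hinner : ∀ x y : Fin 8 → ℚ, inner ℝ (f x) (f y) =
      1 / 2 * ((∑ i, x i * y i : ℚ) : ℝ) := by
    intro x y
    rw [PiLp.inner_apply, ← hf2]
    push_cast
    rw [Finset.mul_sum]
    refine Finset.sum_congr rfl fun i _ => ?_
    simp only [f, RCLike.inner_apply, conj_trivial]
    ring
  have hfin : {x : Fin 8 → ℚ | x ∈ E8 ∧ ∑ i, x i ^ 2 = 2}.Finite :=
    Set.finite_of_ncard_ne_zero (by rw [card_E8_roots]; norm_num)
  refine ⟨hfin.toFinset.image f, ?_, ?_, ?_⟩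
  · rw [Finset.card_image_of_injective _ hinj, ← Set.ncard_eq_toFinset_card _ hfin, card_E8_roots]
  · intro v hv
    obtain ⟨x, hx, rfl⟩ := mem_image.mp hv
    rw [Set.Finite.mem_toFinset] at hx
    have h1 : inner ℝ (f x) (f x) = 1 := by
      rw [hinner]
      have h2 : ∑ i, x i * x i = 2 := by
        rw [← Finset.sum_congr rfl fun i _ => sq (x i)]
        exact hx.2
      rw [h2]
      norm_num
    rw [real_inner_self_eq_norm_sq] at h1
    have h3 := norm_nonneg (f x)
    nlinarith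
  · intro v hv w hw hvw
    obtain ⟨x, hx, rfl⟩ := mem_image.mp hv
    obtain ⟨y, hy, rfl⟩ := mem_image.mp hw
    have hxy : x ≠ y := fun h => hvw (by rw [h])
    rw [Set.Finite.mem_toFinset] at hx hy
    obtain ⟨m, hm⟩ := E8_even (E8.sub_mem hx.1 hy.1)
    have h0 : ∑ i, (x - y) i ^ 2 ≠ 0 := by
      intro h
      have h' := (Finset.sum_eq_zero_iff_of_nonneg
        (fun i _ => sq_nonneg ((x - y) i) : ∀ i ∈ univ, 0 ≤ (x - y) i ^ 2)).mp h
      apply hxy
      funext i
      have h1 := pow_eq_zero_iff two_ne_zero |>.mp (h' i (mem_univ i))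
      rw [Pi.sub_apply] at h1
      exact sub_eq_zero.mp h1
    have hm1 : 1 ≤ m := by
      rcases Nat.eq_zero_or_pos m with h | h
      · exact absurd (by rw [hm, h, Nat.cast_zero, mul_zero]) h0
      · exact h
    have h3 : ∑ i, (x - y) i ^ 2 = ∑ i, x i ^ 2 + ∑ i, y i ^ 2 - 2 * ∑ i, x i * y i := by
      rw [Finset.mul_sum, ← Finset.sum_add_distrib, ← Finset.sum_sub_distrib]
      refine Finset.sum_congr rfl fun i _ => ?_
      rw [Pi.sub_apply]
      ring
    have h4 : ∑ i, x i * y i ≤ 1 := by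
      have h5 : (1 : ℚ) ≤ m := by exact_mod_cast hm1
      rw [hx.2, hy.2, hm] at h3
      linarith
    rw [hinner]
    have h5 : ((∑ i, x i * y i : ℚ) : ℝ) ≤ 1 := by exact_mod_cast h4
    linarith

end Fermat.Agent.Cor.Leech
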