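import Fermat.Agent.Corollaries.Leech.Positive
import Fermat.Agent.Corollaries.Leech.Fischer
import Fermat.Agent.Corollaries.Leech.Kissing

/-!
# The kissing numbers in dimensions `8` and `24`

`τ₈ = 240` and `τ₂₄ = 196560` (Levenshtein; Odlyzko and Sloane 1979): the lower bounds come from the
minimal vectors of `E₈` and of the Leech lattice, the upper bounds from Delsarte's linear programming
method.
-/

set_option autoImplicit false

noncomputable section

namespace Fermat.Agent.Cor.Leech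

open Finset

/-- **positivity of the zonal polynomials** (Schoenberg) -/
theorem zonal_nonneg {n : ℕ} (hn : 3 ≤ n) (C : Finset (Fin n → ℝ))
    (hC : ∀ x ∈ C, ∑ i, x i ^ 2 = 1) (k : ℕ) :
    0 ≤ ∑ x ∈ C, ∑ y ∈ C, zon n k (∑ i, x i * y i) := by
  obtain ⟨B, h1, h2, h3⟩ := exists_fischer n
  exact zonal_nonneg_aux B h1 h2 h3 hn C hC k

/-- **Delsarte's bound** -/
theorem delsarte {n : ℕ} (hn : 3 ≤ n) (d : ℕ) (c : ℕ → ℝ) (hc : ∀ k, 0 ≤ c k) (f : ℝ → ℝ)
    (hf : ∀ t, f t = ∑ k ∈ range (d + 1), c k * zon n k t)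
    (hneg : ∀ t, -1 ≤ t → t ≤ 1 / 2 → f t ≤ 0) (hf1 : 0 ≤ f 1) (C : Finset (Fin n → ℝ))
    (hC : ∀ x ∈ C, ∑ i, x i ^ 2 = 1)
    (hC' : ∀ x ∈ C, ∀ y ∈ C, x ≠ y → ∑ i, x i * y i ≤ 1 / 2) : c 0 * C.card ≤ f 1 := by
  classical
  rcases C.eq_empty_or_nonempty with rfl | hne
  · rw [card_empty, Nat.cast_zero, mul_zero]
    exact hf1
  have hpos : (0 : ℝ) < C.card := by exact_mod_cast hne.card_pos
  have h1 : ∑ x ∈ C, ∑ y ∈ C, f (∑ i, x i * y i) =
      ∑ k ∈ range (d + 1), c k * ∑ x ∈ C, ∑ y ∈ C, zon n k (∑ i, x i * y i) := by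
    simp only [hf, Finset.mul_sum]
    rw [Finset.sum_comm]
    have h2 : ∀ y ∈ C, ∑ x ∈ C, ∑ k ∈ range (d + 1), c k * zon n k (∑ i, x i * y i) =
        ∑ k ∈ range (d + 1), ∑ x ∈ C, c k * zon n k (∑ i, x i * y i) := fun y _ =>
      Finset.sum_comm
    rw [Finset.sum_congr rfl h2, Finset.sum_comm]
    exact Finset.sum_congr rfl fun k _ => Finset.sum_comm
  have h2 : c 0 * (C.card : ℝ) ^ 2 ≤ ∑ x ∈ C, ∑ y ∈ C, f (∑ i, x i * y i) := by
    rw [h1, Finset.sum_range_succ']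
    have h3 : ∑ x ∈ C, ∑ y ∈ C, zon n 0 (∑ i, x i * y i) = (C.card : ℝ) ^ 2 := by
      simp only [zon, Finset.sum_const, nsmul_eq_mul, mul_one]
      ring
    rw [h3]
    have h4 : 0 ≤ ∑ k ∈ range d, c (k + 1) * ∑ x ∈ C, ∑ y ∈ C, zon n (k + 1) (∑ i, x i * y i) :=
      Finset.sum_nonneg fun k _ => mul_nonneg (hc _) (zonal_nonneg hn C hC _)
    linarith
  have h3 : ∑ x ∈ C, ∑ y ∈ C, f (∑ i, x i * y i) ≤ ∑ x ∈ C, f 1 := by
    refine Finset.sum_le_sum fun x hx => ?_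
    rw [← Finset.add_sum_erase C _ hx]
    have h4 : ∑ i, x i * x i = 1 := by
      rw [← hC x hx]
      exact Finset.sum_congr rfl fun i _ => (sq (x i)).symm
    rw [h4]
    have h5 : ∑ y ∈ C.erase x, f (∑ i, x i * y i) ≤ 0 := by
      refine Finset.sum_nonpos fun y hy => ?_
      obtain ⟨hyx, hy⟩ := mem_erase.mp hy
      refine hneg _ ?_ (hC' x hx y hy hyx.symm)
      have h6 : 0 ≤ ∑ i, (x i + y i) ^ 2 := Finset.sum_nonneg fun i _ => sq_nonneg _
      have h7 : ∑ i, (x i + y i) ^ 2 = ∑ i, x i ^ 2 + ∑ i, y i ^ 2 + 2 * ∑ i, x i * y i := by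
        rw [Finset.mul_sum, ← Finset.sum_add_distrib, ← Finset.sum_add_distrib]
        exact Finset.sum_congr rfl fun i _ => by ring
      rw [h7, hC x hx, hC y hy] at h6
      linarith
    linarith
  rw [Finset.sum_const, nsmul_eq_mul] at h3
  have h4 : (C.card : ℝ) * (c 0 * C.card) ≤ C.card * f 1 := by
    calc (C.card : ℝ) * (c 0 * C.card) = c 0 * (C.card : ℝ) ^ 2 := by ring
      _ ≤ _ := h2
      _ ≤ _ := h3
  exact le_of_mul_le_mul_left h4 hpos

/-! ### dimension `8` -/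

/-- the zonal coefficients of `f₈` -/
def c8 : ℕ → ℝ
  | 0 => 3 / 320
  | 1 => 3 / 40
  | 2 => 15 / 56
  | 3 => 39 / 56
  | 4 => 19 / 16
  | 5 => 3 / 2
  | 6 => 1
  | _ => 0

theorem c8_nonneg (k : ℕ) : 0 ≤ c8 k := by
  unfold c8
  split <;> norm_num

theorem f8_eq (t : ℝ) : (t + 1) * (t + 1 / 2) ^ 2 * t ^ 2 * (t - 1 / 2) =
    ∑ k ∈ range (6 + 1), c8 k * zon 8 k t := by
  simp only [Finset.sum_range_succ, Finset.sum_range_zero, c8, zon, bet]
  norm_num
  ring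

theorem card_le_240 (C : Finset (Fin 8 → ℝ)) (hC : ∀ x ∈ C, ∑ i, x i ^ 2 = 1)
    (hC' : ∀ x ∈ C, ∀ y ∈ C, x ≠ y → ∑ i, x i * y i ≤ 1 / 2) : C.card ≤ 240 := by
  have h := delsarte (n := 8) (by norm_num) 6 c8 c8_nonneg
    (fun t => (t + 1) * (t + 1 / 2) ^ 2 * t ^ 2 * (t - 1 / 2)) f8_eq
    (fun t h1 h2 => by
      have h3 : 0 ≤ (t + 1) * (t + 1 / 2) ^ 2 * t ^ 2 := by
        have : 0 ≤ t + 1 := by linarith
        positivity
      exact mul_nonpos_of_nonneg_of_nonpos h3 (by linarith)) (by norm_num) C hC hC'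
  simp only [c8] at h
  have h1 : (C.card : ℝ) ≤ 240 := by
    norm_num at h
    linarith
  exact_mod_cast h1

/-! ### dimension `24` -/

/-- the zonal coefficients of `f₂₄` -/
def c24 : ℕ → ℝ
  | 0 => 15 / 1490944
  | 1 => 45 / 186368
  | 2 => 495 / 243712
  | 3 => 435 / 34816
  | 4 => 6927 / 139264
  | 5 => 1467 / 8704
  | 6 => 17747 / 43776
  | 7 => 261 / 304
  | 8 => 5 / 4
  | 9 => 3 / 2
  | 10 => 1
  | _ => 0

theorem c24_nonneg (k : ℕ) : 0 ≤ c24 k := by
  unfold c24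
  split <;> norm_num

theorem f24_eq (t : ℝ) :
    (t + 1) * (t + 1 / 2) ^ 2 * (t + 1 / 4) ^ 2 * t ^ 2 * (t - 1 / 4) ^ 2 * (t - 1 / 2) =
      ∑ k ∈ range (10 + 1), c24 k * zon 24 k t := by
  simp only [Finset.sum_range_succ, Finset.sum_range_zero, c24, zon, bet]
  norm_num
  ring

theorem card_le_196560 (C : Finset (Fin 24 → ℝ)) (hC : ∀ x ∈ C, ∑ i, x i ^ 2 = 1)
    (hC' : ∀ x ∈ C, ∀ y ∈ C, x ≠ y → ∑ i, x i * y i ≤ 1 / 2) : C.card ≤ 196560 := by
  have h := delsarte (n := 24) (by norm_num) 10 c24 c24_nonneg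
    (fun t => (t + 1) * (t + 1 / 2) ^ 2 * (t + 1 / 4) ^ 2 * t ^ 2 * (t - 1 / 4) ^ 2 *
      (t - 1 / 2)) f24_eq
    (fun t h1 h2 => by
      have h3 : 0 ≤ (t + 1) * (t + 1 / 2) ^ 2 * (t + 1 / 4) ^ 2 * t ^ 2 * (t - 1 / 4) ^ 2 := by
        have : 0 ≤ t + 1 := by linarith
        positivity
      exact mul_nonpos_of_nonneg_of_nonpos h3 (by linarith)) (by norm_num) C hC hC'
  simp only [c24] at h
  have h1 : (C.card : ℝ) ≤ 196560 := by
    norm_num at h
    linarith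
  exact_mod_cast h1

/-! ### the kissing numbers -/

/-- points of the unit sphere with angular distances `≥ 60°` -/
def IsSphericalCode {n : ℕ} (S : Finset (EuclideanSpace ℝ (Fin n))) : Prop :=
  (∀ x ∈ S, ‖x‖ = 1) ∧ ∀ x ∈ S, ∀ y ∈ S, x ≠ y → inner ℝ x y ≤ 1 / 2

/-- the centres of unit balls which touch the unit ball with centre `0` and do not overlap -/
def IsKissing {n : ℕ} (S : Finset (EuclideanSpace ℝ (Fin n))) : Prop :=
  (∀ x ∈ S, ‖x‖ = 2) ∧ ∀ x ∈ S, ∀ y ∈ S, x ≠ y → 2 ≤ dist x y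

theorem dist_sq_eq {n : ℕ} (x y : EuclideanSpace ℝ (Fin n)) :
    dist x y ^ 2 = ‖x‖ ^ 2 + ‖y‖ ^ 2 - 2 * inner ℝ x y := by
  rw [dist_eq_norm, norm_sub_sq_real]
  ring

theorem exists_code_iff {n : ℕ} (k : ℕ) :
    (∃ S : Finset (EuclideanSpace ℝ (Fin n)), S.card = k ∧ IsKissing S) ↔
      ∃ S : Finset (EuclideanSpace ℝ (Fin n)), S.card = k ∧ IsSphericalCode S := by
  classical
  constructor
  · rintro ⟨S, hS, h1, h2⟩
    have hinj : Function.Injective fun x : EuclideanSpace ℝ (Fin n) => (1 / 2 : ℝ) • x :=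
      smul_right_injective _ (by norm_num)
    refine ⟨S.image fun x => (1 / 2 : ℝ) • x, by rw [card_image_of_injective _ hinj, hS], ?_, ?_⟩
    · intro v hv
      obtain ⟨x, hx, rfl⟩ := mem_image.mp hv
      rw [norm_smul, h1 x hx]
      norm_num
    · intro v hv w hw hvw
      obtain ⟨x, hx, rfl⟩ := mem_image.mp hv
      obtain ⟨y, hy, rfl⟩ := mem_image.mp hw
      have hxy : x ≠ y := fun h => hvw (by rw [h])
      have h3 := dist_sq_eq x y
      rw [h1 x hx, h1 y hy] at h3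
      have h4 := h2 x hx y hy hxy
      rw [real_inner_smul_left, real_inner_smul_right]
      nlinarith
  · rintro ⟨S, hS, h1, h2⟩
    have hinj : Function.Injective fun x : EuclideanSpace ℝ (Fin n) => (2 : ℝ) • x :=
      smul_right_injective _ (by norm_num)
    refine ⟨S.image fun x => (2 : ℝ) • x, by rw [card_image_of_injective _ hinj, hS], ?_, ?_⟩
    · intro v hv
      obtain ⟨x, hx, rfl⟩ := mem_image.mp hv
      rw [norm_smul, h1 x hx]
      norm_num
    · intro v hv w hw hvw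
      obtain ⟨x, hx, rfl⟩ := mem_image.mp hv
      obtain ⟨y, hy, rfl⟩ := mem_image.mp hw
      have hxy : x ≠ y := fun h => hvw (by rw [h])
      have h3 := dist_sq_eq ((2 : ℝ) • x) ((2 : ℝ) • y)
      rw [norm_smul, norm_smul, h1 x hx, h1 y hy, real_inner_smul_left, real_inner_smul_right] at h3
      have h4 := h2 x hx y hy hxy
      have h5 : 0 ≤ dist ((2 : ℝ) • x) ((2 : ℝ) • y) := dist_nonneg
      norm_num at h3
      nlinarith

theorem card_code_le {n k : ℕ}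
    (h : ∀ C : Finset (Fin n → ℝ), (∀ x ∈ C, ∑ i, x i ^ 2 = 1) →
      (∀ x ∈ C, ∀ y ∈ C, x ≠ y → ∑ i, x i * y i ≤ 1 / 2) → C.card ≤ k)
    (S : Finset (EuclideanSpace ℝ (Fin n))) (hS : IsSphericalCode S) : S.card ≤ k := by
  classical
  have hinj : Function.Injective fun (x : EuclideanSpace ℝ (Fin n)) (i : Fin n) => x i := by
    intro x y hxy
    ext i
    exact congrFun hxy i
  rw [← card_image_of_injective S hinj]
  have hin : ∀ x y : EuclideanSpace ℝ (Fin n), inner ℝ x y = ∑ i, x i * y i := by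
    intro x y
    rw [PiLp.inner_apply]
    refine Finset.sum_congr rfl fun i _ => ?_
    simp only [RCLike.inner_apply, conj_trivial]
    ring
  refine h _ ?_ ?_
  · intro v hv
    obtain ⟨x, hx, rfl⟩ := mem_image.mp hv
    have h1 := hin x x
    rw [real_inner_self_eq_norm_sq, hS.1 x hx] at h1
    show ∑ i, x i ^ 2 = 1
    rw [Finset.sum_congr rfl fun i _ => sq (x i), ← h1, one_pow]
  · intro v hv w hw hvw
    obtain ⟨x, hx, rfl⟩ := mem_image.mp hv
    obtain ⟨y, hy, rfl⟩ := mem_image.mp hw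
    have hxy : x ≠ y := fun h => hvw (by rw [h])
    have h1 := hS.2 x hx y hy hxy
    rwa [hin] at h1

/-- **the kissing number in dimension `8` is `240`** -/
theorem kissing_number_8 :
    IsGreatest {k | ∃ S : Finset (EuclideanSpace ℝ (Fin 8)), S.card = k ∧ IsKissing S} 240 := by
  constructor
  · obtain ⟨S, h1, h2, h3⟩ := kissing_8
    exact (exists_code_iff 240).mpr ⟨S, h1, h2, h3⟩
  · intro k hk
    obtain ⟨S, h1, h2⟩ := (exists_code_iff k).mp hk
    rw [← h1]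
    exact card_code_le card_le_240 S h2

/-- **the kissing number in dimension `24` is `196560`** -/
theorem kissing_number_24 :
    IsGreatest {k | ∃ S : Finset (EuclideanSpace ℝ (Fin 24)), S.card = k ∧ IsKissing S}
      196560 := by
  constructor
  · obtain ⟨S, h1, h2, h3⟩ := kissing_24
    exact (exists_code_iff 196560).mpr ⟨S, h1, h2, h3⟩
  · intro k hk
    obtain ⟨S, h1, h2⟩ := (exists_code_iff k).mp hk
    rw [← h1]
    exact card_code_le card_le_196560 S h2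

end Fermat.Agent.Cor.Leech
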