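import Mathlib

/-!
# The MacWilliams identity for binary linear codes

* `macwilliams`: the weight enumerator of the dual code;
* `card_mul_card_dual`: `|C| |C⊥| = 2 ^ n`.
-/

set_option autoImplicit false

namespace Fermat.Agent.Cor.Leech

open Finset

namespace MacW

/-- the sign character of `ℤ/2` -/
def sgn (R : Type*) [CommRing R] : AddChar (ZMod 2) R where
  toFun a := if a = 0 then 1 else -1
  map_zero_eq_one' := by simp
  map_add_eq_mul' := by
    intro a b
    have h : ∀ a : ZMod 2, a = 0 ∨ a = 1 := by decide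
    have h2 : (1 : ZMod 2) + 1 = 0 := rfl
    rcases h a with rfl | rfl <;> rcases h b with rfl | rfl <;> simp [h2]

variable {ι R : Type*} [Fintype ι] [CommRing R]

theorem sgn_apply (a : ZMod 2) : sgn R a = if a = 0 then 1 else -1 := rfl

omit [Fintype ι] in
theorem sgn_sum (s : Finset ι) (f : ι → ZMod 2) :
    sgn R (∑ i ∈ s, f i) = ∏ i ∈ s, sgn R (f i) := by
  classical
  induction s using Finset.induction_on with
  | empty => rw [Finset.sum_empty, Finset.prod_empty, AddChar.map_zero_eq_one]
  | insert i s hi ih => rw [Finset.sum_insert hi, Finset.prod_insert hi, AddChar.map_add_eq_mul, ih]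

theorem prod_weight (x y : R) (d : ι → ZMod 2) :
    x ^ #{i | d i = 0} * y ^ #{i | d i ≠ 0} = ∏ i, if d i = 0 then x else y := by
  rw [Finset.prod_ite, Finset.prod_const, Finset.prod_const]

open Classical in
/-- the sum over the code -/
theorem sum_sgn (C : Submodule (ZMod 2) (ι → ZMod 2)) (d : ι → ZMod 2) :
    ∑ c : ι → ZMod 2 with c ∈ C, sgn R (∑ i, c i * d i) =
      if ∀ c ∈ C, ∑ i, c i * d i = 0 then (Nat.card C : R) else 0 := by
  split_ifs with h
  · rw [Finset.sum_congr rfl (g := fun _ => 1) fun c hc => by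
      rw [h c (Finset.mem_filter.mp hc).2, AddChar.map_zero_eq_one], Finset.sum_const,
      nsmul_eq_mul, mul_one, Nat.card_eq_fintype_card, Fintype.card_subtype]
  · push Not at h
    obtain ⟨e, he, hed⟩ := h
    have h1 : ∑ i, e i * d i = 1 := by
      generalize ∑ i, e i * d i = a at hed
      revert a
      decide
    refine Finset.sum_involution (fun c _ => c + e) ?_ ?_ ?_ ?_
    · intro c _
      have h2 : ∑ i, (c + e) i * d i = ∑ i, c i * d i + 1 := by
        rw [← h1, ← Finset.sum_add_distrib]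
        exact Finset.sum_congr rfl fun i _ => by rw [Pi.add_apply, add_mul]
      rw [h2, AddChar.map_add_eq_mul, sgn_apply 1]
      simp
    · intro c _ _ hc
      have h2 : e = 0 := by simpa using hc
      rw [h2] at h1
      simp at h1
    · intro c hc
      rw [Finset.mem_filter] at hc ⊢
      exact ⟨Finset.mem_univ _, C.add_mem hc.2 he⟩
    · intro c _
      have h2 : e + e = 0 := by
        funext i
        rw [Pi.add_apply, Pi.zero_apply]
        generalize e i = a
        revert a
        decide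
      rw [add_assoc, h2, add_zero]

open Classical in
theorem sum_pi (x y : R) (c : ι → ZMod 2) :
    ∑ d : ι → ZMod 2, sgn R (∑ i, c i * d i) * ∏ i, (if d i = 0 then x else y) =
      (x + y) ^ #{i | c i = 0} * (x - y) ^ #{i | c i ≠ 0} := by
  have h1 : ∀ d : ι → ZMod 2, sgn R (∑ i, c i * d i) * ∏ i, (if d i = 0 then x else y) =
      ∏ i, sgn R (c i * d i) * (if d i = 0 then x else y) := by
    intro d
    rw [sgn_sum, Finset.prod_mul_distrib]
  rw [Finset.sum_congr rfl fun d _ => h1 d, prod_weight, ← Fintype.piFinset_univ,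
    ← Finset.prod_univ_sum (fun _ => Finset.univ)
      (fun i a => sgn R (c i * a) * (if a = 0 then x else y))]
  refine Finset.prod_congr rfl fun i _ => ?_
  have hu : (Finset.univ : Finset (ZMod 2)) = {0, 1} := by decide
  rw [hu, Finset.sum_pair (by decide), mul_zero, mul_one, AddChar.map_zero_eq_one, sgn_apply]
  have h2 : (1 : ZMod 2) ≠ 0 := by decide
  split_ifs <;> simp_all
  ring

end MacW

open MacW

open Classical in
/-- **The MacWilliams identity**: `C` a binary linear code with the dual code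
`C⊥ = {d | c · d = 0 for all c ∈ C}`. -/
theorem macwilliams {ι R : Type*} [Fintype ι] [CommRing R]
    (C : Submodule (ZMod 2) (ι → ZMod 2)) (x y : R) :
    (Nat.card C : R) * ∑ d : ι → ZMod 2 with ∀ c ∈ C, ∑ i, c i * d i = 0,
      x ^ #{i | d i = 0} * y ^ #{i | d i ≠ 0} =
    ∑ c : ι → ZMod 2 with c ∈ C, (x + y) ^ #{i | c i = 0} * (x - y) ^ #{i | c i ≠ 0} := by
  rw [Finset.sum_congr rfl fun c _ => (sum_pi x y c).symm, Finset.sum_comm, Finset.mul_sum,
    Finset.sum_filter]
  refine Finset.sum_congr rfl fun d _ => ?_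
  rw [← Finset.sum_mul, sum_sgn, prod_weight]
  split_ifs <;> ring

/-- `|C| |C⊥| = 2 ^ n` -/
theorem card_mul_card_dual {ι : Type*} [Fintype ι] (C : Submodule (ZMod 2) (ι → ZMod 2)) :
    Nat.card C * {d : ι → ZMod 2 | ∀ c ∈ C, ∑ i, c i * d i = 0}.ncard = 2 ^ Fintype.card ι := by
  classical
  have h := macwilliams C (1 : ℤ) 1
  simp only [one_pow, mul_one, Finset.sum_const, nsmul_eq_mul, sub_self] at h
  have h1 : ∑ c : ι → ZMod 2 with c ∈ C, ((1 : ℤ) + 1) ^ #{i | c i = 0} * 0 ^ #{i | c i ≠ 0} =
      2 ^ Fintype.card ι := by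
    rw [Finset.sum_eq_single 0]
    · simp
    · intro c _ hc
      obtain ⟨i, hi⟩ := Function.ne_iff.mp hc
      rw [zero_pow, mul_zero]
      rw [Finset.card_ne_zero]
      exact ⟨i, Finset.mem_filter.mpr ⟨Finset.mem_univ _, hi⟩⟩
    · intro h
      exact absurd (Finset.mem_filter.mpr ⟨Finset.mem_univ _, C.zero_mem⟩) h
  rw [h1] at h
  have h2 : {d : ι → ZMod 2 | ∀ c ∈ C, ∑ i, c i * d i = 0}.ncard =
      #{d : ι → ZMod 2 | ∀ c ∈ C, ∑ i, c i * d i = 0} := by
    rw [← Set.ncard_coe_finset]
    congr 1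
    ext d
    simp
  rw [h2]
  exact_mod_cast h

end Fermat.Agent.Cor.Leech
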