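import Fermat.Agent.Corollaries.Leech.Count
import Fermat.Agent.Corollaries.Leech.Golay

/-!
# The number of vectors of the Leech lattice

`691 · #{x ∈ Λ₂₄ : |x|² = 2 n} = 65520 (σ₁₁(n) - τ(n))` for `n ≥ 1`.
-/

set_option autoImplicit false

noncomputable section

namespace Fermat.Agent.Cor.Leech

open Finset Fermat.Agent.Cor.Quat

/-- reduction mod `2` -/
def par (y : Fin 24 → ℤ) : Fin 24 → ZMod 2 := fun i => (y i : ZMod 2)

theorem cast_eq_iff (z : ℤ) (a : ZMod 2) : (z : ZMod 2) = a ↔ (Odd z ↔ a ≠ 0) := by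
  have h2 : ∀ a : ZMod 2, a = 0 ∨ a = 1 := by decide
  rcases Int.even_or_odd' z with ⟨k, rfl | rfl⟩
  · have h1 : ((2 * k : ℤ) : ZMod 2) = 0 := by
      rw [ZMod.intCast_zmod_eq_zero_iff_dvd]
      exact ⟨k, by push_cast; ring⟩
    have h3 : ¬ Odd (2 * k) := Int.not_odd_iff_even.mpr (even_two_mul k)
    rw [h1]
    rcases h2 a with rfl | rfl
    · exact iff_of_true rfl (iff_of_false h3 (not_not.mpr rfl))
    · exact iff_of_false zero_ne_one (fun h => h3 (h.mpr one_ne_zero))
  · have h1 : ((2 * k + 1 : ℤ) : ZMod 2) = 1 := by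
      rw [Int.cast_add, Int.cast_one, (ZMod.intCast_zmod_eq_zero_iff_dvd (2 * k) 2).mpr
        ⟨k, by push_cast; ring⟩, zero_add]
    have h3 : Odd (2 * k + 1) := odd_two_mul_add_one k
    rw [h1]
    rcases h2 a with rfl | rfl
    · exact iff_of_false one_ne_zero (fun h => (h.mp h3) rfl)
    · exact iff_of_true rfl (iff_of_true h3 one_ne_zero)

theorem par_eq_iff (y : Fin 24 → ℤ) (c : Fin 24 → ZMod 2) :
    par y = c ↔ ∀ i, Odd (y i) ↔ c i ≠ 0 := by
  rw [funext_iff]
  exact forall_congr' fun i => cast_eq_iff _ _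

/-- the even vectors of the Leech lattice, divided by `2` -/
def evenVec (n : ℕ) : Set (Fin 24 → ℤ) :=
  {y | par y ∈ golay ∧ 4 ∣ ∑ i, y i ∧ ∑ i, y i ^ 2 = 4 * (n : ℤ)}

theorem finite_evenVec (n : ℕ) : (evenVec n).Finite :=
  (finite_sq (4 * n)).subset fun y hy => by
    show ∑ i, y i ^ 2 = ((4 * n : ℕ) : ℤ)
    rw [hy.2.2]
    push_cast
    rfl

/-- the series of a code word of weight `w` -/
def serW (w : ℕ) : PowerSeries ℤ :=
  gf nsq ^ (6 - w / 4) * gf osq ^ (w / 4) + if w = 0 then negX (gf nsq) ^ 6 else 0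

theorem two_mul_half_eq {c : Fin 24 → ZMod 2} (hc : c ∈ golay) (n : ℕ) :
    2 * ((half c n).ncard : ℤ) = PowerSeries.coeff n (serW (wt c)) := by
  obtain ⟨v, hv⟩ := four_dvd_wt hc
  by_cases h0 : wt c = 0
  · rw [two_mul_half_zero h0, serW, h0, if_pos rfl, Nat.zero_div, Nat.sub_zero, pow_zero, mul_one]
  · have h1 := two_mul_half (c := c) ((by norm_num : 2 ∣ 4).trans ⟨v, hv⟩) h0 n
    rw [serW, if_neg h0, add_zero, hv, Nat.mul_div_cancel_left v (by norm_num), ← card_full hv,
      ← h1]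
    push_cast
    rfl

theorem serW_sum : serW 0 + 759 • serW 8 + 2576 • serW 12 + 759 • serW 16 + serW 24 =
    gf nsq ^ 6 + negX (gf nsq) ^ 6 + 759 * gf nsq ^ 4 * gf osq ^ 2 +
      2576 * gf nsq ^ 3 * gf osq ^ 3 + 759 * gf nsq ^ 2 * gf osq ^ 4 + gf osq ^ 6 := by
  unfold serW
  generalize negX (gf nsq) = y
  generalize gf nsq = x
  generalize gf osq = o
  rw [if_pos rfl, if_neg (by decide), if_neg (by decide), if_neg (by decide), if_neg (by decide)]
  norm_num
  ring

theorem ncard_evenVec (n : ℕ) :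
    2 * ((evenVec n).ncard : ℤ) = PowerSeries.coeff n
      (gf nsq ^ 6 + negX (gf nsq) ^ 6 + 759 * gf nsq ^ 4 * gf osq ^ 2 +
        2576 * gf nsq ^ 3 * gf osq ^ 3 + 759 * gf nsq ^ 2 * gf osq ^ 4 + gf osq ^ 6) := by
  classical
  let _ : Fintype golay := Fintype.ofFinite golay
  have h1 : (evenVec n).ncard = ∑ c : golay, (half c.1 n).ncard := by
    have hfin : ∀ c : golay, Finite (half c.1 n) := fun c =>
      ((finite_full c.1 n).subset (half_subset c.1 n)).to_subtype
    have h2 : Nat.card (Σ c : golay, half c.1 n) = ∑ c : golay, (half c.1 n).ncard := by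
      rw [Nat.card_sigma]
      exact Finset.sum_congr rfl fun c _ => Nat.card_coe_set_eq _
    rw [← h2, ← Nat.card_coe_set_eq]
    refine Nat.card_congr
      { toFun := fun y => ⟨⟨par y.1, y.2.1⟩, ⟨y.1, (par_eq_iff _ _).mp rfl, y.2.2⟩⟩
        invFun := fun p => ⟨p.2.1, ?_, p.2.2.2⟩
        left_inv := fun y => rfl
        right_inv := ?_ }
    · rw [(par_eq_iff _ _).mpr p.2.2.1]
      exact p.1.2
    · rintro ⟨⟨c, hc⟩, ⟨y, hy, hy'⟩⟩
      have h3 : par y = c := (par_eq_iff _ _).mpr hy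
      subst h3
      rfl
  have h2 : 2 * ((evenVec n).ncard : ℤ) =
      PowerSeries.coeff n (∑ c : golay, serW (wt c.1)) := by
    rw [h1, map_sum, Nat.cast_sum, Finset.mul_sum]
    exact Finset.sum_congr rfl fun c _ => two_mul_half_eq c.2 n
  rw [h2, ← finsum_eq_sum_of_fintype, sum_golay, serW_sum]

/-! ### the decomposition -/

theorem leech_parity {x : Fin 24 → ℤ} (hx : x ∈ leech) :
    (∀ i, Even (x i)) ∨ ∀ i, Odd (x i) := by
  obtain ⟨m, z, h1, -, -⟩ := hx
  rcases Int.even_or_odd m with h | h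
  · exact Or.inl fun i => by
      rw [h1]
      exact h.add (even_two_mul _)
  · exact Or.inr fun i => by
      rw [h1]
      exact h.add_even (even_two_mul _)

theorem golay_add_const {c : Fin 24 → ZMod 2} (k : ℤ) :
    (fun i => (k : ZMod 2) + c i) ∈ golay ↔ c ∈ golay := by
  have h1 : (fun _ => (k : ZMod 2) : Fin 24 → ZMod 2) ∈ golay := by
    have h2 : (fun _ => (k : ZMod 2) : Fin 24 → ZMod 2) = (k : ZMod 2) • (1 : Fin 24 → ZMod 2) := by
      funext i
      simp
    rw [h2]
    exact golay.smul_mem _ one_mem_golay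
  have h3 : (fun i => (k : ZMod 2) + c i) = (fun _ => (k : ZMod 2)) + c := rfl
  rw [h3]
  exact golay.add_mem_iff_right h1

theorem mem_leech_two_mul (y : Fin 24 → ℤ) :
    (fun i => 2 * y i) ∈ leech ↔ par y ∈ golay ∧ 4 ∣ ∑ i, y i := by
  constructor
  · rintro ⟨m, z, h1, h2, h3⟩
    have hm : Even m := by
      have h4 := h1 0
      dsimp only at h4
      rw [Int.even_iff]
      omega
    obtain ⟨k, rfl⟩ := hm.two_dvd
    have h5 : ∀ i, y i = k + z i := fun i => by
      have h4 := h1 i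
      dsimp only at h4
      omega
    constructor
    · have h6 : par y = fun i => (k : ZMod 2) + (z i : ZMod 2) := by
        funext i
        rw [par, h5]
        push_cast
        rfl
      rw [h6]
      exact (golay_add_const k).mpr h2
    · rw [← Finset.mul_sum] at h3
      have h7 := (Int.modEq_iff_dvd).mp h3
      omega
  · rintro ⟨h1, h2⟩
    refine ⟨0, y, fun i => by ring, h1, ?_⟩
    rw [← Finset.mul_sum, Int.modEq_iff_dvd]
    omega

theorem mem_leech_odd {x : Fin 24 → ℤ} (ho : ∀ i, Odd (x i)) {n : ℕ}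
    (hx : ∑ i, x i ^ 2 = 16 * (n : ℤ)) : x ∈ leech ↔ pat x ∈ golay := by
  choose z hz using ho
  have hpat : pat x = fun i => (z i : ZMod 2) := by
    funext i
    symm
    rw [cast_eq_iff, pat, hz]
    by_cases h : Odd (z i)
    · rw [Int.odd_iff] at h
      rw [if_pos (by omega)]
      exact iff_of_true (Int.odd_iff.mpr h) one_ne_zero
    · have h' := h
      rw [Int.not_odd_iff_even, Int.even_iff] at h'
      rw [if_neg (by omega)]
      exact iff_of_false h (not_not.mpr rfl)
  constructor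
  · rintro ⟨m, z', h1, h2, -⟩
    have hm : Odd m := by
      have h4 := h1 0
      rw [hz] at h4
      rw [Int.odd_iff]
      omega
    obtain ⟨k, rfl⟩ := hm
    have h5 : (fun i => (z i : ZMod 2)) = fun i => (k : ZMod 2) + (z' i : ZMod 2) := by
      funext i
      have h4 := h1 i
      rw [hz] at h4
      have h6 : z i = k + z' i := by omega
      rw [h6]
      push_cast
      rfl
    rw [hpat, h5]
    exact (golay_add_const k).mpr h2
  · intro h1
    rw [hpat] at h1
    refine ⟨1, z, fun i => by rw [hz]; ring, h1, ?_⟩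
    obtain ⟨v, hv⟩ := four_dvd_wt h1
    have h3 : (wt (fun i => (z i : ZMod 2)) : ℤ) = ∑ i, z i % 2 := by
      rw [wt, Finset.card_filter]
      push_cast
      refine Finset.sum_congr rfl fun i _ => ?_
      have h4 := (cast_eq_iff (z i) (z i : ZMod 2)).mp rfl
      rcases Int.emod_two_eq_zero_or_one (z i) with h | h
      · rw [if_neg fun h5 => by have := Int.odd_iff.mp (h4.mpr h5); omega, h]
      · rw [if_pos (h4.mp (Int.odd_iff.mpr h)), h]
    have h4 : (4 : ℤ) ∣ ∑ i, (z i * (z i + 1)) - (∑ i, z i + ∑ i, z i % 2) := by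
      rw [← Finset.sum_add_distrib, ← Finset.sum_sub_distrib]
      refine Finset.dvd_sum fun i _ => ?_
      obtain ⟨k, hk | hk⟩ := Int.even_or_odd' (z i)
      · rw [show z i % 2 = 0 by omega, hk]
        exact ⟨k ^ 2, by ring⟩
      · rw [show z i % 2 = 1 by omega, hk]
        exact ⟨k ^ 2 + k, by ring⟩
    have h5 : ∑ i, x i ^ 2 = 24 + 4 * ∑ i, (z i * (z i + 1)) := by
      have h6 : ∀ i, x i ^ 2 = 1 + 4 * (z i * (z i + 1)) := fun i => by
        rw [hz]
        ring
      simp only [h6, Finset.sum_add_distrib, ← Finset.mul_sum]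
      simp
    have h7 : ∑ i, x i = 24 + 2 * ∑ i, z i := by
      have h6 : ∀ i, x i = 1 + 2 * z i := fun i => by
        rw [hz]
        ring
      simp only [h6, Finset.sum_add_distrib, ← Finset.mul_sum]
      simp
    rw [← h3, hv] at h4
    rw [hx] at h5
    rw [h7, Int.modEq_iff_dvd]
    push_cast at h4
    omega

/-- the vectors of norm `2 n` -/
theorem shell_eq (n : ℕ) :
    {x : Fin 24 → ℤ | x ∈ leech ∧ ∑ i, x i ^ 2 = 16 * (n : ℤ)} =
      (fun y i => 2 * y i) '' evenVec n ∪ oddVec golay (16 * (n : ℤ)) := by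
  ext x
  constructor
  · rintro ⟨h1, h2⟩
    rcases leech_parity h1 with h | h
    · left
      have h3 : ∀ i, ∃ k, x i = 2 * k := fun i => (h i).two_dvd
      choose y hy using h3
      obtain rfl : x = fun i => 2 * y i := funext hy
      obtain ⟨h4, h5⟩ := (mem_leech_two_mul y).mp h1
      refine ⟨y, ⟨h4, h5, ?_⟩, rfl⟩
      simp only [mul_pow, ← Finset.mul_sum] at h2
      linarith
    · right
      exact ⟨h, (mem_leech_odd h h2).mp h1, h2⟩
  · rintro (⟨y, ⟨h1, h2, h3⟩, rfl⟩ | ⟨h1, h2, h3⟩)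
    · refine ⟨(mem_leech_two_mul y).mpr ⟨h1, h2⟩, ?_⟩
      simp only [mul_pow, ← Finset.mul_sum, h3]
      ring
    · exact ⟨(mem_leech_odd h1 h3).mpr h2, h3⟩

theorem finite_shell (n : ℕ) :
    {x : Fin 24 → ℤ | x ∈ leech ∧ ∑ i, x i ^ 2 = 16 * (n : ℤ)}.Finite :=
  (finite_sq (16 * n)).subset fun y hy => by
    show ∑ i, y i ^ 2 = ((16 * n : ℕ) : ℤ)
    rw [hy.2]
    push_cast
    rfl

theorem ncard_shell (n : ℕ) :
    {x : Fin 24 → ℤ | x ∈ leech ∧ ∑ i, x i ^ 2 = 16 * (n : ℤ)}.ncard =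
      (evenVec n).ncard + (oddVec golay (16 * (n : ℤ))).ncard := by
  have hfin := finite_shell n
  rw [shell_eq] at hfin ⊢
  rw [Set.ncard_union_eq ?_ (hfin.subset Set.subset_union_left)
    (hfin.subset Set.subset_union_right), Set.ncard_image_of_injective]
  · intro y z h
    funext i
    have h1 := congrFun h i
    dsimp only at h1
    omega
  · rw [Set.disjoint_left]
    rintro _ ⟨y, -, rfl⟩ ⟨h, -⟩
    have h1 := Int.odd_iff.mp (h 0)
    dsimp only at h1
    omega

/-- the theta series of the Leech lattice is `E₄³ - 720 Δ` -/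
theorem card_leech_eq (n : ℕ) :
    ({x : Fin 24 → ℤ | x ∈ leech ∧ ∑ i, x i ^ 2 = 16 * (n : ℤ)}.ncard : ℤ) =
      PowerSeries.coeff n (E4z ^ 3) - 720 * Tau.tau n := by
  have h1 := ncard_evenVec n
  have hC : (golay : Set (Fin 24 → ZMod 2)).ncard = 4096 := by
    rw [← Nat.card_coe_set_eq]
    exact card_golay
  have h2 := card_oddVec_code hC n
  have h3 := congrArg (PowerSeries.coeff (2 * n)) leech_identity
  rw [map_add (PowerSeries.coeff (2 * n)), map_add (PowerSeries.coeff (2 * n)), coeff_sqX_two_mul,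
    coeff_negX, (even_two_mul n).neg_one_pow, map_sub (PowerSeries.coeff (2 * n)), coeff_ofNat_mul, coeff_ofNat_mul, PowerSeries.coeff_mk, tau2, if_pos (dvd_mul_right 2 n),
    Nat.mul_div_cancel_left n (by norm_num), thetaD_eight_eq, ← map_pow sqX, coeff_sqX_two_mul,
    ← h1, ← h2] at h3
  rw [ncard_shell]
  push_cast
  linarith

/-- **The number of vectors of the Leech lattice**: for `n ≥ 1` there are
`65520 / 691 (σ₁₁(n) - τ(n))` vectors of norm `2 n`. -/
theorem card_leech {n : ℕ} (hn : n ≠ 0) :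
    691 * ({x : Fin 24 → ℤ | x ∈ leech ∧ ∑ i, x i ^ 2 = 16 * (n : ℤ)}.ncard : ℤ) =
      65520 * (∑ d ∈ n.divisors, (d : ℤ) ^ 11 - Tau.tau n) := by
  rw [card_leech_eq, mul_sub, coeff_E4_cube hn]
  ring

/-- the Leech lattice has no vectors of norm `2` -/
theorem leech_no_roots : ¬ ∃ x ∈ leech, ∑ i, x i ^ 2 = 16 := by
  have h := card_leech (n := 1) one_ne_zero
  rw [Tau.tau_one, Nat.divisors_one, sum_singleton, Nat.cast_one, one_pow, sub_self, mul_zero,
    mul_eq_zero, or_iff_right (by norm_num), Nat.cast_eq_zero,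
    Set.ncard_eq_zero (by simpa using finite_shell 1), Set.eq_empty_iff_forall_notMem] at h
  rintro ⟨x, hx, h1⟩
  exact h x ⟨hx, by rw [h1]; norm_num⟩

/-- **the kissing number of the Leech lattice**: `196560` vectors of norm `4` -/
theorem card_leech_min : {x : Fin 24 → ℤ | x ∈ leech ∧ ∑ i, x i ^ 2 = 32}.ncard = 196560 := by
  have h := card_leech (n := 2) two_ne_zero
  rw [tau_two, show (2 : ℕ).divisors = {1, 2} by decide, sum_pair (by decide)] at h
  norm_num at h
  omega

/-- the Leech lattice has `16773120` vectors of norm `6` -/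
theorem card_leech_six : {x : Fin 24 → ℤ | x ∈ leech ∧ ∑ i, x i ^ 2 = 48}.ncard = 16773120 := by
  have h := card_leech (n := 3) three_ne_zero
  rw [tau_three, show (3 : ℕ).divisors = {1, 3} by decide, sum_pair (by decide)] at h
  norm_num at h
  omega

end Fermat.Agent.Cor.Leech
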