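import Fermat.Agent.Corollaries.Leech.Main

/-!
# The norms of the Leech lattice

The Leech lattice represents every even number `≥ 4`; the number of its vectors of norm `2 n` is
divisible by `65520`; hence `τ(n) ≤ σ₁₁(n) - 691` for `n ≥ 2`, and `τ(n) ≡ σ₁₁(n) (mod 691)`.
-/

set_option autoImplicit false

noncomputable section

namespace Fermat.Agent.Cor.Leech

open Finset Fermat.Agent.Cor.Quat

/-- the number of vectors of norm `2 n` is divisible by `65520` -/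
theorem dvd_card_leech {n : ℕ} (hn : n ≠ 0) :
    65520 ∣ {x : Fin 24 → ℤ | x ∈ leech ∧ ∑ i, x i ^ 2 = 16 * (n : ℤ)}.ncard := by
  have h := card_leech hn
  have h1 : (65520 : ℤ) ∣ 691 * ({x : Fin 24 → ℤ | x ∈ leech ∧
      ∑ i, x i ^ 2 = 16 * (n : ℤ)}.ncard : ℤ) := ⟨_, h⟩
  have h2 : IsCoprime (65520 : ℤ) 691 := by
    rw [Int.isCoprime_iff_gcd_eq_one]
    decide
  exact_mod_cast h2.dvd_of_dvd_mul_left h1

/-- **Ramanujan's congruence** from the Leech lattice -/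
theorem tau_modEq {n : ℕ} (hn : n ≠ 0) :
    Tau.tau n ≡ ∑ d ∈ n.divisors, (d : ℤ) ^ 11 [ZMOD 691] := by
  have h := card_leech hn
  have h1 : (691 : ℤ) ∣ 65520 * (∑ d ∈ n.divisors, (d : ℤ) ^ 11 - Tau.tau n) := ⟨_, h.symm⟩
  have h2 : IsCoprime (691 : ℤ) 65520 := by
    rw [Int.isCoprime_iff_gcd_eq_one]
    decide
  exact Int.modEq_iff_dvd.mpr (h2.dvd_of_dvd_mul_left h1)

/-- a vector of the Leech lattice (divided by `2`) -/
def vec (s a b c d : ℤ) : Fin 24 → ℤ :=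
  ![s, 2 * a, 2 * b, 2 * c, 2 * d, 0, 0, 0, 0, 0, 0, 0, 1, 1, 0, 1, 1, 1, 0, 0, 0, 1, 0, 1]

theorem par_vec {s : ℤ} (hs : Odd s) (a b c d : ℤ) : par (vec s a b c d) = row 0 := by
  have h1 : (s : ZMod 2) = 1 := (cast_eq_iff s 1).mpr (iff_of_true hs one_ne_zero)
  have h2 : ∀ k : ℤ, ((2 * k : ℤ) : ZMod 2) = 0 := fun k =>
    (ZMod.intCast_zmod_eq_zero_iff_dvd (2 * k) 2).mpr ⟨k, by push_cast; ring⟩
  have h3 : vec s a b c d = fun i => if i = 0 then s else if i = 1 then 2 * a else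
      if i = 2 then 2 * b else if i = 3 then 2 * c else if i = 4 then 2 * d else
      if row 0 i = 1 then 1 else 0 := by
    funext i
    fin_cases i <;> rfl
  have h4 : ∀ i : Fin 24, row 0 i = if i = 0 then 1 else if i = 1 then 0 else
      if i = 2 then 0 else if i = 3 then 0 else if i = 4 then 0 else
      if row 0 i = 1 then 1 else 0 := by decide +kernel
  funext i
  rw [par, h3, h4]
  dsimp only
  split_ifs
  · exact h1
  · exact h2 a
  · exact h2 b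
  · exact h2 c
  · exact h2 d
  · exact Int.cast_one
  · exact Int.cast_zero

theorem sum_vec (s a b c d : ℤ) : ∑ i, vec s a b c d i = s + 2 * (a + b + c + d) + 7 := by
  simp [vec, Fin.sum_univ_succ]
  ring

theorem sum_vec_sq (s a b c d : ℤ) :
    ∑ i, vec s a b c d i ^ 2 = s ^ 2 + 4 * (a ^ 2 + b ^ 2 + c ^ 2 + d ^ 2) + 7 := by
  simp [vec, Fin.sum_univ_succ]
  ring

/-- **the Leech lattice represents every even number `≥ 4`** -/
theorem exists_leech {n : ℕ} (hn : 2 ≤ n) : ∃ x ∈ leech, ∑ i, x i ^ 2 = 16 * (n : ℤ) := by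
  obtain ⟨a, b, c, d, h⟩ := Nat.sum_four_squares (n - 2)
  obtain ⟨s, hs, hs2, h4⟩ : ∃ s : ℤ, Odd s ∧ s ^ 2 = 1 ∧ 4 ∣ s + 2 * ((a : ℤ) + b + c + d) + 7 := by
    rcases Int.even_or_odd' ((a : ℤ) + b + c + d) with ⟨k, hk | hk⟩
    · exact ⟨1, odd_one, by norm_num, by rw [hk]; exact ⟨k + 2, by ring⟩⟩
    · exact ⟨-1, by decide, by norm_num, by rw [hk]; exact ⟨k + 2, by ring⟩⟩
  refine ⟨fun i => 2 * vec s a b c d i, (mem_leech_two_mul _).mpr ⟨?_, ?_⟩, ?_⟩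
  · rw [par_vec hs]
    exact Submodule.subset_span ⟨0, rfl⟩
  · rw [sum_vec]
    exact h4
  · simp only [mul_pow, ← Finset.mul_sum]
    rw [sum_vec_sq, hs2]
    have h5 : ((a ^ 2 + b ^ 2 + c ^ 2 + d ^ 2 : ℕ) : ℤ) = ((n - 2 : ℕ) : ℤ) := by rw [h]
    rw [Nat.cast_sub hn] at h5
    push_cast at h5
    linarith

/-- the norms of the vectors of the Leech lattice are the even numbers `≠ 2` -/
theorem leech_norms (n : ℕ) : (∃ x ∈ leech, ∑ i, x i ^ 2 = 16 * (n : ℤ)) ↔ n ≠ 1 := by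
  constructor
  · rintro ⟨x, hx, h⟩ rfl
    exact leech_no_roots ⟨x, hx, by rw [h]; norm_num⟩
  · intro h
    rcases Nat.lt_or_ge n 2 with h2 | h2
    · obtain rfl : n = 0 := by omega
      exact ⟨0, leech.zero_mem, by simp⟩
    · exact exists_leech h2

/-- **`τ(n) ≤ σ₁₁(n) - 691` for `n ≥ 2`** -/
theorem tau_le {n : ℕ} (hn : 2 ≤ n) : Tau.tau n + 691 ≤ ∑ d ∈ n.divisors, (d : ℤ) ^ 11 := by
  have hn0 : n ≠ 0 := by omega
  obtain ⟨k, hk⟩ := dvd_card_leech hn0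
  have h := card_leech hn0
  obtain ⟨x, hx⟩ := exists_leech hn
  have h1 : 0 < {x : Fin 24 → ℤ | x ∈ leech ∧ ∑ i, x i ^ 2 = 16 * (n : ℤ)}.ncard :=
    (Set.ncard_pos (finite_shell n)).mpr ⟨x, hx⟩
  rw [hk] at h h1
  have h2 : 1 ≤ k := Nat.pos_of_mul_pos_left h1 |> fun h => by omega
  push_cast at h
  have h3 : (1 : ℤ) ≤ k := by exact_mod_cast h2
  linarith

end Fermat.Agent.Cor.Leech
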