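import Fermat.Agent.Corollaries.Leech.KissMain
import Fermat.Agent.Corollaries.Leech.Equiangular

/-!
# Optimal spherical codes

Delsarte's bound for arbitrary sets of inner products, and the optimal codes with `n (n + 1)` points in
`ℝⁿ`, `n = 3, 7, 23`.
-/

set_option autoImplicit false

noncomputable section

namespace Fermat.Agent.Cor.Leech

open Finset

/-- **Delsarte's bound** -/
theorem delsarte_set {n : ℕ} (hn : 3 ≤ n) (d : ℕ) (c : ℕ → ℝ) (hc : ∀ k, 0 ≤ c k) (f : ℝ → ℝ)
    (hf : ∀ t, f t = ∑ k ∈ range (d + 1), c k * zon n k t) (hf1 : 0 ≤ f 1)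
    (C : Finset (Fin n → ℝ)) (hC : ∀ x ∈ C, ∑ i, x i ^ 2 = 1)
    (hC' : ∀ x ∈ C, ∀ y ∈ C, x ≠ y → f (∑ i, x i * y i) ≤ 0) : c 0 * C.card ≤ f 1 := by
  classical
  rcases C.eq_empty_or_nonempty with rfl | hne
  · rw [card_empty, Nat.cast_zero, mul_zero]
    exact hf1
  have hpos : (0 : ℝ) < C.card := by exact_mod_cast hne.card_pos
  have h1 : ∑ x ∈ C, ∑ y ∈ C, f (∑ i, x i * y i) =
      ∑ k ∈ range (d + 1), c k * ∑ x ∈ C, ∑ y ∈ C, zon n k (∑ i, x i * y i) := by
    simp only [hf, Finset.mul_sum]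
    rw [Finset.sum_comm]
    have h2 : ∀ y ∈ C, ∑ x ∈ C, ∑ k ∈ range (d + 1), c k * zon n k (∑ i, x i * y i) =
        ∑ k ∈ range (d + 1), ∑ x ∈ C, c k * zon n k (∑ i, x i * y i) := fun y _ =>
      Finset.sum_comm
    rw [Finset.sum_congr rfl h2, Finset.sum_comm]
    exact Finset.sum_congr rfl fun k _ => Finset.sum_comm
  have h2 : c 0 * (C.card : ℝ) ^ 2 ≤ ∑ x ∈ C, ∑ y ∈ C, f (∑ i, x i * y i) := by
    rw [h1, Finset.sum_range_succ']
    have h3 : ∑ x ∈ C, ∑ y ∈ C, zon n 0 (∑ i, x i * y i) = (C.card : ℝ) ^ 2 := by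
      simp only [zon, Finset.sum_const, nsmul_eq_mul, mul_one]
      ring
    rw [h3]
    have h4 : 0 ≤ ∑ k ∈ range d, c (k + 1) * ∑ x ∈ C, ∑ y ∈ C, zon n (k + 1) (∑ i, x i * y i) :=
      Finset.sum_nonneg fun k _ => mul_nonneg (hc _) (zonal_nonneg hn C hC _)
    linarith
  have h3 : ∑ x ∈ C, ∑ y ∈ C, f (∑ i, x i * y i) ≤ ∑ x ∈ C, f 1 := by
    refine Finset.sum_le_sum fun x hx => ?_
    rw [← Finset.add_sum_erase C _ hx]
    have h4 : ∑ i, x i * x i = 1 := by
      rw [← hC x hx]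
      exact Finset.sum_congr rfl fun i _ => (sq (x i)).symm
    rw [h4]
    have h5 : ∑ y ∈ C.erase x, f (∑ i, x i * y i) ≤ 0 := by
      refine Finset.sum_nonpos fun y hy => ?_
      obtain ⟨hyx, hy⟩ := mem_erase.mp hy
      exact hC' x hx y hy hyx.symm
    linarith
  rw [Finset.sum_const, nsmul_eq_mul] at h3
  have h4 : (C.card : ℝ) * (c 0 * C.card) ≤ C.card * f 1 := by
    calc (C.card : ℝ) * (c 0 * C.card) = c 0 * (C.card : ℝ) ^ 2 := by ring
      _ ≤ _ := h2
      _ ≤ _ := h3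
  exact le_of_mul_le_mul_left h4 hpos

/-- the unit vectors of a code -/
def IsCode {n : ℕ} (s : ℝ) (S : Finset (EuclideanSpace ℝ (Fin n))) : Prop :=
  (∀ x ∈ S, ‖x‖ = 1) ∧ ∀ x ∈ S, ∀ y ∈ S, x ≠ y → inner ℝ x y ≤ s

theorem abs_inner_le_one {n : ℕ} {x y : EuclideanSpace ℝ (Fin n)} (hx : ‖x‖ = 1) (hy : ‖y‖ = 1) :
    |inner ℝ x y| ≤ 1 := by
  have h := abs_real_inner_le_norm x y
  rwa [hx, hy, mul_one] at h

/-- Delsarte's bound in `EuclideanSpace` -/
theorem delsarte_euclidean {n : ℕ} (hn : 3 ≤ n) (d : ℕ) (c : ℕ → ℝ) (hc : ∀ k, 0 ≤ c k)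
    (f : ℝ → ℝ) (hf : ∀ t, f t = ∑ k ∈ range (d + 1), c k * zon n k t) (hf1 : 0 ≤ f 1)
    (S : Finset (EuclideanSpace ℝ (Fin n))) (hS : ∀ x ∈ S, ‖x‖ = 1)
    (hS' : ∀ x ∈ S, ∀ y ∈ S, x ≠ y → f (inner ℝ x y) ≤ 0) : c 0 * S.card ≤ f 1 := by
  classical
  have hinj : Function.Injective fun (x : EuclideanSpace ℝ (Fin n)) (i : Fin n) => x i := by
    intro x y hxy
    ext i
    exact congrFun hxy i
  rw [← card_image_of_injective S hinj]
  refine delsarte_set hn d c hc f hf hf1 _ ?_ ?_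
  · intro v hv
    obtain ⟨x, hx, rfl⟩ := mem_image.mp hv
    have h3 := inner_eq_sum x x
    rw [real_inner_self_eq_norm_sq, hS x hx] at h3
    show ∑ i, x i ^ 2 = 1
    rw [Finset.sum_congr rfl fun i _ => sq (x i), ← h3, one_pow]
  · intro v hv w hw hvw
    obtain ⟨x, hx, rfl⟩ := mem_image.mp hv
    obtain ⟨y, hy, rfl⟩ := mem_image.mp hw
    have hxy : x ≠ y := fun h => hvw (by rw [h])
    have h3 := hS' x hx y hy hxy
    rwa [inner_eq_sum] at h3

theorem zon_two {n : ℕ} (hn : 3 ≤ n) (t : ℝ) : zon n 2 t = t ^ 2 - 1 / n := by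
  have hn' : (3 : ℝ) ≤ n := by exact_mod_cast hn
  have h0 : (n : ℝ) ≠ 0 := by linarith
  have h2 : (n : ℝ) - 2 ≠ 0 := by linarith
  have hb : bet n (0 + 1) = 1 / n := by
    have h3 : (n : ℝ) + 2 * 1 - 4 = n - 2 := by ring
    have h4 : (n : ℝ) + 2 * 1 - 2 = n := by ring
    have h5 : (n : ℝ) + 1 - 3 = n - 2 := by ring
    rw [bet, zero_add, Nat.cast_one, h3, h4, h5]
    field_simp
  change t * t - bet n (0 + 1) * 1 = _
  rw [hb]
  ring

theorem zon_three {n : ℕ} (hn : 3 ≤ n) (t : ℝ) : zon n 3 t = t ^ 3 - 3 / (n + 2) * t := by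
  have hn' : (3 : ℝ) ≤ n := by exact_mod_cast hn
  have h0 : (n : ℝ) ≠ 0 := by linarith
  have h2 : (n : ℝ) + 2 ≠ 0 := by linarith
  have hb : bet n (1 + 1) = 2 * (n - 1) / (n * (n + 2)) := by
    have h3 : (n : ℝ) + 2 * 2 - 4 = n := by ring
    have h4 : (n : ℝ) + 2 * 2 - 2 = n + 2 := by ring
    have h5 : (n : ℝ) + 2 - 3 = n - 1 := by ring
    rw [bet]
    push_cast
    rw [h3, h4, h5]
  change t * zon n 2 t - bet n (1 + 1) * t = _
  rw [hb, zon_two hn]
  field_simp
  ring

theorem zon_four {n : ℕ} (hn : 3 ≤ n) (t : ℝ) :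
    zon n 4 t = t ^ 4 - 6 / (n + 4) * t ^ 2 + 3 / ((n + 2) * (n + 4)) := by
  have hn' : (3 : ℝ) ≤ n := by exact_mod_cast hn
  have h0 : (n : ℝ) ≠ 0 := by linarith
  have h2 : (n : ℝ) + 2 ≠ 0 := by linarith
  have h4 : (n : ℝ) + 4 ≠ 0 := by linarith
  have hb : bet n (2 + 1) = 3 * n / ((n + 2) * (n + 4)) := by
    have h3 : (n : ℝ) + 2 * 3 - 4 = n + 2 := by ring
    have h4 : (n : ℝ) + 2 * 3 - 2 = n + 4 := by ring
    have h5 : (n : ℝ) + 3 - 3 = n := by ring
    rw [bet]
    push_cast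
    rw [h3, h4, h5]
  change t * zon n 3 t - bet n (2 + 1) * zon n 2 t = _
  rw [hb, zon_two hn, zon_three hn]
  field_simp
  ring

/-- **Rankin**: at most `2 n` points with distances at least `√2` -/
theorem card_le_two_mul {n : ℕ} (hn : 3 ≤ n) (S : Finset (EuclideanSpace ℝ (Fin n)))
    (hS : IsCode 0 S) : S.card ≤ 2 * n := by
  have hn' : (3 : ℝ) ≤ n := by exact_mod_cast hn
  have h := delsarte_euclidean hn 2 (fun k => if k = 0 then 1 / n else if k ≤ 2 then 1 else 0)
    (fun k => by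
      split_ifs
      · positivity
      · exact zero_le_one
      · exact le_rfl) (fun t => t * (t + 1))
    (fun t => by
      simp only [Finset.sum_range_succ, Finset.sum_range_zero, zon_two hn]
      have h2 : (n : ℝ) ≠ 0 := by linarith
      norm_num [zon]
      ring) (by norm_num) S hS.1
    (fun x hx y hy hxy => by
      have h1 := hS.2 x hx y hy hxy
      have h2 := abs_le.mp (abs_inner_le_one (hS.1 x hx) (hS.1 y hy))
      exact mul_nonpos_of_nonpos_of_nonneg h1 (by linarith))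
  norm_num at h
  have h1 : (S.card : ℝ) ≤ 2 * n := by
    have h2 : (n : ℝ) * ((n : ℝ)⁻¹ * S.card) ≤ n * 2 := by
      exact mul_le_mul_of_nonneg_left (by linarith) (by positivity)
    rw [← mul_assoc, mul_inv_cancel₀ (by linarith), one_mul] at h2
    linarith
  exact_mod_cast h1

/-- at most `n (n + 1)` unit vectors with inner products `≤ α`, `α ^ 2 = 1 / (n + 2)` -/
theorem card_le_mul_succ {n : ℕ} (hn : 3 ≤ n) {α : ℝ} (hα : 0 < α) (hα2 : α ^ 2 * (n + 2) = 1)
    (S : Finset (EuclideanSpace ℝ (Fin n))) (hS : IsCode α S) : S.card ≤ n * (n + 1) := by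
  have hn' : (3 : ℝ) ≤ n := by exact_mod_cast hn
  have h0 : (n : ℝ) ≠ 0 := by linarith
  have h2 : (n : ℝ) + 2 ≠ 0 := by linarith
  have h4 : (n : ℝ) + 4 ≠ 0 := by linarith
  have hα3 : α ^ 2 = 1 / (n + 2) := by
    field_simp
    linarith
  have h := delsarte_euclidean hn 4 (fun k => if k = 0 then 2 * (1 + α) / (n * (n + 2)) else
      if k = 1 then 2 * (1 + α) / (n + 2) else if k = 2 then 6 / (n + 4) + α - 1 / (n + 2) else
      if k = 3 then 1 + α else if k = 4 then 1 else 0)
    (fun k => by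
      split_ifs
      · positivity
      · positivity
      · have : 1 / ((n : ℝ) + 2) ≤ 6 / (n + 4) := by
          rw [div_le_div_iff₀ (by positivity) (by positivity)]
          linarith
        linarith
      · positivity
      · exact zero_le_one
      · exact le_rfl) (fun t => (t + 1) * (t + α) ^ 2 * (t - α))
    (fun t => by
      simp only [Finset.sum_range_succ, Finset.sum_range_zero, zon_two hn, zon_three hn,
        zon_four hn]
      norm_num [zon]
      have h5 : (t + 1) * (t + α) ^ 2 * (t - α) =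
          t ^ 4 + (1 + α) * t ^ 3 + (α - α ^ 2) * t ^ 2 - (1 + α) * α ^ 2 * t - α * α ^ 2 := by
        ring
      rw [h5, hα3]
      field_simp
      ring) (by
        have : 0 ≤ 1 - α := by nlinarith
        norm_num
        positivity) S hS.1
    (fun x hx y hy hxy => by
      have h1 := hS.2 x hx y hy hxy
      have h2 := abs_le.mp (abs_inner_le_one (hS.1 x hx) (hS.1 y hy))
      have h3 : 0 ≤ inner ℝ x y + 1 := by linarith
      exact mul_nonpos_of_nonneg_of_nonpos (by positivity) (by linarith))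
  have h' : 2 * (1 + α) / (n * (n + 2)) * (S.card : ℝ) ≤ (1 + 1) * (1 + α) ^ 2 * (1 - α) := h
  have h6 : (1 + 1) * (1 + α) ^ 2 * (1 - α) = 2 * (1 + α) / (n * (n + 2)) * (n * (n + 1)) := by
    have h7 : (1 + 1) * (1 + α) ^ 2 * (1 - α) = 2 * (1 + α) * (1 - α ^ 2) := by ring
    rw [h7, hα3]
    field_simp
    ring
  rw [h6] at h'
  exact_mod_cast le_of_mul_le_mul_left h' (by positivity)

/-- **the relative bound** for unit vectors with inner products `|x · y| ≤ α`, `n α ^ 2 < 1` -/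
theorem relative_bound {n : ℕ} (hn : 3 ≤ n) {α : ℝ} (hα : n * α ^ 2 < 1)
    (S : Finset (EuclideanSpace ℝ (Fin n))) (hS : ∀ x ∈ S, ‖x‖ = 1)
    (hS' : ∀ x ∈ S, ∀ y ∈ S, x ≠ y → |inner ℝ x y| ≤ α) :
    S.card * (1 - n * α ^ 2) ≤ n * (1 - α ^ 2) := by
  have hn' : (3 : ℝ) ≤ n := by exact_mod_cast hn
  have h0 : (n : ℝ) ≠ 0 := by linarith
  have hpos : 0 ≤ 1 / n - α ^ 2 := by
    rw [sub_nonneg, le_div_iff₀ (by linarith)]
    linarith
  have h := delsarte_euclidean hn 2 (fun k => if k = 0 then 1 / n - α ^ 2 else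
      if k = 2 then 1 else 0)
    (fun k => by
      split_ifs
      · exact hpos
      · exact zero_le_one
      · exact le_rfl) (fun t => t ^ 2 - α ^ 2)
    (fun t => by
      simp only [Finset.sum_range_succ, Finset.sum_range_zero, zon_two hn]
      norm_num [zon]) (by
        have h1 : α ^ 2 ≤ n * α ^ 2 := by nlinarith [sq_nonneg α]
        show 0 ≤ 1 ^ 2 - α ^ 2
        linarith) S hS
    (fun x hx y hy hxy => by
      have h1 := hS' x hx y hy hxy
      have h2 : |inner ℝ x y| ^ 2 ≤ α ^ 2 := pow_le_pow_left₀ (abs_nonneg _) h1 2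
      rw [sq_abs] at h2
      show inner ℝ x y ^ 2 - α ^ 2 ≤ 0
      linarith)
  have h' : (1 / n - α ^ 2) * (S.card : ℝ) ≤ 1 ^ 2 - α ^ 2 := h
  have h1 : (n : ℝ) * ((1 / n - α ^ 2) * (S.card : ℝ)) ≤ n * (1 ^ 2 - α ^ 2) :=
    mul_le_mul_of_nonneg_left h' (by linarith)
  have h2 : (n : ℝ) * ((1 / n - α ^ 2) * (S.card : ℝ)) = S.card * (1 - n * α ^ 2) := by
    field_simp
  rw [h2, one_pow] at h1
  exact h1

/-! ### existence -/

/-- vectors in a hyperplane -/
theorem exists_vectors {n : ℕ} {ι : Type} (v : Fin (n + 1) → ℝ) (hv : v ≠ 0)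
    (a : ι → Fin (n + 1) → ℝ) {r : ℝ} (hr : 0 < r) (h0 : ∀ k, ∑ i, a k i * v i = 0) :
    ∃ y : ι → EuclideanSpace ℝ (Fin n), ∀ k l, inner ℝ (y k) (y l) = 1 / r * ∑ i, a k i * a l i := by
  classical
  let V : EuclideanSpace ℝ (Fin (n + 1)) := WithLp.toLp 2 v
  have hV : V ≠ 0 := by
    intro h
    apply hv
    funext i
    have h3 : V i = 0 := by rw [h]; rfl
    exact h3
  have : Fact (Module.finrank ℝ (EuclideanSpace ℝ (Fin (n + 1))) = n + 1) :=
    ⟨finrank_euclideanSpace_fin⟩
  let b := OrthonormalBasis.fromOrthogonalSpanSingleton (𝕜 := ℝ) n hV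
  let x : ι → EuclideanSpace ℝ (Fin (n + 1)) := fun k =>
    WithLp.toLp 2 fun i => (1 / Real.sqrt r) * a k i
  have hsq : (1 / Real.sqrt r) ^ 2 = 1 / r := by
    rw [div_pow, one_pow, Real.sq_sqrt hr.le]
  have hx : ∀ k, x k ∈ (ℝ ∙ V)ᗮ := by
    intro k
    rw [Submodule.mem_orthogonal_singleton_iff_inner_right, inner_eq_sum]
    have h3 : ∑ i, V i * x k i = (1 / Real.sqrt r) * ∑ i, a k i * v i := by
      rw [Finset.mul_sum]
      refine Finset.sum_congr rfl fun i _ => ?_
      change v i * ((1 / Real.sqrt r) * a k i) = _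
      ring
    rw [h3, h0, mul_zero]
  refine ⟨fun k => b.repr ⟨x k, hx k⟩, fun k l => ?_⟩
  change inner ℝ (b.repr ⟨x k, hx k⟩) (b.repr ⟨x l, hx l⟩) = _
  rw [LinearIsometryEquiv.inner_map_map, Submodule.coe_inner, inner_eq_sum, Finset.mul_sum]
  refine Finset.sum_congr rfl fun i _ => ?_
  change ((1 / Real.sqrt r) * a k i) * ((1 / Real.sqrt r) * a l i) = _
  rw [← hsq]
  ring

/-- the points `± x` -/
theorem exists_code_pm {n : ℕ} {ι : Type} [Fintype ι] (y : ι → EuclideanSpace ℝ (Fin n)) {α : ℝ}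
    (hα0 : 0 ≤ α) (hα1 : α < 1) (h1 : ∀ k, inner ℝ (y k) (y k) = (1 : ℝ))
    (h2 : ∀ k l, k ≠ l → |inner ℝ (y k) (y l)| ≤ α) :
    ∃ S : Finset (EuclideanSpace ℝ (Fin n)), S.card = 2 * Fintype.card ι ∧ IsCode α S := by
  classical
  let z : ι ⊕ ι → EuclideanSpace ℝ (Fin n) := Sum.elim y fun k => -y k
  have hz1 : ∀ k, inner ℝ (z k) (z k) = (1 : ℝ) := by
    rintro (k | k)
    · exact h1 k
    · change inner ℝ (-y k) (-y k) = (1 : ℝ)
      rw [inner_neg_neg]
      exact h1 k
  have hz2 : ∀ k l, k ≠ l → inner ℝ (z k) (z l) ≤ α := by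
    rintro (k | k) (l | l) h
    · exact (le_abs_self _).trans (h2 k l fun h' => h (by rw [h']))
    · change inner ℝ (y k) (-y l) ≤ α
      rw [inner_neg_right]
      by_cases h' : k = l
      · rw [h', h1]
        linarith
      · exact (neg_le_abs _).trans (h2 k l h')
    · change inner ℝ (-y k) (y l) ≤ α
      rw [inner_neg_left]
      by_cases h' : k = l
      · rw [h', h1]
        linarith
      · exact (neg_le_abs _).trans (h2 k l h')
    · change inner ℝ (-y k) (-y l) ≤ α
      rw [inner_neg_neg]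
      exact (le_abs_self _).trans (h2 k l fun h' => h (by rw [h']))
  have hinj : Function.Injective z := by
    intro k l h
    by_contra hne
    have h3 := hz2 k l hne
    rw [← h, hz1] at h3
    exact absurd h3 (not_le.mpr hα1)
  refine ⟨univ.image z, by
    rw [card_image_of_injective _ hinj, card_univ, Fintype.card_sum, two_mul], ?_, ?_⟩
  · intro w hw
    obtain ⟨k, -, rfl⟩ := mem_image.mp hw
    have h3 := hz1 k
    rw [real_inner_self_eq_norm_sq] at h3
    have h4 := norm_nonneg (z k)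
    nlinarith
  · intro w hw w' hw' hww
    obtain ⟨k, -, rfl⟩ := mem_image.mp hw
    obtain ⟨l, -, rfl⟩ := mem_image.mp hw'
    exact hz2 k l fun h => hww (by rw [h])

/-- the points `± x` of equiangular lines in a hyperplane -/
theorem exists_code_of_lines {n : ℕ} {ι : Type} [Fintype ι] (v : Fin (n + 1) → ℝ) (hv : v ≠ 0)
    (a : ι → Fin (n + 1) → ℝ) {r s : ℝ} (hr : 0 < r) (hs : 0 ≤ s) (hsr : s < r)
    (h0 : ∀ k, ∑ i, a k i * v i = 0) (h1 : ∀ k, ∑ i, a k i ^ 2 = r)
    (h2 : ∀ k l, k ≠ l → |∑ i, a k i * a l i| = s) :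
    ∃ S : Finset (EuclideanSpace ℝ (Fin n)), S.card = 2 * Fintype.card ι ∧ IsCode (s / r) S := by
  obtain ⟨y, hy⟩ := exists_vectors v hv a hr h0
  refine exists_code_pm y (by positivity) ((div_lt_one hr).mpr hsr) (fun k => ?_) fun k l h => ?_
  · rw [hy, ← Finset.sum_congr rfl fun i _ => sq (a k i), h1, one_div_mul_cancel hr.ne']
  · rw [hy, abs_mul, abs_of_pos (by positivity : (0 : ℝ) < 1 / r), h2 k l h]
    exact le_of_eq (by ring)

/-- **the cross polytope is optimal** (Rankin): at most `2 n` points on the unit sphere in `ℝⁿ` have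
pairwise distances at least `√2` -/
theorem optimal_orthoplex {n : ℕ} (hn : 3 ≤ n) :
    IsGreatest {k | ∃ S : Finset (EuclideanSpace ℝ (Fin n)), S.card = k ∧ IsCode 0 S} (2 * n) := by
  constructor
  · have h := (EuclideanSpace.basisFun (Fin n) ℝ).orthonormal
    obtain ⟨S, h1, h2⟩ := exists_code_pm (α := 0) (EuclideanSpace.basisFun (Fin n) ℝ) le_rfl
      zero_lt_one (fun k => by rw [real_inner_self_eq_norm_sq, h.1 k, one_pow])
      (fun k l hkl => by rw [h.2 hkl, abs_zero])
    exact ⟨S, by rw [h1, Fintype.card_fin], h2⟩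
  · rintro k ⟨S, rfl, hS⟩
    exact card_le_two_mul hn S hS

theorem optimal_of {n k : ℕ} (hn : 3 ≤ n) {α : ℝ} (hα : 0 < α) (hα2 : α ^ 2 * (n + 2) = 1)
    (hk : k = n * (n + 1))
    (h : ∃ S : Finset (EuclideanSpace ℝ (Fin n)), S.card = k ∧ IsCode α S) :
    IsGreatest {k | ∃ S : Finset (EuclideanSpace ℝ (Fin n)), S.card = k ∧ IsCode α S} k := by
  refine ⟨h, ?_⟩
  rintro l ⟨S, rfl, hS⟩
  rw [hk]
  exact card_le_mul_succ hn hα hα2 S hS

/-- **56 points in dimension `7`** -/
theorem optimal_7 :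
    IsGreatest {k | ∃ S : Finset (EuclideanSpace ℝ (Fin 7)), S.card = k ∧ IsCode (1 / 3) S}
      56 := by
  refine optimal_of (by norm_num) (by norm_num) (by norm_num) (by norm_num) ?_
  have h := exists_code_of_lines (n := 7) (ι := P28) (fun _ => 1) (fun h => by
      have := congrFun h 0
      norm_num at this) (fun p i => (a28 p i : ℝ)) (r := 24) (s := 8) (by norm_num) (by norm_num)
    (by norm_num) (fun p => by
      simp only [mul_one]
      exact_mod_cast a28_sum p) (fun p => by exact_mod_cast a28_sq p)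
    (fun p q h => by exact_mod_cast a28_mul p q h)
  have h28 : Fintype.card P28 = 28 := by decide +kernel
  rw [h28] at h
  norm_num at h ⊢
  exact h

/-- **552 points in dimension `23`** -/
theorem optimal_23 :
    IsGreatest {k | ∃ S : Finset (EuclideanSpace ℝ (Fin 23)), S.card = k ∧ IsCode (1 / 5) S}
      552 := by
  classical
  refine optimal_of (by norm_num) (by norm_num) (by norm_num) (by norm_num) ?_
  have key : ∀ k l, ∑ i, (2 * u276 k i - v276 i) * (2 * u276 l i - v276 i) =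
      4 * ∑ i, u276 k i * u276 l i - 48 := by
    intro k l
    have h1 : ∑ i, (2 * u276 k i - v276 i) * (2 * u276 l i - v276 i) =
        4 * ∑ i, u276 k i * u276 l i - 2 * ∑ i, u276 k i * v276 i - 2 * ∑ i, u276 l i * v276 i +
          ∑ i, v276 i * v276 i := by
      rw [Finset.mul_sum, Finset.mul_sum, Finset.mul_sum, ← Finset.sum_sub_distrib,
        ← Finset.sum_sub_distrib, ← Finset.sum_add_distrib]
      exact Finset.sum_congr rfl fun i _ => by ring
    rw [h1, u276_v, u276_v, v276_sq]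
    ring
  have h := exists_code_of_lines (n := 23) (ι := {j : Fin 24 // j ≠ 0} ⊕ Oct) v276 (fun h => by
      have := congrFun h 0
      norm_num [v276] at this) (fun k i => 2 * u276 k i - v276 i) (r := 80) (s := 16)
    (by norm_num) (by norm_num) (by norm_num)
    (fun k => by
      have h1 : ∑ i, (2 * u276 k i - v276 i) * v276 i =
          2 * ∑ i, u276 k i * v276 i - ∑ i, v276 i * v276 i := by
        rw [Finset.mul_sum, ← Finset.sum_sub_distrib]
        exact Finset.sum_congr rfl fun i _ => by ring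
      rw [h1, u276_v, v276_sq]
      norm_num)
    (fun k => by
      rw [Finset.sum_congr rfl fun i _ => sq (2 * u276 k i - v276 i), key, u276_sq]
      norm_num)
    (fun k l hkl => by
      rw [key]
      rcases u276_mul k l hkl with h1 | h1 <;> rw [h1] <;> norm_num)
  have hc : Fintype.card ({j : Fin 24 // j ≠ 0} ⊕ Oct) = 276 := by
    rw [Fintype.card_sum, card_Oct]
    have : Fintype.card {j : Fin 24 // j ≠ 0} = 23 := by decide +kernel
    rw [this]
  rw [hc] at h
  norm_num at h ⊢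
  exact h

/-! ### the icosahedron -/

/-- six vertices of the icosahedron -/
def ico : Fin 6 → Fin 4 → ℝ :=
  ![![0, 1, Real.goldenRatio, 0], ![0, -1, Real.goldenRatio, 0],
    ![1, Real.goldenRatio, 0, 0], ![-1, Real.goldenRatio, 0, 0],
    ![Real.goldenRatio, 0, 1, 0], ![Real.goldenRatio, 0, -1, 0]]

theorem ico_sq (k : Fin 6) : ∑ i, ico k i ^ 2 = Real.goldenRatio + 2 := by
  have h := Real.goldenRatio_sq
  fin_cases k <;> simp [ico, Fin.sum_univ_succ] <;> linarith

theorem ico_mul (k l : Fin 6) (hkl : k ≠ l) : |∑ i, ico k i * ico l i| = Real.goldenRatio := by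
  have h := Real.goldenRatio_sq
  have h0 := Real.goldenRatio_pos
  have h1 : ∑ i, ico k i * ico l i = Real.goldenRatio ∨
      ∑ i, ico k i * ico l i = -Real.goldenRatio := by
    fin_cases k <;> fin_cases l <;> first
      | exact absurd rfl hkl
      | (left; simp [ico, Fin.sum_univ_succ]; done)
      | (right; simp [ico, Fin.sum_univ_succ]; done)
      | (left; simp [ico, Fin.sum_univ_succ]; nlinarith)
  rcases h1 with h1 | h1
  · rw [h1, abs_of_pos h0]
  · rw [h1, abs_neg, abs_of_pos h0]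

theorem ico_v (k : Fin 6) : ∑ i, ico k i * (![0, 0, 0, 1] : Fin 4 → ℝ) i = 0 := by
  fin_cases k <;> simp [ico, Fin.sum_univ_succ]

theorem ico_v_ne : (![0, 0, 0, 1] : Fin 4 → ℝ) ≠ 0 := by
  intro h
  exact one_ne_zero (α := ℝ) (congrFun h 3)

/-- **the icosahedron**: 12 points in dimension `3` -/
theorem optimal_3 :
    IsGreatest {k | ∃ S : Finset (EuclideanSpace ℝ (Fin 3)), S.card = k ∧ IsCode (1 / √5) S}
      12 := by
  have h5 : (0 : ℝ) < √5 := Real.sqrt_pos.mpr (by norm_num)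
  have h5' : √5 ^ 2 = (5 : ℝ) := Real.sq_sqrt (by norm_num)
  have h0 := Real.goldenRatio_pos
  refine optimal_of (by norm_num) (by positivity) (by
    rw [div_pow, h5']
    norm_num) (by norm_num) ?_
  have h := exists_code_of_lines (n := 3) (ι := Fin 6) _ ico_v_ne ico
    (r := Real.goldenRatio + 2) (s := Real.goldenRatio) (by positivity) h0.le (by linarith)
    ico_v ico_sq ico_mul
  have h1 : Real.goldenRatio / (Real.goldenRatio + 2) = 1 / √5 := by
    have h2 : Real.goldenRatio + 2 = √5 * Real.goldenRatio := by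
      unfold Real.goldenRatio
      nlinarith
    rw [h2]
    field_simp
  rw [h1, Fintype.card_fin] at h
  exact h

/-- **the maximal number of equiangular lines in `ℝ³` is `6`**: the diagonals of the icosahedron -/
theorem equiangular_3 :
    IsGreatest {k | ∃ S : Finset (EuclideanSpace ℝ (Fin 3)), S.card = k ∧ IsEquiangular S} 6 := by
  constructor
  · have h0 := Real.goldenRatio_pos
    have h := exists_equiangular (n := 3) (ι := Fin 6) _ ico_v_ne ico
      (r := Real.goldenRatio + 2) (s := Real.goldenRatio) (by positivity) (by linarith)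
      ico_v ico_sq ico_mul
    rwa [Fintype.card_fin] at h
  · rintro k ⟨S, rfl, hS⟩
    have := equiangular_le S hS
    omega

/-- the maximal number of equiangular lines in the plane is `3` -/
theorem equiangular_2 :
    IsGreatest {k | ∃ S : Finset (EuclideanSpace ℝ (Fin 2)), S.card = k ∧ IsEquiangular S} 3 := by
  constructor
  · have h := exists_equiangular (n := 2) (ι := Fin 3) (fun _ => 1) (fun h => by
        have := congrFun h 0
        norm_num at this) (![![1, -1, 0], ![1, 0, -1], ![0, 1, -1]] : Fin 3 → Fin 3 → ℝ)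
      (r := 2) (s := 1) (by norm_num) (by norm_num)
      (fun k => by fin_cases k <;> simp [Fin.sum_univ_succ])
      (fun k => by fin_cases k <;> norm_num [Fin.sum_univ_succ])
      (fun k l h => by
        fin_cases k <;> fin_cases l <;> first
          | exact absurd rfl h
          | norm_num [Fin.sum_univ_succ])
    rwa [Fintype.card_fin] at h
  · rintro k ⟨S, rfl, hS⟩
    have := equiangular_le S hS
    omega

end Fermat.Agent.Cor.Leech
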