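import Fermat.Agent.Corollaries.Leech.Zonal

/-!
# Positivity of the zonal polynomials

`0 ≤ ∑_{x, y ∈ C} zon n k (x · y)` for every finite set `C` of unit vectors in `ℝⁿ` (Schoenberg), by the inner
product of Fischer on the polynomials.
-/

set_option autoImplicit false

noncomputable section

namespace Fermat.Agent.Cor.Leech

open Finset MvPolynomial

variable {n : ℕ}

theorem Z_mod (y : Fin n → ℝ) (k : ℕ) : (∃ S, Z y k = lin y ^ k + rad n * S) ∧
    ∃ S, Z y (k + 1) = lin y ^ (k + 1) + rad n * S := by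
  induction k with
  | zero =>
    refine ⟨⟨0, ?_⟩, ⟨0, ?_⟩⟩
    · change (1 : MvPolynomial (Fin n) ℝ) = _
      ring
    · change lin y = _
      ring
  | succ k ih =>
    refine ⟨ih.2, ?_⟩
    obtain ⟨S, hS⟩ := ih.2
    refine ⟨lin y * S - C (bet n (k + 1)) * Z y k, ?_⟩
    change lin y * Z y (k + 1) - C (bet n (k + 1)) * (rad n * Z y k) = _
    rw [hS]
    ring

theorem eval_lin (x y : Fin n → ℝ) : eval x (lin y) = ∑ i, x i * y i := by
  rw [lin, map_sum]
  refine Finset.sum_congr rfl fun i _ => ?_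
  rw [map_mul, eval_C, eval_X, mul_comm]

theorem eval_rad (x : Fin n → ℝ) : eval x (rad n) = ∑ i, x i ^ 2 := by
  rw [rad, map_sum]
  refine Finset.sum_congr rfl fun i _ => ?_
  rw [map_pow, eval_X]

theorem eval_Z {x : Fin n → ℝ} (hx : ∑ i, x i ^ 2 = 1) (y : Fin n → ℝ) (k : ℕ) :
    eval x (Z y k) = zon n k (∑ i, x i * y i) ∧
      eval x (Z y (k + 1)) = zon n (k + 1) (∑ i, x i * y i) := by
  induction k with
  | zero => exact ⟨map_one _, eval_lin x y⟩
  | succ k ih =>
    refine ⟨ih.2, ?_⟩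
    change eval x (lin y * Z y (k + 1) - C (bet n (k + 1)) * (rad n * Z y k)) =
      (∑ i, x i * y i) * zon n (k + 1) (∑ i, x i * y i) -
        bet n (k + 1) * zon n k (∑ i, x i * y i)
    rw [map_sub, map_mul, map_mul, map_mul, eval_C, eval_lin, eval_rad, hx, ih.1, ih.2, one_mul]

theorem isHomogeneous_dir (x : Fin n → ℝ) {q : MvPolynomial (Fin n) ℝ} {k : ℕ}
    (hq : q.IsHomogeneous (k + 1)) : (dir x q).IsHomogeneous k :=
  IsHomogeneous.sum _ _ _ fun i _ => by
    have h := (isHomogeneous_C (Fin n) (x i)).mul (hq.pderiv (i := i))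
    rwa [zero_add, Nat.add_sub_cancel] at h

theorem eval_dir (x : Fin n → ℝ) {q : MvPolynomial (Fin n) ℝ} {k : ℕ} (hq : q.IsHomogeneous k) :
    eval x (dir x q) = k * eval x q := by
  have h1 := congrArg (eval x) hq.sum_X_mul_pderiv
  rw [map_sum, nsmul_eq_mul, map_mul, map_natCast] at h1
  rw [← h1, dir, map_sum]
  refine Finset.sum_congr rfl fun i _ => ?_
  rw [map_mul, map_mul, eval_C, eval_X]

section fischer

variable (B : MvPolynomial (Fin n) ℝ →ₗ[ℝ] MvPolynomial (Fin n) ℝ →ₗ[ℝ] ℝ)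
  (hpos : ∀ p, 0 ≤ B p p)
  (hadj : ∀ (i : Fin n) (p q : MvPolynomial (Fin n) ℝ), B (X i * p) q = B p (pderiv i q))
  (hone : ∀ q : MvPolynomial (Fin n) ℝ, B 1 q = constantCoeff q)

include hadj

theorem B_rad (p q : MvPolynomial (Fin n) ℝ) : B (rad n * p) q = B p (lap q) := by
  rw [rad, Finset.sum_mul, map_sum, LinearMap.sum_apply, lap, map_sum]
  refine Finset.sum_congr rfl fun i _ => ?_
  rw [sq, mul_assoc, hadj, hadj]

theorem B_lin (x : Fin n → ℝ) (p q : MvPolynomial (Fin n) ℝ) :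
    B (lin x * p) q = B p (dir x q) := by
  rw [lin, Finset.sum_mul, map_sum, LinearMap.sum_apply, dir, map_sum]
  refine Finset.sum_congr rfl fun i _ => ?_
  rw [mul_assoc, ← smul_eq_C_mul, ← smul_eq_C_mul, map_smul, map_smul, LinearMap.smul_apply, hadj]

include hone

theorem B_lin_pow (x : Fin n → ℝ) (k : ℕ) {q : MvPolynomial (Fin n) ℝ}
    (hq : q.IsHomogeneous k) : B (lin x ^ k) q = k.factorial * eval x q := by
  induction k generalizing q with
  | zero =>
    rw [pow_zero, hone, Nat.factorial_zero, Nat.cast_one, one_mul]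
    have h1 : q = C (constantCoeff q) := by
      have h2 := (totalDegree_eq_zero_iff_eq_C (p := q)).mp (Nat.le_zero.mp hq.totalDegree_le)
      exact h2
    rw [h1, eval_C, constantCoeff_C]
  | succ k ih =>
    rw [pow_succ', B_lin B hadj, ih (isHomogeneous_dir x hq), eval_dir x hq, Nat.factorial_succ]
    push_cast
    ring

theorem B_Z (hn : 3 ≤ n) {x y : Fin n → ℝ} (hx : ∑ i, x i ^ 2 = 1) (hy : ∑ i, y i ^ 2 = 1)
    (k : ℕ) : B (Z x k) (Z y k) = k.factorial * zon n k (∑ i, x i * y i) := by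
  obtain ⟨S, hS⟩ := (Z_mod x k).1
  rw [hS, map_add, LinearMap.add_apply, B_rad B hadj, (Z_props hn hy k).1, map_zero, add_zero,
    B_lin_pow B hadj hone x k (isHomogeneous_Z y k).1, (eval_Z hx y k).1]

include hpos

theorem zonal_nonneg_aux (hn : 3 ≤ n) (C' : Finset (Fin n → ℝ))
    (hC : ∀ x ∈ C', ∑ i, x i ^ 2 = 1) (k : ℕ) :
    0 ≤ ∑ x ∈ C', ∑ y ∈ C', zon n k (∑ i, x i * y i) := by
  have h1 := hpos (∑ x ∈ C', Z x k)
  have h2 : B (∑ x ∈ C', Z x k) (∑ y ∈ C', Z y k) =
      k.factorial * ∑ x ∈ C', ∑ y ∈ C', zon n k (∑ i, x i * y i) := by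
    rw [map_sum B, LinearMap.sum_apply, Finset.mul_sum]
    refine Finset.sum_congr rfl fun x hx => ?_
    rw [map_sum (B (Z x k)), Finset.mul_sum]
    exact Finset.sum_congr rfl fun y hy => B_Z B hadj hone hn (hC x hx) (hC y hy) k
  rw [h2] at h1
  exact nonneg_of_mul_nonneg_right h1 (by exact_mod_cast k.factorial_pos)

end fischer

end Fermat.Agent.Cor.Leech
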