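import Fermat.Agent.Corollaries.Leech.Optimal

/-!
# Further optimal spherical codes

The simplices, the `16` points in `ℝ⁵` with inner products `≤ 1/5` (the half cube) and the `27` points in
`ℝ⁶` with inner products `≤ 1/4` (the configuration of Schläfli).
-/

set_option autoImplicit false

noncomputable section

namespace Fermat.Agent.Cor.Leech

open Finset

theorem exists_vectors_diag {n : ℕ} {ι : Type} (w : Fin n → ℝ) (hw : ∀ i, 0 ≤ w i)
    (a : ι → Fin n → ℝ) :
    ∃ y : ι → EuclideanSpace ℝ (Fin n), ∀ k l, inner ℝ (y k) (y l) = ∑ i, w i * (a k i * a l i) := by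
  refine ⟨fun k => WithLp.toLp 2 fun i => √(w i) * a k i, fun k l => ?_⟩
  rw [inner_eq_sum]
  refine Finset.sum_congr rfl fun i _ => ?_
  change (√(w i) * a k i) * (√(w i) * a l i) = _
  nth_rw 3 [← Real.mul_self_sqrt (hw i)]
  ring

theorem exists_code {n : ℕ} {ι : Type} [Fintype ι] (y : ι → EuclideanSpace ℝ (Fin n)) {s : ℝ}
    (hs : s < 1) (h1 : ∀ k, inner ℝ (y k) (y k) = (1 : ℝ))
    (h2 : ∀ k l, k ≠ l → inner ℝ (y k) (y l) ≤ s) :
    ∃ S : Finset (EuclideanSpace ℝ (Fin n)), S.card = Fintype.card ι ∧ IsCode s S := by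
  classical
  have hinj : Function.Injective y := by
    intro k l h
    by_contra hne
    have h3 := h2 k l hne
    rw [← h, h1] at h3
    exact absurd h3 (not_le.mpr hs)
  refine ⟨univ.image y, by rw [card_image_of_injective _ hinj, card_univ], ?_, ?_⟩
  · intro w hw
    obtain ⟨k, -, rfl⟩ := mem_image.mp hw
    have h3 := h1 k
    rw [real_inner_self_eq_norm_sq] at h3
    have h4 := norm_nonneg (y k)
    nlinarith
  · intro w hw w' hw' hww
    obtain ⟨k, -, rfl⟩ := mem_image.mp hw
    obtain ⟨l, -, rfl⟩ := mem_image.mp hw'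
    exact h2 k l fun h => hww (by rw [h])

/-! ### the simplex -/

theorem card_le_succ {n : ℕ} (hn : 3 ≤ n) (S : Finset (EuclideanSpace ℝ (Fin n)))
    (hS : IsCode (-1 / n) S) : S.card ≤ n + 1 := by
  have hn' : (3 : ℝ) ≤ n := by exact_mod_cast hn
  have h := delsarte_euclidean hn 1 (fun k => if k = 0 then 1 / n else if k = 1 then 1 else 0)
    (fun k => by
      split_ifs
      · positivity
      · exact zero_le_one
      · exact le_rfl) (fun t => t + 1 / n)
    (fun t => by
      simp only [Finset.sum_range_succ, Finset.sum_range_zero]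
      norm_num [zon]
      ring) (by positivity) S hS.1
    (fun x hx y hy hxy => by
      have h1 := hS.2 x hx y hy hxy
      have h2 : (-1 / n : ℝ) = -(1 / n) := by ring
      rw [h2] at h1
      show inner ℝ x y + 1 / n ≤ 0
      linarith)
  have h' : 1 / n * (S.card : ℝ) ≤ 1 + 1 / n := h
  have h1 : (n : ℝ) * (1 / n * (S.card : ℝ)) ≤ n * (1 + 1 / n) :=
    mul_le_mul_of_nonneg_left h' (by linarith)
  have h2 : (n : ℝ) * (1 / n * (S.card : ℝ)) = S.card := by field_simp
  have h3 : (n : ℝ) * (1 + 1 / n) = n + 1 := by field_simp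
  rw [h2, h3] at h1
  exact_mod_cast h1

/-- **the simplex**: at most `n + 1` unit vectors in `ℝⁿ` have pairwise inner products `≤ -1 / n` -/
theorem optimal_simplex {n : ℕ} (hn : 3 ≤ n) :
    IsGreatest {k | ∃ S : Finset (EuclideanSpace ℝ (Fin n)), S.card = k ∧ IsCode (-1 / n) S}
      (n + 1) := by
  have hn' : (3 : ℝ) ≤ n := by exact_mod_cast hn
  constructor
  · obtain ⟨y, hy⟩ := exists_vectors (n := n) (ι := Fin (n + 1)) (fun _ => 1) (fun h => by
      have := congrFun h 0
      norm_num at this) (fun k i => (n + 1) * (if i = k then 1 else 0) - 1)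
      (r := (n + 1) * n) (by positivity) (fun k => by
        simp only [mul_one, Finset.sum_sub_distrib, ← Finset.mul_sum, Finset.sum_ite_eq',
          Finset.mem_univ, if_true, Finset.sum_const, Finset.card_univ, Fintype.card_fin,
          nsmul_eq_mul]
        push_cast
        ring)
    have hkl : ∀ k l : Fin (n + 1), ∑ i : Fin (n + 1),
        (((n : ℝ) + 1) * (if i = k then 1 else 0) - 1) * ((n + 1) * (if i = l then 1 else 0) - 1) =
          ((n : ℝ) + 1) ^ 2 * (if k = l then 1 else 0) - (n + 1) := by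
      intro k l
      have hA : ∀ k : Fin (n + 1), ∑ i : Fin (n + 1), (if i = k then (1 : ℝ) else 0) = 1 := by
        intro k
        rw [Finset.sum_ite_eq', if_pos (mem_univ k)]
      have hB : ∑ i : Fin (n + 1), (if i = k then (1 : ℝ) else 0) * (if i = l then 1 else 0) =
          if k = l then 1 else 0 := by
        rw [Finset.sum_eq_single k]
        · rw [if_pos rfl, one_mul]
        · intro i _ hi
          rw [if_neg hi, zero_mul]
        · intro h
          exact absurd (mem_univ k) h
      have h1 : ∑ i : Fin (n + 1), (((n : ℝ) + 1) * (if i = k then 1 else 0) - 1) *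
          ((n + 1) * (if i = l then 1 else 0) - 1) =
          ((n : ℝ) + 1) ^ 2 * (∑ i : Fin (n + 1), (if i = k then (1 : ℝ) else 0) *
            (if i = l then 1 else 0)) - (n + 1) * (∑ i : Fin (n + 1), if i = k then (1 : ℝ) else 0) -
            (n + 1) * (∑ i : Fin (n + 1), if i = l then (1 : ℝ) else 0) +
            ∑ i : Fin (n + 1), (1 : ℝ) := by
        rw [Finset.mul_sum, Finset.mul_sum, Finset.mul_sum, ← Finset.sum_sub_distrib,
          ← Finset.sum_sub_distrib, ← Finset.sum_add_distrib]
        exact Finset.sum_congr rfl fun i _ => by ring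
      rw [h1, hA, hA, hB, Finset.sum_const, Finset.card_univ, Fintype.card_fin, nsmul_eq_mul]
      push_cast
      ring
    obtain ⟨S, h1, h2⟩ := exists_code y (s := -1 / n) (by
        have : (0 : ℝ) < 1 / n := by positivity
        have h2 : (-1 / n : ℝ) = -(1 / n) := by ring
        rw [h2]
        linarith) (fun k => by
        rw [hy, hkl, if_pos rfl]
        field_simp
        ring) (fun k l h => by
        rw [hy, hkl, if_neg h]
        refine le_of_eq ?_
        field_simp
        ring)
    exact ⟨S, by rw [h1, Fintype.card_fin], h2⟩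
  · rintro k ⟨S, rfl, hS⟩
    exact card_le_succ hn S hS

/-! ### dimension `5` -/

/-- even sign vectors -/
abbrev P16 : Type := {c : Fin 5 → Fin 2 // ∑ i, (c i : ℕ) ∈ ({0, 2, 4} : Finset ℕ)}

def a16 (p : P16) (i : Fin 5) : ℤ := 1 - 2 * ((p.1 i : ℕ) : ℤ)

theorem a16_sq : ∀ p : P16, ∑ i, a16 p i * a16 p i = 5 := by decide +kernel

theorem a16_mul : ∀ p q : P16, p ≠ q → ∑ i, a16 p i * a16 q i ≤ 1 := by decide +kernel

/-- **the half cube**: 16 points in dimension `5` -/
theorem optimal_5 :
    IsGreatest {k | ∃ S : Finset (EuclideanSpace ℝ (Fin 5)), S.card = k ∧ IsCode (1 / 5) S}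
      16 := by
  constructor
  · obtain ⟨y, hy⟩ := exists_vectors_diag (n := 5) (ι := P16) (fun _ => 1 / 5)
      (fun _ => by norm_num) (fun p i => (a16 p i : ℝ))
    have h1 : ∀ k l, inner ℝ (y k) (y l) = 1 / 5 * ((∑ i, a16 k i * a16 l i : ℤ) : ℝ) := by
      intro k l
      rw [hy, ← Finset.mul_sum]
      push_cast
      rfl
    obtain ⟨S, h2, h3⟩ := exists_code y (s := 1 / 5) (by norm_num) (fun k => by
      rw [h1, a16_sq]
      norm_num) (fun k l h => by
      rw [h1]
      have h4 : ((∑ i, a16 k i * a16 l i : ℤ) : ℝ) ≤ 1 := by exact_mod_cast a16_mul k l h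
      linarith)
    have h4 : Fintype.card P16 = 16 := by decide +kernel
    exact ⟨S, by rw [h2, h4], h3⟩
  · rintro k ⟨S, rfl, hS⟩
    have h := delsarte_euclidean (n := 5) (by norm_num) 3
      (fun k => if k = 0 then 16 / 125 else if k = 1 then 96 / 175 else if k ≤ 3 then 1 else 0)
      (fun k => by split_ifs <;> norm_num) (fun t => (t + 3 / 5) ^ 2 * (t - 1 / 5))
      (fun t => by
        simp only [Finset.sum_range_succ, Finset.sum_range_zero, zon_two (n := 5) (by norm_num),
          zon_three (n := 5) (by norm_num)]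
        norm_num [zon]
        ring) (by norm_num) S hS.1
      (fun x hx y hy hxy => by
        have h1 := hS.2 x hx y hy hxy
        exact mul_nonpos_of_nonneg_of_nonpos (by positivity) (by linarith))
    norm_num at h
    have h1 : (S.card : ℝ) ≤ 16 := by linarith
    exact_mod_cast h1

/-! ### dimension `6` -/

/-- `16 + 10 + 1` -/
abbrev P27 : Type := P16 ⊕ (Fin 5 × Fin 2) ⊕ Unit

/-- twice the weights of the `27`-dimensional representation of `E₆` -/
def a27 : P27 → Fin 6 → ℤ
  | .inl p => Fin.snoc (a16 p) 1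
  | .inr (.inl q) => Fin.snoc (fun i => if i = q.1 then 2 - 4 * ((q.2 : ℕ) : ℤ) else 0) (-2)
  | .inr (.inr _) => Fin.snoc (fun _ => 0) 4

/-- the weights of the coordinates -/
def w27 (i : Fin 6) : ℤ := if i = Fin.last 5 then 1 else 3

theorem a27_sq : ∀ p : P27, ∑ i, w27 i * (a27 p i * a27 p i) = 16 := by decide +kernel

theorem a27_mul : ∀ p q : P27, p ≠ q → ∑ i, w27 i * (a27 p i * a27 q i) ≤ 4 := by decide +kernel

/-- **the configuration of Schläfli**: 27 points in dimension `6` -/
theorem optimal_6 :
    IsGreatest {k | ∃ S : Finset (EuclideanSpace ℝ (Fin 6)), S.card = k ∧ IsCode (1 / 4) S}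
      27 := by
  constructor
  · obtain ⟨y, hy⟩ := exists_vectors_diag (n := 6) (ι := P27) (fun i => 1 / 16 * (w27 i : ℝ))
      (fun i => by
        have : (0 : ℝ) ≤ (w27 i : ℝ) := by
          rw [w27]
          split_ifs <;> norm_num
        positivity) (fun p i => (a27 p i : ℝ))
    have h1 : ∀ k l, inner ℝ (y k) (y l) =
        1 / 16 * ((∑ i, w27 i * (a27 k i * a27 l i) : ℤ) : ℝ) := by
      intro k l
      rw [hy]
      push_cast
      rw [Finset.mul_sum]
      exact Finset.sum_congr rfl fun i _ => by ring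
    obtain ⟨S, h2, h3⟩ := exists_code y (s := 1 / 4) (by norm_num) (fun k => by
      rw [h1, a27_sq]
      norm_num) (fun k l h => by
      rw [h1]
      have h4 : ((∑ i, w27 i * (a27 k i * a27 l i) : ℤ) : ℝ) ≤ 4 := by
        exact_mod_cast a27_mul k l h
      linarith)
    have h4 : Fintype.card P27 = 27 := by decide +kernel
    exact ⟨S, by rw [h2, h4], h3⟩
  · rintro k ⟨S, rfl, hS⟩
    have h := delsarte_euclidean (n := 6) (by norm_num) 3
      (fun k => if k = 0 then 1 / 16 else if k = 1 then 3 / 8 else if k = 2 then 3 / 4 else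
        if k = 3 then 1 else 0)
      (fun k => by split_ifs <;> norm_num) (fun t => (t + 1 / 2) ^ 2 * (t - 1 / 4))
      (fun t => by
        simp only [Finset.sum_range_succ, Finset.sum_range_zero, zon_two (n := 6) (by norm_num),
          zon_three (n := 6) (by norm_num)]
        norm_num [zon]
        ring) (by norm_num) S hS.1
      (fun x hx y hy hxy => by
        have h1 := hS.2 x hx y hy hxy
        exact mul_nonpos_of_nonneg_of_nonpos (by positivity) (by linarith))
    norm_num at h
    have h1 : (S.card : ℝ) ≤ 27 := by linarith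
    exact_mod_cast h1

end Fermat.Agent.Cor.Leech
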