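import Fermat.Agent.Corollaries.Leech.EtaP

/-!
# Sixteen squares

`17 r₁₆(n) = 32 ∑_{d ∣ n} (-1)^(n + d) d⁷ + 512 (b(n) + 16 b(n / 2))` with
`∑ b(n) tⁿ = t ∏ (1 - tᵐ)⁸ (1 - t²ᵐ)⁸`.
-/

set_option autoImplicit false

noncomputable section

namespace Fermat.Agent.Cor.Leech

open Finset Fermat.Agent.Cor.Quat

/-- `σ_k(n)` -/
def Sg (k n : ℕ) : ℤ := ∑ d ∈ n.divisors, (d : ℤ) ^ k

theorem sum_even_Sg (k : ℕ) {m : ℕ} (hm : m ≠ 0) :
    ∑ f ∈ (2 * m).divisors with 2 ∣ f, (f : ℤ) ^ k = 2 ^ k * Sg k m := by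
  rw [Sg, Finset.mul_sum]
  symm
  refine Finset.sum_bij' (fun e _ => 2 * e) (fun f _ => f / 2) ?_ ?_ ?_ ?_ ?_
  · intro e he
    rw [Nat.mem_divisors] at he
    rw [mem_filter, Nat.mem_divisors]
    exact ⟨⟨Nat.mul_dvd_mul_left 2 he.1, by omega⟩, dvd_mul_right 2 e⟩
  · intro f hf
    rw [mem_filter, Nat.mem_divisors] at hf
    obtain ⟨⟨hf, -⟩, e, rfl⟩ := hf
    rw [Nat.mul_div_cancel_left e (by norm_num), Nat.mem_divisors]
    exact ⟨Nat.dvd_of_mul_dvd_mul_left (by norm_num) hf, hm⟩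
  · intro e _
    exact Nat.mul_div_cancel_left e (by norm_num)
  · intro f hf
    rw [mem_filter] at hf
    exact Nat.mul_div_cancel' hf.2
  · intro e _
    push_cast
    ring

/-- `σ_k(m / 2)`, and `0` if `m` is odd -/
def SgH (k m : ℕ) : ℤ := if 2 ∣ m then Sg k (m / 2) else 0

theorem sum_even_SgH (k : ℕ) {m : ℕ} (hm : m ≠ 0) :
    ∑ f ∈ m.divisors with 2 ∣ f, (f : ℤ) ^ k = 2 ^ k * SgH k m := by
  rw [SgH]
  split_ifs with h
  · obtain ⟨l, rfl⟩ := h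
    rw [Nat.mul_div_cancel_left l (by norm_num), sum_even_Sg k fun h => hm (by rw [h, mul_zero])]
  · rw [mul_zero]
    refine Finset.sum_eq_zero fun f hf => ?_
    rw [mem_filter, Nat.mem_divisors] at hf
    exact absurd (hf.2.trans hf.1.1) h

theorem sum_odd_Sg (k : ℕ) {m : ℕ} (hm : m ≠ 0) :
    ∑ d ∈ (2 * m).divisors with ¬ 2 ∣ d, (d : ℤ) ^ k =
      ∑ d ∈ m.divisors with ¬ 2 ∣ d, (d : ℤ) ^ k := by
  have h2m : 2 * m ≠ 0 := by omega
  refine Finset.sum_congr ?_ fun _ _ => rfl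
  ext d
  simp only [mem_filter, Nat.mem_divisors]
  constructor
  · rintro ⟨⟨h, -⟩, ho⟩
    refine ⟨⟨Nat.Coprime.dvd_of_dvd_mul_left ?_ h, hm⟩, ho⟩
    exact (((Nat.prime_two.coprime_iff_not_dvd).mpr ho)).symm
  · rintro ⟨⟨h, -⟩, ho⟩
    exact ⟨⟨h.mul_left 2, h2m⟩, ho⟩

/-- `∑_{d ∣ n} (-1)^(n + d) d^k = σ_k(n) - 2 σ_k(n / 2) + 2^(k + 1) σ_k(n / 4)` -/
theorem alt_sum (k : ℕ) {n : ℕ} (hn : n ≠ 0) :
    ∑ d ∈ n.divisors, (-1) ^ (n + d) * (d : ℤ) ^ k =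
      Sg k n - 2 * SgH k n + 2 ^ (k + 1) * (if 2 ∣ n then SgH k (n / 2) else 0) := by
  rcases Nat.even_or_odd n with he | ho
  · obtain ⟨m, rfl⟩ := even_iff_two_dvd.mp he
    have hm : m ≠ 0 := fun h => hn (by rw [h, mul_zero])
    have h1 := Finset.sum_filter_add_sum_filter_not (2 * m).divisors (fun d => 2 ∣ d)
      (fun d => (d : ℤ) ^ k)
    have h2 := Finset.sum_filter_add_sum_filter_not (2 * m).divisors (fun d => 2 ∣ d)
      (fun d => (-1) ^ (2 * m + d) * (d : ℤ) ^ k)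
    have h5 := Finset.sum_filter_add_sum_filter_not m.divisors (fun d => 2 ∣ d)
      (fun d => (d : ℤ) ^ k)
    have h3 : ∑ d ∈ (2 * m).divisors with 2 ∣ d, (-1) ^ (2 * m + d) * (d : ℤ) ^ k =
        ∑ d ∈ (2 * m).divisors with 2 ∣ d, (d : ℤ) ^ k := by
      refine Finset.sum_congr rfl fun d hd => ?_
      rw [mem_filter] at hd
      rw [((even_two_mul m).add (even_iff_two_dvd.mpr hd.2)).neg_one_pow, one_mul]
    have h4 : ∑ d ∈ (2 * m).divisors with ¬ 2 ∣ d, (-1) ^ (2 * m + d) * (d : ℤ) ^ k =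
        -∑ d ∈ (2 * m).divisors with ¬ 2 ∣ d, (d : ℤ) ^ k := by
      rw [← Finset.sum_neg_distrib]
      refine Finset.sum_congr rfl fun d hd => ?_
      rw [mem_filter] at hd
      have h5 : Odd d := Nat.not_even_iff_odd.mp fun h => hd.2 (even_iff_two_dvd.mp h)
      rw [((even_two_mul m).add_odd h5).neg_one_pow]
      ring
    have e1 : Sg k (2 * m) = ∑ d ∈ (2 * m).divisors, (d : ℤ) ^ k := rfl
    have e2 : Sg k m = ∑ d ∈ m.divisors, (d : ℤ) ^ k := rfl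
    have e3 : SgH k (2 * m) = Sg k m := by
      rw [SgH, if_pos (dvd_mul_right 2 m), Nat.mul_div_cancel_left m (by norm_num)]
    rw [if_pos (dvd_mul_right 2 m), Nat.mul_div_cancel_left m (by norm_num), e3, e1]
    rw [sum_even_Sg k hm, sum_odd_Sg k hm] at h1
    rw [h3, h4, sum_even_Sg k hm, sum_odd_Sg k hm] at h2
    rw [sum_even_SgH k hm] at h5
    rw [← h2, ← h1]
    have h6 : Sg k m = 2 ^ k * SgH k m + ∑ d ∈ m.divisors with ¬ 2 ∣ d, (d : ℤ) ^ k := by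
      rw [h5]
      rfl
    linear_combination 2 * h6
  · have hn2 : ¬ 2 ∣ n := fun h => Nat.not_even_iff_odd.mpr ho (even_iff_two_dvd.mpr h)
    rw [SgH, if_neg hn2, if_neg hn2, mul_zero, mul_zero, sub_zero, add_zero]
    refine Finset.sum_congr rfl fun d hd => ?_
    rw [(ho.add_odd (ho.of_dvd_nat (Nat.dvd_of_mem_divisors hd))).neg_one_pow, one_mul]

/-- `255 θ₃¹⁶ = E₈(t) - 2 E₈(t²) + 256 E₈(t⁴) + 480 (…)` -/
theorem nsq_four : 255 * gf nsq ^ 4 = E4z ^ 2 - 2 * sqX (E4z ^ 2) + 256 * sqX (sqX (E4z ^ 2)) +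
    480 * (16 * (PowerSeries.X * (ph ^ 8 * sqX ph ^ 8)) +
      256 * sqX (PowerSeries.X * (ph ^ 8 * sqX ph ^ 8))) := by
  have a1 := E4z_eq
  have a2 := two_mul_sqX_E4z
  have a4 := sixteen_sqX_sqX_E4z
  have b1 := eta_sixteen
  have b2 := congrArg sqX b1
  have h2 := landen_two
  have h3 := landen_three
  have hJ : gf nsq = negX (gf nsq) + gf osq := jacobi_identity
  rw [map_mul, map_mul, map_pow, map_mul, map_ofNat] at b2
  rw [map_pow, map_pow]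
  set e2 := sqX E4z
  set e4 := sqX e2
  set x := gf nsq
  set y := negX x
  set o := gf osq
  set F := PowerSeries.X * (ph ^ 8 * sqX ph ^ 8)
  have hy : y = x - o := by
    rw [hJ]
    ring
  have c2 : 256 * sqX F = o ^ 2 * (x * y) := by
    rw [← h2, h3]
    linear_combination -16 * b2
  refine mul_left_cancel₀ (ofNat_ne_zero' 4) ?_
  have c : 4 * (E4z ^ 2 - 2 * e2 ^ 2 + 256 * e4 ^ 2 + 480 * (16 * F + 256 * sqX F)) =
      4 * E4z ^ 2 - 2 * (2 * e2) ^ 2 + 4 * (16 * e4) ^ 2 +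
        1920 * (16 * F + 256 * sqX F) := by ring
  rw [c, a2, a4, ← b1, c2, a1, hy]
  ring

theorem coeff_E4_sq (n : ℕ) : PowerSeries.coeff n (E4z ^ 2) = (e8c n : ℤ) := by
  rw [← conv_e4c, sq, PowerSeries.coeff_mul]
  push_cast
  refine Finset.sum_congr rfl fun ij _ => ?_
  rw [E4z, PowerSeries.coeff_mk, PowerSeries.coeff_mk]

/-- the coefficients of `t ∏ (1 - tᵐ)⁸ (1 - t²ᵐ)⁸` -/
def b16 (n : ℕ) : ℤ := PowerSeries.coeff n (PowerSeries.X * (ph ^ 8 * sqX ph ^ 8))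

theorem coeff_nsq_four {n : ℕ} (hn : n ≠ 0) :
    17 * PowerSeries.coeff n (gf nsq ^ 4) =
      32 * ∑ d ∈ n.divisors, (-1) ^ (n + d) * (d : ℤ) ^ 7 +
        512 * (b16 n + 16 * (if 2 ∣ n then b16 (n / 2) else 0)) := by
  have h := congrArg (PowerSeries.coeff n) nsq_four
  simp only [map_add, map_sub] at h
  rw [coeff_ofNat_mul, coeff_ofNat_mul, coeff_ofNat_mul, coeff_ofNat_mul] at h
  rw [map_add (PowerSeries.coeff n), coeff_ofNat_mul, coeff_ofNat_mul, coeff_sqX, coeff_sqX,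
    coeff_sqX, coeff_sqX, coeff_E4_sq, coeff_E4_sq, coeff_E4_sq] at h
  rw [alt_sum 7 hn]
  have h1 : ∀ k, k ≠ 0 → (e8c k : ℤ) = 480 * Sg 7 k := by
    intro k hk
    rw [e8c, if_neg hk, Sg]
    push_cast
    rfl
  have h2 : (if 2 ∣ n then (e8c (n / 2) : ℤ) else 0) = 480 * SgH 7 n := by
    unfold SgH
    split_ifs with h2
    · exact h1 _ (by omega)
    · rw [mul_zero]
  have h3 : (if 2 ∣ n then (if 2 ∣ n / 2 then (e8c (n / 2 / 2) : ℤ) else 0) else 0) =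
      480 * (if 2 ∣ n then SgH 7 (n / 2) else 0) := by
    unfold SgH
    split_ifs with h2 h3
    · exact h1 _ (by omega)
    · rw [mul_zero]
    · rw [mul_zero]
  rw [h1 n hn, h2, h3] at h
  have h4 : PowerSeries.coeff n (PowerSeries.X * (ph ^ 8 * sqX ph ^ 8)) = b16 n := rfl
  have h5 : PowerSeries.coeff (n / 2) (PowerSeries.X * (ph ^ 8 * sqX ph ^ 8)) = b16 (n / 2) := rfl
  rw [h4, h5] at h
  refine mul_left_cancel₀ (by norm_num : (15 : ℤ) ≠ 0) ?_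
  linear_combination h

/-- **the number of representations as a sum of sixteen squares** -/
theorem card_sixteen_squares {n : ℕ} (hn : n ≠ 0) :
    17 * ({x : Fin 16 → ℤ | ∑ i, x i ^ 2 = n}.ncard : ℤ) =
      32 * ∑ d ∈ n.divisors, (-1) ^ (n + d) * (d : ℤ) ^ 7 +
        512 * (b16 n + 16 * (if 2 ∣ n then b16 (n / 2) else 0)) := by
  have h1 : {z : Fin 4 × Fin 4 → ℤ | ∑ i, z i ^ 2 = (n : ℤ)}.ncard =
      {x : Fin 16 → ℤ | ∑ i, x i ^ 2 = n}.ncard := by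
    rw [← Nat.card_coe_set_eq, ← Nat.card_coe_set_eq]
    refine Nat.card_congr
      ((Equiv.arrowCongr (finProdFinEquiv (m := 4) (n := 4)) (Equiv.refl ℤ)).subtypeEquiv
        fun z => ?_)
    change ∑ i, z i ^ 2 = (n : ℤ) ↔ ∑ i, z (finProdFinEquiv.symm i) ^ 2 = (n : ℤ)
    rw [Equiv.sum_comp (finProdFinEquiv (m := 4) (n := 4)).symm fun i => z i ^ 2]
  rw [← h1, card_block, ← coeff_gf, gf_pi finite_nsq 4]
  exact coeff_nsq_four hn

end Fermat.Agent.Cor.Leech
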