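import Fermat.Agent.Corollaries.Leech.Golay

/-!
# The Steiner system `S(5, 8, 24)` and the perfect Golay code

* `steiner`: every set of five coordinates is contained in the support of exactly one word of
  weight `8` of the extended Golay code;
* `perfect`: for the Golay code of length `23` every vector has distance at most `3` from exactly one
  word.
-/

set_option autoImplicit false

namespace Fermat.Agent.Cor.Leech

open Finset

theorem wt_add (c d : Fin 24 → ZMod 2) :
    wt (c + d) + 2 * #{i | c i ≠ 0 ∧ d i ≠ 0} = wt c + wt d := by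
  rw [wt, wt, wt, Finset.card_filter, Finset.card_filter, Finset.card_filter,
    Finset.card_filter, Finset.mul_sum, ← Finset.sum_add_distrib, ← Finset.sum_add_distrib]
  refine Finset.sum_congr rfl fun i _ => ?_
  rw [Pi.add_apply]
  generalize c i = a
  generalize d i = b
  revert a b
  decide

/-- a word of weight less than `8` is zero -/
theorem eq_zero_of_wt_lt {c : Fin 24 → ZMod 2} (hc : c ∈ golay) (h : wt c < 8) : c = 0 := by
  have h1 := wt_mem hc
  have h2 : wt c = 0 := by
    simp only [Finset.mem_insert, Finset.mem_singleton] at h1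
    omega
  rw [wt, Finset.card_eq_zero, Finset.filter_eq_empty_iff] at h2
  funext i
  exact not_not.mp (h2 (Finset.mem_univ i))

theorem eq_of_wt_add_lt {c d : Fin 24 → ZMod 2} (hc : c ∈ golay) (hd : d ∈ golay)
    (h : wt (c + d) < 8) : c = d := by
  have h1 := eq_zero_of_wt_lt (golay.add_mem hc hd) h
  have h2 : d + d = 0 := CharTwo.add_self_eq_zero d
  calc c = c + (d + d) := by rw [h2, add_zero]
    _ = (c + d) + d := by rw [add_assoc]
    _ = d := by rw [h1, zero_add]

open Classical in
/-- the number of words of weight `8` -/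
theorem card_octads : #{c : Fin 24 → ZMod 2 | c ∈ golay ∧ wt c = 8} = 759 := by
  have h := sum_golay (fun n => if n = 8 then (1 : ℕ) else 0)
  norm_num at h
  rw [← h]
  have h2 : ∑ᶠ c : golay, (if wt c.1 = 8 then 1 else 0) =
      ∑ᶠ c ∈ (golay : Set (Fin 24 → ZMod 2)), (if wt c = 8 then 1 else 0) :=
    finsum_set_coe_eq_finsum_mem (s := (golay : Set (Fin 24 → ZMod 2)))
      (f := fun c => if wt c = 8 then 1 else 0)
  rw [h2]
  have h3 : (golay : Set (Fin 24 → ZMod 2)) =
      (({c : Fin 24 → ZMod 2 | c ∈ golay} : Finset _) : Set _) := by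
    ext x
    simp
  rw [h3, finsum_mem_coe_finset, ← Finset.card_filter, Finset.filter_filter]

/-- **the Steiner system `S(5, 8, 24)`** -/
theorem steiner (S : Finset (Fin 24)) (hS : S.card = 5) :
    ∃! c : Fin 24 → ZMod 2, c ∈ golay ∧ wt c = 8 ∧ ∀ i ∈ S, c i ≠ 0 := by
  classical
  have huniq : ∀ T : Finset (Fin 24), T.card = 5 → ∀ c d : Fin 24 → ZMod 2,
      c ∈ golay → wt c = 8 → (∀ i ∈ T, c i ≠ 0) → d ∈ golay → wt d = 8 →
      (∀ i ∈ T, d i ≠ 0) → c = d := by
    intro T hT c d hc hc8 hcT hd hd8 hdT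
    apply eq_of_wt_add_lt hc hd
    have h1 := wt_add c d
    have h2 : 5 ≤ #{i | c i ≠ 0 ∧ d i ≠ 0} := by
      rw [← hT]
      exact Finset.card_le_card fun i hi => Finset.mem_filter.mpr
        ⟨Finset.mem_univ i, hcT i hi, hdT i hi⟩
    omega
  set O : Finset (Fin 24 → ZMod 2) := {c | c ∈ golay ∧ wt c = 8} with hO
  set P : Finset (Σ _ : Fin 24 → ZMod 2, Finset (Fin 24)) :=
    O.sigma fun c => ({i | c i ≠ 0} : Finset (Fin 24)).powersetCard 5 with hP
  have hPc : P.card = 759 * 56 := by
    rw [hP, Finset.card_sigma, Finset.sum_congr rfl (g := fun _ => 56), Finset.sum_const,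
      hO, card_octads]
    · rfl
    · intro c hc
      rw [Finset.card_powersetCard]
      have : wt c = 8 := (Finset.mem_filter.mp hc).2.2
      rw [wt] at this
      rw [this]
      rfl
  have hinj : Set.InjOn (fun p : (Σ _ : Fin 24 → ZMod 2, Finset (Fin 24)) => p.2) P := by
    rintro ⟨c, T⟩ hc ⟨d, T'⟩ hd (rfl : T = T')
    rw [Finset.mem_coe, hP, Finset.mem_sigma, Finset.mem_powersetCard] at hc hd
    obtain ⟨hc1, hc2, hc3⟩ := hc
    obtain ⟨hd1, hd2, -⟩ := hd
    rw [hO, Finset.mem_filter] at hc1 hd1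
    have : c = d := huniq T hc3 c d hc1.2.1 hc1.2.2
      (fun i hi => (Finset.mem_filter.mp (hc2 hi)).2) hd1.2.1 hd1.2.2
      (fun i hi => (Finset.mem_filter.mp (hd2 hi)).2)
    rw [this]
  have himg : P.image (fun p => p.2) = (univ : Finset (Fin 24)).powersetCard 5 := by
    apply Finset.eq_of_subset_of_card_le
    · intro T hT
      obtain ⟨p, hp, rfl⟩ := Finset.mem_image.mp hT
      rw [hP, Finset.mem_sigma, Finset.mem_powersetCard] at hp
      exact Finset.mem_powersetCard.mpr ⟨Finset.subset_univ _, hp.2.2⟩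
    · rw [Finset.card_image_of_injOn hinj, hPc, Finset.card_powersetCard, Finset.card_univ,
        Fintype.card_fin]
      decide
  have hmem : S ∈ P.image (fun p => p.2) := by
    rw [himg]
    exact Finset.mem_powersetCard.mpr ⟨Finset.subset_univ _, hS⟩
  obtain ⟨⟨c, T⟩, hp, rfl⟩ := Finset.mem_image.mp hmem
  rw [hP, Finset.mem_sigma, Finset.mem_powersetCard, hO, Finset.mem_filter] at hp
  refine ⟨c, ⟨hp.1.2.1, hp.1.2.2, fun i hi => (Finset.mem_filter.mp (hp.2.1 hi)).2⟩, ?_⟩
  rintro d ⟨hd1, hd2, hd3⟩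
  exact huniq T hS d c hd1 hd2 hd3 hp.1.2.1 hp.1.2.2
    fun i hi => (Finset.mem_filter.mp (hp.2.1 hi)).2

/-- two words which differ in at most six of the first 23 coordinates are equal -/
theorem eq_of_dist_le {c d : Fin 24 → ZMod 2} (hc : c ∈ golay) (hd : d ∈ golay)
    (h : #{i : Fin 23 | c i.castSucc ≠ d i.castSucc} ≤ 6) : c = d := by
  apply eq_of_wt_add_lt hc hd
  have h1 : wt (c + d) ≤ #{i : Fin 23 | c i.castSucc ≠ d i.castSucc} + 1 := by
    rw [wt, Finset.card_filter, Finset.card_filter, Fin.sum_univ_castSucc]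
    refine add_le_add (Finset.sum_le_sum fun i _ => ?_) (by split_ifs <;> simp)
    rw [Pi.add_apply]
    generalize c i.castSucc = a
    generalize d i.castSucc = b
    revert a b
    decide
  omega

/-- the number of error patterns: `1 + 23 + 253 + 1771 = 2 ^ 11` -/
theorem card_ball : #{S : Finset (Fin 23) | S.card ≤ 3} = 2048 := by
  rw [Finset.card_eq_sum_card_fiberwise (f := Finset.card) (t := range 4) (fun S hS => by
    have := (Finset.mem_filter.mp hS).2
    simp only [Finset.coe_range, Set.mem_Iio]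
    omega)]
  have h : ∀ k ∈ range 4, #{S ∈ ({S : Finset (Fin 23) | S.card ≤ 3} : Finset _) | S.card = k} =
      Nat.choose 23 k := by
    intro k hk
    rw [Finset.mem_range] at hk
    have h1 : ({S ∈ ({S : Finset (Fin 23) | S.card ≤ 3} : Finset _) | S.card = k} :
        Finset (Finset (Fin 23))) = (univ : Finset (Fin 23)).powersetCard k := by
      ext S
      simp only [Finset.mem_filter, Finset.mem_univ, true_and, Finset.mem_powersetCard,
        Finset.subset_univ]
      omega
    rw [h1, Finset.card_powersetCard, Finset.card_univ, Fintype.card_fin]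
  rw [Finset.sum_congr rfl h]
  decide

/-- **the binary Golay code of length 23 is perfect**: every vector has distance at most `3` from
exactly one code word -/
theorem perfect (v : Fin 23 → ZMod 2) : ∃! c : Fin 23 → ZMod 2,
    c ∈ golay.map (LinearMap.funLeft (ZMod 2) (ZMod 2) (Fin.castSucc : Fin 23 → Fin 24)) ∧
      #{i | v i ≠ c i} ≤ 3 := by
  classical
  let Φ : golay × {S : Finset (Fin 23) // S.card ≤ 3} → (Fin 23 → ZMod 2) :=
    fun p i => p.1.1 i.castSucc + if i ∈ p.2.1 then 1 else 0
  have hΦ : ∀ p i, (Φ p i ≠ p.1.1 i.castSucc) ↔ i ∈ p.2.1 := by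
    intro p i
    simp only [Φ]
    by_cases h : i ∈ p.2.1
    · rw [if_pos h]
      refine iff_of_true ?_ h
      generalize p.1.1 i.castSucc = a
      revert a
      decide
    · rw [if_neg h, add_zero]
      exact iff_of_false (fun h' => h' rfl) h
  have hinj : Function.Injective Φ := by
    intro p q hpq
    have h1 : p.1.1 = q.1.1 := by
      apply eq_of_dist_le p.1.2 q.1.2
      have h2 : #{i : Fin 23 | p.1.1 i.castSucc ≠ q.1.1 i.castSucc} ≤ #(p.2.1 ∪ q.2.1) := by
        refine Finset.card_le_card fun i hi => ?_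
        rw [Finset.mem_filter] at hi
        rw [Finset.mem_union, ← hΦ p i, ← hΦ q i, hpq]
        by_contra h3
        push Not at h3
        exact hi.2 (h3.1.symm.trans h3.2)
      have h4 := Finset.card_union_le p.2.1 q.2.1
      have h5 := p.2.2
      have h6 := q.2.2
      omega
    refine Prod.ext (Subtype.ext h1) (Subtype.ext ?_)
    ext i
    rw [← hΦ p i, ← hΦ q i, hpq, h1]
  have hcard : Nat.card (Fin 23 → ZMod 2) ≤
      Nat.card (golay × {S : Finset (Fin 23) // S.card ≤ 3}) := by
    have h1 : Nat.card {S : Finset (Fin 23) // S.card ≤ 3} = 2048 := by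
      rw [Nat.card_eq_fintype_card, Fintype.card_subtype, card_ball]
    rw [Nat.card_prod, card_golay, h1, Nat.card_fun, Nat.card_zmod, Nat.card_eq_fintype_card,
      Fintype.card_fin]
    norm_num
  obtain ⟨p, hp⟩ := (hinj.bijective_of_nat_card_le hcard).surjective v
  refine ⟨fun i => p.1.1 i.castSucc, ⟨⟨p.1.1, p.1.2, rfl⟩, ?_⟩, ?_⟩
  · refine (Finset.card_le_card fun i hi => ?_).trans p.2.2
    rw [Finset.mem_filter, ← hp] at hi
    exact (hΦ p i).mp hi.2
  · rintro c ⟨⟨d, hd, rfl⟩, hc⟩
    have h1 : d = p.1.1 := by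
      apply eq_of_dist_le hd p.1.2
      have h2 : #{i : Fin 23 | d i.castSucc ≠ p.1.1 i.castSucc} ≤
          #(({i | v i ≠ d i.castSucc} : Finset (Fin 23)) ∪ p.2.1) := by
        refine Finset.card_le_card fun i hi => ?_
        rw [Finset.mem_filter] at hi
        rw [Finset.mem_union, ← hΦ p i, hp, Finset.mem_filter]
        by_contra h3
        push Not at h3
        exact hi.2 ((h3.1 (Finset.mem_univ i)).symm.trans h3.2)
      have h4 := Finset.card_union_le ({i | v i ≠ d i.castSucc} : Finset (Fin 23)) p.2.1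
      have h5 := p.2.2
      have h6 : #({i | v i ≠ d i.castSucc} : Finset (Fin 23)) ≤ 3 := hc
      omega
    rw [h1]
    rfl

end Fermat.Agent.Cor.Leech
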