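import Fermat.Agent.Corollaries.Leech.Twelve
import Fermat.Agent.Corollaries.Leech.Sixteen

/-!
# Twelve squares

`r₁₂(n) = 8 ∑_{d ∣ n} d⁵ - 512 ∑_{4 d ∣ n} d⁵ + 16 a(n)` with `∑ a(n) tⁿ = t ∏ (1 - t²ᵐ)¹²`; `a(n) = 0` for even
`n`.
-/

set_option autoImplicit false

noncomputable section

namespace Fermat.Agent.Cor.Leech

open Finset Fermat.Agent.Cor.Quat

/-- the coefficients of `t ∏ (1 - t²ᵐ)¹²` -/
def a12 (n : ℕ) : ℤ := PowerSeries.coeff n (PowerSeries.X * sqX ph ^ 12)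

theorem a12_even {n : ℕ} (hn : Even n) : a12 n = 0 := by
  rw [a12, ← map_pow sqX]
  rcases n with _ | k
  · rw [PowerSeries.coeff_zero_X_mul]
  · rw [PowerSeries.coeff_succ_X_mul, coeff_sqX, if_neg]
    rw [Nat.even_iff] at hn
    omega

/-- **the number of representations as a sum of twelve squares** -/
theorem card_twelve_squares' {n : ℕ} (hn : n ≠ 0) :
    ({v : Fin 12 → ℤ | ∑ i, v i ^ 2 = n}.ncard : ℤ) = 8 * ∑ d ∈ n.divisors, (d : ℤ) ^ 5 -
      512 * (if 4 ∣ n then ∑ d ∈ (n / 4).divisors, (d : ℤ) ^ 5 else 0) + 16 * a12 n := by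
  rw [card_twelve_squares hn, eta_twelve, coeff_ofNat_mul, a12]

/-- twelve squares, `n` even (Liouville) -/
theorem card_twelve_squares_even {n : ℕ} (hn : n ≠ 0) (he : Even n) :
    ({v : Fin 12 → ℤ | ∑ i, v i ^ 2 = n}.ncard : ℤ) = 8 * ∑ d ∈ n.divisors, (d : ℤ) ^ 5 -
      512 * (if 4 ∣ n then ∑ d ∈ (n / 4).divisors, (d : ℤ) ^ 5 else 0) := by
  rw [card_twelve_squares' hn, a12_even he, mul_zero, add_zero]

end Fermat.Agent.Cor.Leech
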