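import Fermat.Agent.Corollaries.Leech.Main

/-!
# Three even unimodular lattices in dimension `24`

The Leech lattice, `D₂₄⁺` and `E₈ ⊕ E₈ ⊕ E₈` are pairwise not isometric.
-/

set_option autoImplicit false

noncomputable section

namespace Fermat.Agent.Cor.Leech

open Finset Fermat.Agent.Cor.Quat

/-- the norm on `E₈ ⊕ E₈ ⊕ E₈` -/
def nrm3 (x : (Fin 8 → ℚ) × (Fin 8 → ℚ) × (Fin 8 → ℚ)) : ℚ :=
  ∑ i, x.1 i ^ 2 + (∑ i, x.2.1 i ^ 2 + ∑ i, x.2.2 i ^ 2)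

/-- the norm on `D₂₄⁺` -/
def nrm24 (x : Fin 24 → ℚ) : ℚ := ∑ i, x i ^ 2

/-- `E₈ ⊕ E₈ ⊕ E₈` has `720` vectors of norm `2` -/
theorem card_roots_three : {x : (Fin 8 → ℚ) × (Fin 8 → ℚ) × (Fin 8 → ℚ) |
    x ∈ E8.prod (E8.prod E8) ∧ nrm3 x = 2}.ncard = 720 := by
  have h := card_E8_three (n := 1) one_ne_zero
  rw [Tau.tau_one, Nat.divisors_one, sum_singleton] at h
  have h1 : {x : (Fin 8 → ℚ) × (Fin 8 → ℚ) × (Fin 8 → ℚ) | x ∈ E8.prod (E8.prod E8) ∧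
      ∑ i, x.1 i ^ 2 + (∑ i, x.2.1 i ^ 2 + ∑ i, x.2.2 i ^ 2) = 2 * ((1 : ℕ) : ℚ)} =
      {x | x ∈ E8.prod (E8.prod E8) ∧ nrm3 x = 2} := by
    rw [Nat.cast_one, mul_one]
    rfl
  rw [h1] at h
  norm_num at h
  omega

/-- `D₂₄⁺` has `1104` vectors of norm `2` -/
theorem card_roots_D24 : {x : Fin 24 → ℚ | x ∈ Dplus (Fin 24) ∧ nrm24 x = 2}.ncard = 1104 := by
  have h := card_D24' (n := 1) one_ne_zero
  rw [Tau.tau_one, Nat.divisors_one, sum_singleton] at h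
  have h1 : {x : Fin 24 → ℚ | x ∈ Dplus (Fin 24) ∧ ∑ i, x i ^ 2 = 2 * ((1 : ℕ) : ℚ)} =
      {x | x ∈ Dplus (Fin 24) ∧ nrm24 x = 2} := by
    rw [Nat.cast_one, mul_one]
    rfl
  rw [h1] at h
  norm_num at h
  omega

/-- **the Leech lattice (scaled by `√8`), `D₂₄⁺` and `E₈ ⊕ E₈ ⊕ E₈` are pairwise not isometric** -/
theorem not_isometric :
    (¬ ∃ φ : leech ≃+ Dplus (Fin 24), ∀ x : leech,
      8 * nrm24 (φ x) = ((∑ i, (x : Fin 24 → ℤ) i ^ 2 : ℤ) : ℚ)) ∧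
    (¬ ∃ φ : leech ≃+ E8.prod (E8.prod E8), ∀ x : leech,
      8 * nrm3 (φ x) = ((∑ i, (x : Fin 24 → ℤ) i ^ 2 : ℤ) : ℚ)) ∧
    ¬ ∃ φ : E8.prod (E8.prod E8) ≃+ Dplus (Fin 24), ∀ x : E8.prod (E8.prod E8),
      nrm24 (φ x) = nrm3 x := by
  refine ⟨?_, ?_, ?_⟩
  · rintro ⟨φ, h⟩
    obtain ⟨v, hv, hv2⟩ := Set.nonempty_of_ncard_ne_zero
      (s := {x : Fin 24 → ℚ | x ∈ Dplus (Fin 24) ∧ nrm24 x = 2})
      (by rw [card_roots_D24]; norm_num)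
    have h1 := h (φ.symm ⟨v, hv⟩)
    rw [AddEquiv.apply_symm_apply] at h1
    change 8 * nrm24 v = _ at h1
    rw [hv2] at h1
    refine leech_no_roots ⟨φ.symm ⟨v, hv⟩, (φ.symm ⟨v, hv⟩).2, ?_⟩
    have h2 : (16 : ℚ) = ((∑ i, (φ.symm ⟨v, hv⟩ : Fin 24 → ℤ) i ^ 2 : ℤ) : ℚ) := by
      rw [← h1]
      norm_num
    exact_mod_cast h2.symm
  · rintro ⟨φ, h⟩
    obtain ⟨v, hv, hv2⟩ := Set.nonempty_of_ncard_ne_zero
      (s := {x : (Fin 8 → ℚ) × (Fin 8 → ℚ) × (Fin 8 → ℚ) |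
        x ∈ E8.prod (E8.prod E8) ∧ nrm3 x = 2}) (by rw [card_roots_three]; norm_num)
    have h1 := h (φ.symm ⟨v, hv⟩)
    rw [AddEquiv.apply_symm_apply] at h1
    change 8 * nrm3 v = _ at h1
    rw [hv2] at h1
    refine leech_no_roots ⟨φ.symm ⟨v, hv⟩, (φ.symm ⟨v, hv⟩).2, ?_⟩
    have h2 : (16 : ℚ) = ((∑ i, (φ.symm ⟨v, hv⟩ : Fin 24 → ℤ) i ^ 2 : ℤ) : ℚ) := by
      rw [← h1]
      norm_num
    exact_mod_cast h2.symm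
  · rintro ⟨φ, h⟩
    have h1 : {x : (Fin 8 → ℚ) × (Fin 8 → ℚ) × (Fin 8 → ℚ) |
        x ∈ E8.prod (E8.prod E8) ∧ nrm3 x = 2}.ncard =
        {x : Fin 24 → ℚ | x ∈ Dplus (Fin 24) ∧ nrm24 x = 2}.ncard := by
      refine Set.ncard_congr (fun x hx => (φ ⟨x, hx.1⟩ : Fin 24 → ℚ)) (fun x hx => ?_)
        (fun x y hx hy hxy => ?_) (fun y hy => ?_)
      · exact ⟨(φ ⟨x, hx.1⟩).2, (h ⟨x, hx.1⟩).trans hx.2⟩
      · have h2 := φ.injective (Subtype.ext hxy)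
        exact congrArg Subtype.val h2
      · refine ⟨(φ.symm ⟨y, hy.1⟩ : _), ⟨(φ.symm ⟨y, hy.1⟩).2, ?_⟩, ?_⟩
        · have h2 := h (φ.symm ⟨y, hy.1⟩)
          rw [AddEquiv.apply_symm_apply] at h2
          exact h2.symm.trans hy.2
        · have h2 : φ (φ.symm ⟨y, hy.1⟩) = ⟨y, hy.1⟩ := AddEquiv.apply_symm_apply _ _
          exact congrArg Subtype.val h2
    rw [card_roots_three, card_roots_D24] at h1
    norm_num at h1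

end Fermat.Agent.Cor.Leech
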