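import Fermat.Agent.Corollaries.Leech.TwentyFour

/-!
# Twelve squares

`E₆(t) = (θ₃⁴ + θ₂⁴)(θ₃⁸ - 34 θ₃⁴ θ₂⁴ + θ₂⁸)`, and
`r₁₂(n) = 8 σ₅(n) - 512 σ₅(n / 4) + [tⁿ] θ₂⁴ θ₃⁴ θ₄⁴`.
-/

set_option autoImplicit false

noncomputable section

namespace Fermat.Agent.Cor.Leech

open Finset Fermat.Agent.Cor.Quat

/-- `E₆` -/
def E6z : PowerSeries ℤ :=
  PowerSeries.mk fun n => if n = 0 then 1 else -504 * ∑ d ∈ n.divisors, (d : ℤ) ^ 5

open Tau in
theorem map_E6z : PowerSeries.map (Int.castRingHom ℂ) E6z =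
    UpperHalfPlane.qExpansion 1 ModularForm.E₆ := by
  ext n
  rw [PowerSeries.coeff_map, E6z, PowerSeries.coeff_mk, R_eq, map_sub, Tau.coeff_ofNat_mul,
    coeff_sig, PowerSeries.coeff_one, ArithmeticFunction.sigma_apply]
  split_ifs with h
  · subst h
    simp
  · push_cast
    simp

/-- `E₄³ - E₆² = 1728 Δ` -/
theorem E4z_cube_sub : E4z ^ 3 - E6z ^ 2 = 1728 * Dz := by
  have h := Tau.discriminant_eq
  have hinj : Function.Injective (PowerSeries.map (Int.castRingHom ℂ)) := by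
    intro f g hfg
    ext n
    have h1 := congrArg (PowerSeries.coeff n) hfg
    rw [PowerSeries.coeff_map, PowerSeries.coeff_map] at h1
    exact Int.cast_injective h1
  have hD : PowerSeries.map (Int.castRingHom ℂ) Dz = Tau.tauSer := by
    ext n
    rw [PowerSeries.coeff_map, Dz, PowerSeries.coeff_mk, Tau.coeff_tauSer]
    rfl
  apply hinj
  rw [map_sub, map_pow, map_pow, map_mul, map_ofNat, map_E4z, map_E6z, hD, h]

theorem constantCoeff_nsq : PowerSeries.constantCoeff (gf nsq) = 1 := by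
  rw [← PowerSeries.coeff_zero_eq_constantCoeff_apply, coeff_nsq]
  simp [rr]

theorem constantCoeff_osq : PowerSeries.constantCoeff (gf osq) = 0 := by
  rw [← PowerSeries.coeff_zero_eq_constantCoeff_apply, coeff_osq]
  simp [oddσ]

theorem constantCoeff_E6z : PowerSeries.constantCoeff E6z = 1 := by
  rw [← PowerSeries.coeff_zero_eq_constantCoeff_apply, E6z, PowerSeries.coeff_mk, if_pos rfl]

/-- **`E₆ = (θ₃⁴ + θ₂⁴)(θ₃⁸ - 34 θ₃⁴ θ₂⁴ + θ₂⁸)`** -/
theorem E6z_eq : E6z = (gf nsq + gf osq) *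
    (gf nsq ^ 2 - 34 * (gf nsq * gf osq) + gf osq ^ 2) := by
  have h1 := E4z_cube_sub
  have h2 := E4z_eq
  have h3 := Dz_eq
  have hJ : gf nsq = negX (gf nsq) + gf osq := jacobi_identity
  have hc1 := constantCoeff_nsq
  have hc2 := constantCoeff_osq
  have hc3 := constantCoeff_E6z
  set x := gf nsq
  set y := negX x
  set o := gf osq
  have hy : y = x - o := by
    rw [hJ]
    ring
  have hsq : E6z ^ 2 = ((x + o) * (x ^ 2 - 34 * (x * o) + o ^ 2)) ^ 2 := by
    have h4 : E6z ^ 2 = E4z ^ 3 - 108 * (16 * Dz) := by linear_combination -h1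
    rw [h4, h2, h3, hy]
    ring
  rcases sq_eq_sq_iff_eq_or_eq_neg.mp hsq with h5 | h5
  · exact h5
  · exfalso
    have h6 := congrArg (PowerSeries.constantCoeff (R := ℤ)) h5
    simp only [map_neg, map_mul, map_add, map_sub, map_pow, hc1, hc2, hc3, map_ofNat] at h6
    norm_num at h6

/-- `2 E₆(t²) = (θ₃⁴ + θ₂⁴)(θ₃⁴ + θ₄⁴)(θ₄⁴ - θ₂⁴)` -/
theorem two_mul_sqX_E6z : 2 * sqX E6z =
    (gf nsq + gf osq) * (gf nsq + negX (gf nsq)) * (negX (gf nsq) - gf osq) := by
  have h1 := landen_one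
  have h3 := landen_three
  have h4 := congrArg sqX E6z_eq
  have hJ : gf nsq = negX (gf nsq) + gf osq := jacobi_identity
  have hS : sqX (gf nsq) = sqX (negX (gf nsq)) + sqX (gf osq) := by
    rw [← map_add, ← hJ]
  simp only [map_add, map_sub, map_mul, map_pow, map_ofNat] at h4
  set x := gf nsq
  set y := negX x
  set o := gf osq
  set A := sqX x
  set v := sqX y
  set B := sqX o
  have hy : y = x - o := by
    rw [hJ]
    ring
  have hs : 4 * A + 4 * B = 2 * (x + y) := by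
    linear_combination 2 * h1 - 4 * hS
  refine mul_left_cancel₀ (ofNat_ne_zero' 32) ?_
  have e1 : 32 * (2 * ((A + B) * (A ^ 2 - 34 * (A * B) + B ^ 2))) =
      (4 * A + 4 * B) * ((4 * A + 4 * B) ^ 2 - 36 * (16 * (A * B))) := by ring
  rw [h4, e1, hs, ← h3, hy]
  ring

/-- `64 E₆(t⁴) = (θ₃⁴ + θ₄⁴)(32 θ₃⁴ θ₄⁴ - θ₂⁸)` -/
theorem sqX_sqX_E6z : 64 * sqX (sqX E6z) =
    (gf nsq + negX (gf nsq)) * (32 * (gf nsq * negX (gf nsq)) - gf osq ^ 2) := by
  have h1 := landen_one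
  have h3 := landen_three
  have h4 := congrArg sqX two_mul_sqX_E6z
  have hJ : gf nsq = negX (gf nsq) + gf osq := jacobi_identity
  have hS : sqX (gf nsq) = sqX (negX (gf nsq)) + sqX (gf osq) := by
    rw [← map_add, ← hJ]
  simp only [map_add, map_sub, map_mul, map_ofNat] at h4
  set e := sqX (sqX E6z)
  set x := gf nsq
  set y := negX x
  set o := gf osq
  set A := sqX x
  set v := sqX y
  set B := sqX o
  have hy : y = x - o := by
    rw [hJ]
    ring
  have hv : v = A - B := by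
    rw [hS]
    ring
  have hs : 4 * A + 4 * B = 2 * (x + y) := by
    linear_combination 2 * h1 - 4 * hS
  refine mul_left_cancel₀ (ofNat_ne_zero' 2) ?_
  have e1 : 2 * (64 * e) = 64 * (2 * e) := by ring
  have e2 : 64 * ((A + B) * (A + (A - B)) * (A - B - B)) =
      (4 * A + 4 * B) * (2 * (4 * A + 4 * B) ^ 2 - 9 * (16 * (A * B))) := by ring
  rw [e1, h4, hv, e2, hs, ← h3, hy]
  ring

/-- `63 θ₃¹² = 64 E₆(t⁴) - E₆(t) + 63 θ₂⁴ θ₃⁴ θ₄⁴` -/
theorem nsq_three : 63 * gf nsq ^ 3 = 64 * sqX (sqX E6z) - E6z +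
    63 * (gf nsq * negX (gf nsq) * gf osq) := by
  have hJ : gf nsq = negX (gf nsq) + gf osq := jacobi_identity
  rw [sqX_sqX_E6z, E6z_eq]
  set x := gf nsq
  set y := negX x
  set o := gf osq
  have hy : y = x - o := by
    rw [hJ]
    ring
  rw [hy]
  ring

/-- **the number of representations as a sum of twelve squares** -/
theorem card_twelve_squares {n : ℕ} (hn : n ≠ 0) :
    ({v : Fin 12 → ℤ | ∑ i, v i ^ 2 = n}.ncard : ℤ) =
      8 * ∑ d ∈ n.divisors, (d : ℤ) ^ 5 -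
        512 * (if 4 ∣ n then ∑ d ∈ (n / 4).divisors, (d : ℤ) ^ 5 else 0) +
      PowerSeries.coeff n (gf nsq * negX (gf nsq) * gf osq) := by
  have h1 : {z : Fin 3 × Fin 4 → ℤ | ∑ i, z i ^ 2 = (n : ℤ)}.ncard =
      {x : Fin 12 → ℤ | ∑ i, x i ^ 2 = n}.ncard := by
    rw [← Nat.card_coe_set_eq, ← Nat.card_coe_set_eq]
    refine Nat.card_congr
      ((Equiv.arrowCongr (finProdFinEquiv (m := 3) (n := 4)) (Equiv.refl ℤ)).subtypeEquiv
        fun z => ?_)
    change ∑ i, z i ^ 2 = (n : ℤ) ↔ ∑ i, z (finProdFinEquiv.symm i) ^ 2 = (n : ℤ)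
    rw [Equiv.sum_comp (finProdFinEquiv (m := 3) (n := 4)).symm fun i => z i ^ 2]
  rw [← h1, card_block, ← coeff_gf, gf_pi finite_nsq 3]
  have h2 := congrArg (PowerSeries.coeff n) nsq_three
  rw [map_add (PowerSeries.coeff n), map_sub (PowerSeries.coeff n), coeff_ofNat_mul,
    coeff_ofNat_mul, coeff_ofNat_mul] at h2
  have h3 : PowerSeries.coeff n E6z = -504 * ∑ d ∈ n.divisors, (d : ℤ) ^ 5 := by
    rw [E6z, PowerSeries.coeff_mk, if_neg hn]
  have h4 : PowerSeries.coeff n (sqX (sqX E6z)) =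
      -504 * (if 4 ∣ n then ∑ d ∈ (n / 4).divisors, (d : ℤ) ^ 5 else 0) := by
    rw [coeff_sqX]
    split_ifs with ha hb hb
    · obtain ⟨m, rfl⟩ := hb
      have hm : m ≠ 0 := fun h => hn (by rw [h, mul_zero])
      have e1 : 4 * m / 2 = 2 * m := by omega
      rw [e1, coeff_sqX_two_mul, E6z, PowerSeries.coeff_mk, if_neg hm,
        Nat.mul_div_cancel_left m (by norm_num)]
    · rw [coeff_sqX, if_neg (fun h => hb (by omega)), mul_zero]
    · exact absurd ((by norm_num : 2 ∣ 4).trans hb) ha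
    · rw [mul_zero]
  rw [h3, h4] at h2
  linarith

end Fermat.Agent.Cor.Leech
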