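import Fermat.Agent.Corollaries.Leech.Theta

/-!
# Ramanujan's formula for twenty-four squares

`691 r₂₄(n) = 16 ∑_{d ∣ n} (-1)^(n + d) d¹¹ + 128 ((-1)^(n + 1) 259 τ(n) - 512 τ(n / 2))`.
-/

set_option autoImplicit false

noncomputable section

namespace Fermat.Agent.Cor.Leech

open Finset Fermat.Agent.Cor.Quat

/-- `Δ(t)` -/
def Dz : PowerSeries ℤ := PowerSeries.mk Tau.tau

theorem sqX_Dz : sqX Dz = PowerSeries.mk tau2 := by
  ext n
  rw [coeff_sqX, Dz, PowerSeries.coeff_mk, PowerSeries.coeff_mk, tau2]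

theorem sqX_injective : Function.Injective sqX := by
  intro f g h
  ext n
  rw [← coeff_sqX_two_mul f, ← coeff_sqX_two_mul g, h]

theorem ofNat_ne_zero' (k : ℕ) [k.AtLeastTwo] : (OfNat.ofNat k : PowerSeries ℤ) ≠ 0 := by
  intro h
  have h1 := congrArg (PowerSeries.constantCoeff (R := ℤ)) h
  rw [map_ofNat, map_zero] at h1
  exact OfNat.ofNat_ne_zero k h1

theorem hv2 : sqX (negX (gf nsq)) ^ 2 = gf nsq * negX (gf nsq) := landen_two

/-- `16 Δ(t) = θ₃⁴ θ₂⁴ θ₄¹⁶` -/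
theorem Dz_eq : 16 * Dz = gf nsq * gf osq * negX (gf nsq) ^ 4 := by
  apply sqX_injective
  have h2 := landen_two
  have h3 := landen_three
  have hT := theta_product
  rw [← sqX_Dz] at hT
  simp only [map_mul, map_pow, map_ofNat]
  set x := gf nsq
  set y := negX x
  set o := gf osq
  set A := sqX x
  set v := sqX y
  set B := sqX o
  set D := sqX Dz
  change (x * y * o) ^ 2 = 256 * D at hT
  refine mul_left_cancel₀ (ofNat_ne_zero' 16) ?_
  have e1 : (16 : PowerSeries ℤ) * (16 * D) = 256 * D := by ring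
  have e2 : 16 * (A * B * v ^ 4) = (16 * (A * B)) * (v ^ 2) ^ 2 := by ring
  rw [e1, e2, ← h3, h2, ← hT]
  ring

/-- `65536 Δ(t⁴) = θ₂¹⁶ θ₃⁴ θ₄⁴` -/
theorem sqX_sqX_Dz : 65536 * sqX (sqX Dz) = gf osq ^ 4 * (gf nsq * negX (gf nsq)) := by
  have h2 := landen_two
  have h3 := landen_three
  have hT := theta_product
  rw [← sqX_Dz] at hT
  have hT' := congrArg sqX hT
  simp only [map_mul, map_pow, map_ofNat] at hT'
  set x := gf nsq
  set y := negX x
  set o := gf osq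
  set A := sqX x
  set v := sqX y
  set B := sqX o
  change (A * v * B) ^ 2 = 256 * sqX (sqX Dz) at hT'
  have e1 : (65536 : PowerSeries ℤ) * sqX (sqX Dz) = 256 * (256 * sqX (sqX Dz)) := by ring
  have e2 : 256 * (A * v * B) ^ 2 = (16 * (A * B)) ^ 2 * v ^ 2 := by ring
  rw [e1, ← hT', e2, ← h3, h2]
  ring

theorem coeff_osq_sq {n : ℕ} (hn : n ≠ 0) :
    PowerSeries.coeff n (gf osq ^ 2) = 256 * (s3 2 n - s3 4 n) := by
  rw [← conv_oddσ hn, sq, PowerSeries.coeff_mul]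
  push_cast
  rw [Finset.mul_sum]
  refine Finset.sum_congr rfl fun ij _ => ?_
  rw [coeff_osq, coeff_osq]
  ring

/-- `E₄(t) = θ₃⁸ + 14 θ₃⁴ θ₂⁴ + θ₂⁸` -/
theorem E4z_eq : E4z = gf nsq ^ 2 + 14 * (gf nsq * gf osq) + gf osq ^ 2 := by
  have h1 : gf nsq ^ 2 + 14 * (gf nsq * gf osq) + gf osq ^ 2 =
      8 * gf nsq ^ 2 + 8 * gf osq ^ 2 - 7 * negX (gf nsq ^ 2) := by
    rw [map_pow, osq_eq]
    ring
  rw [h1]
  ext n
  rw [map_sub (PowerSeries.coeff n), map_add (PowerSeries.coeff n), coeff_ofNat_mul,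
    coeff_ofNat_mul, coeff_ofNat_mul, coeff_negX, E4z, PowerSeries.coeff_mk]
  rcases eq_or_ne n 0 with rfl | hn
  · rw [sq, sq, PowerSeries.coeff_mul, PowerSeries.coeff_mul, Finset.Nat.antidiagonal_zero,
      sum_singleton, sum_singleton, coeff_nsq, coeff_osq]
    simp [rr, e4c, oddσ]
  · have e1 : ((∑ d ∈ n.divisors, d ^ 3 : ℕ) : ℤ) = s3 1 n := by
      rw [s3, if_pos (one_dvd n), Nat.div_one]
      push_cast
      rfl
    rw [coeff_nsq_sq hn, coeff_osq_sq hn, e4c, if_neg hn, Nat.cast_mul, e1]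
    rcases Nat.even_or_odd n with he | ho
    · obtain ⟨m, rfl⟩ := even_iff_two_dvd.mp he
      have hm : m ≠ 0 := fun h => hn (by rw [h, mul_zero])
      have f2 : s3 2 (2 * m) = s3 1 m := by
        have := s3_two_mul 1 m
        rwa [mul_one] at this
      have f4 : s3 4 (2 * m) = s3 2 m := s3_two_mul 2 m
      rw [he.neg_one_pow, f2, f4, s3_one_two_mul hm]
      push_cast
      ring
    · have hn2 : ¬ 2 ∣ n := fun h => Nat.not_even_iff_odd.mpr ho (even_iff_two_dvd.mpr h)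
      have f2 : s3 2 n = 0 := if_neg hn2
      have f4 : s3 4 n = 0 := if_neg fun h => hn2 ((by norm_num : 2 ∣ 4).trans h)
      rw [ho.neg_one_pow, f2, f4]
      push_cast
      ring

theorem two_mul_sqX_E4z : 2 * sqX E4z = gf nsq ^ 2 + negX (gf nsq) ^ 2 + gf osq ^ 2 := by
  rw [← thetaD_eight_eq, thetaD_eight]
  exact two_mul_thetaD 2

theorem sixteen_sqX_sqX_E4z :
    16 * sqX (sqX E4z) = 16 * gf nsq ^ 2 - 16 * (gf nsq * gf osq) + gf osq ^ 2 := by
  have h1 := landen_one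
  have h2 := landen_two
  have h3 := landen_three
  have hJ : gf nsq = negX (gf nsq) + gf osq := jacobi_identity
  have hS : sqX (gf nsq) = sqX (negX (gf nsq)) + sqX (gf osq) := by
    rw [← map_add, ← hJ]
  have hE := congrArg sqX two_mul_sqX_E4z
  simp only [map_add, map_mul, map_pow, map_ofNat] at hE
  set x := gf nsq
  set y := negX x
  set o := gf osq
  set A := sqX x
  set v := sqX y
  set B := sqX o
  set e := sqX (sqX E4z)
  refine mul_left_cancel₀ (ofNat_ne_zero' 2) ?_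
  have hy : y = x - o := by
    rw [hJ]
    ring
  have hab : (4 * A) * (4 * B) = o ^ 2 := by
    rw [h3]
    ring
  have hs : 4 * A + 4 * B = 2 * (x + y) := by
    linear_combination 2 * h1 - 4 * hS
  have hp : (4 * A) ^ 2 + (4 * B) ^ 2 = 4 * (x + y) ^ 2 - 2 * o ^ 2 := by
    linear_combination (4 * A + 4 * B + 2 * (x + y)) * hs - 2 * hab
  have e1 : 2 * (16 * e) = ((4 * A) ^ 2 + (4 * B) ^ 2) + 16 * v ^ 2 := by
    linear_combination 16 * hE
  rw [e1, hp, h2, hy]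
  ring

/-- `4095 θ₃²⁴ = E₄(t)³ - 2 E₄(t²)³ + 4096 E₄(t⁴)³ + …` -/
theorem nsq_six : 4095 * gf nsq ^ 6 = E4z ^ 3 - 2 * sqX E4z ^ 3 + 4096 * sqX (sqX E4z) ^ 3 +
    195840 * Dz + 9043200 * sqX Dz + 802160640 * sqX (sqX Dz) := by
  have a1 := E4z_eq
  have a2 := two_mul_sqX_E4z
  have a4 := sixteen_sqX_sqX_E4z
  have b1 := Dz_eq
  have b2 := theta_product
  rw [← sqX_Dz] at b2
  have b4 := sqX_sqX_Dz
  have hJ : gf nsq = negX (gf nsq) + gf osq := jacobi_identity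
  set e2 := sqX E4z
  set e4 := sqX e2
  set d2 := sqX Dz
  set d4 := sqX d2
  set x := gf nsq
  set y := negX x
  set o := gf osq
  change (x * y * o) ^ 2 = 256 * d2 at b2
  have hy : y = x - o := by
    rw [hJ]
    ring
  refine mul_left_cancel₀ (ofNat_ne_zero' 4096) ?_
  have c : 4096 * (E4z ^ 3 - 2 * e2 ^ 3 + 4096 * e4 ^ 3 + 195840 * Dz + 9043200 * d2 +
      802160640 * d4) = 4096 * E4z ^ 3 - 1024 * (2 * e2) ^ 3 + 4096 * (16 * e4) ^ 3 +
      50135040 * (16 * Dz) + 144691200 * (256 * d2) + 50135040 * (65536 * d4) := by ring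
  rw [c, a2, a4, b1, ← b2, b4, a1, hy]
  ring

/-! ### the Hecke relation at `2` -/

theorem negX_negX (f : PowerSeries ℤ) : negX (negX f) = f := by
  ext n
  rw [coeff_negX, coeff_negX, ← mul_assoc, ← mul_pow]
  norm_num

/-- `Δ(t) + Δ(-t) = -48 Δ(t²) - 4096 Δ(t⁴)` -/
theorem Dz_add_negX : Dz + negX Dz = -48 * sqX Dz - 4096 * sqX (sqX Dz) := by
  have b1 := Dz_eq
  have b1' := congrArg negX b1
  have b2 := theta_product
  rw [← sqX_Dz] at b2
  have b4 := sqX_sqX_Dz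
  have hJ : gf nsq = negX (gf nsq) + gf osq := jacobi_identity
  have hN : negX (gf osq) = -gf osq := by
    rw [osq_eq, map_sub, negX_negX]
    ring
  simp only [map_mul, map_pow, map_ofNat, negX_negX, hN] at b1'
  set d' := negX Dz
  set d2 := sqX Dz
  set d4 := sqX d2
  set x := gf nsq
  set y := negX x
  set o := gf osq
  change (x * y * o) ^ 2 = 256 * d2 at b2
  have hy : y = x - o := by
    rw [hJ]
    ring
  refine mul_left_cancel₀ (ofNat_ne_zero' 65536) ?_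
  have c1 : 65536 * (Dz + d') = 4096 * (16 * Dz) + 4096 * (16 * d') := by ring
  have c2 : 65536 * (-48 * d2 - 4096 * d4) = -12288 * (256 * d2) - 4096 * (65536 * d4) := by ring
  rw [c1, c2, b1, b1', ← b2, b4, hy]
  ring

/-- `τ(m / 2)`, and `0` if `m` is odd -/
def tauH (m : ℕ) : ℤ := if 2 ∣ m then Tau.tau (m / 2) else 0

/-- **`τ(2 m) = -24 τ(m) - 2048 τ(m / 2)`** -/
theorem tau_two_mul (m : ℕ) : Tau.tau (2 * m) = -24 * Tau.tau m - 2048 * tauH m := by
  have h := congrArg (PowerSeries.coeff (2 * m)) Dz_add_negX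
  have e1 : (-48 * sqX Dz - 4096 * sqX (sqX Dz) : PowerSeries ℤ) =
      -(48 * sqX Dz + 4096 * sqX (sqX Dz)) := by ring
  rw [e1, map_add (PowerSeries.coeff (2 * m)), map_neg (PowerSeries.coeff (2 * m)),
    map_add (PowerSeries.coeff (2 * m)), coeff_negX, (even_two_mul m).neg_one_pow,
    coeff_ofNat_mul, coeff_ofNat_mul, coeff_sqX_two_mul, coeff_sqX_two_mul, coeff_sqX, Dz,
    PowerSeries.coeff_mk, PowerSeries.coeff_mk, PowerSeries.coeff_mk] at h
  rw [tauH]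
  linarith

/-! ### `σ₁₁` -/

/-- `σ₁₁(n)` -/
def S11 (n : ℕ) : ℤ := ∑ d ∈ n.divisors, (d : ℤ) ^ 11

/-- `σ₁₁(m / 2)`, and `0` if `m` is odd -/
def S11H (m : ℕ) : ℤ := if 2 ∣ m then S11 (m / 2) else 0

theorem sum_even_div {k : ℕ} (hk : k ≠ 0) :
    ∑ f ∈ (2 * k).divisors with 2 ∣ f, (f : ℤ) ^ 11 = 2048 * S11 k := by
  rw [S11, Finset.mul_sum]
  symm
  refine Finset.sum_bij' (fun e _ => 2 * e) (fun f _ => f / 2) ?_ ?_ ?_ ?_ ?_
  · intro e he
    rw [Nat.mem_divisors] at he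
    rw [mem_filter, Nat.mem_divisors]
    exact ⟨⟨Nat.mul_dvd_mul_left 2 he.1, by omega⟩, dvd_mul_right 2 e⟩
  · intro f hf
    rw [mem_filter, Nat.mem_divisors] at hf
    obtain ⟨⟨hf, -⟩, e, rfl⟩ := hf
    rw [Nat.mul_div_cancel_left e (by norm_num), Nat.mem_divisors]
    exact ⟨Nat.dvd_of_mul_dvd_mul_left (by norm_num) hf, hk⟩
  · intro e _
    exact Nat.mul_div_cancel_left e (by norm_num)
  · intro f hf
    rw [mem_filter] at hf
    exact Nat.mul_div_cancel' hf.2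
  · intro e _
    push_cast
    ring

theorem sum_even_div' {m : ℕ} (hm : m ≠ 0) :
    ∑ f ∈ m.divisors with 2 ∣ f, (f : ℤ) ^ 11 = 2048 * S11H m := by
  rw [S11H]
  split_ifs with h
  · obtain ⟨k, rfl⟩ := h
    rw [Nat.mul_div_cancel_left k (by norm_num), sum_even_div fun h => hm (by rw [h, mul_zero])]
  · rw [mul_zero]
    refine Finset.sum_eq_zero fun f hf => ?_
    rw [mem_filter, Nat.mem_divisors] at hf
    exact absurd (hf.2.trans hf.1.1) h

theorem sum_odd_div {m : ℕ} (hm : m ≠ 0) :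
    ∑ d ∈ (2 * m).divisors with ¬ 2 ∣ d, (d : ℤ) ^ 11 =
      ∑ d ∈ m.divisors with ¬ 2 ∣ d, (d : ℤ) ^ 11 := by
  have h2m : 2 * m ≠ 0 := by omega
  refine Finset.sum_congr ?_ fun _ _ => rfl
  ext d
  simp only [mem_filter, Nat.mem_divisors]
  constructor
  · rintro ⟨⟨h, -⟩, ho⟩
    refine ⟨⟨Nat.Coprime.dvd_of_dvd_mul_left ?_ h, hm⟩, ho⟩
    exact (((Nat.prime_two.coprime_iff_not_dvd).mpr ho)).symm
  · rintro ⟨⟨h, -⟩, ho⟩
    exact ⟨⟨h.mul_left 2, h2m⟩, ho⟩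

theorem S11_two_mul {m : ℕ} (hm : m ≠ 0) : S11 (2 * m) = 2049 * S11 m - 2048 * S11H m := by
  have h1 := Finset.sum_filter_add_sum_filter_not (2 * m).divisors (fun d => 2 ∣ d)
    (fun d => (d : ℤ) ^ 11)
  have h2 := Finset.sum_filter_add_sum_filter_not m.divisors (fun d => 2 ∣ d)
    (fun d => (d : ℤ) ^ 11)
  rw [sum_even_div hm, sum_odd_div hm] at h1
  rw [sum_even_div' hm] at h2
  have e1 : S11 (2 * m) = ∑ d ∈ (2 * m).divisors, (d : ℤ) ^ 11 := rfl
  have e2 : S11 m = ∑ d ∈ m.divisors, (d : ℤ) ^ 11 := rfl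
  linarith

theorem alt_sum_even {m : ℕ} (hm : m ≠ 0) :
    ∑ d ∈ (2 * m).divisors, (-1) ^ (2 * m + d) * (d : ℤ) ^ 11 = 4096 * S11 m - S11 (2 * m) := by
  have h1 := Finset.sum_filter_add_sum_filter_not (2 * m).divisors (fun d => 2 ∣ d)
    (fun d => (d : ℤ) ^ 11)
  have h2 := Finset.sum_filter_add_sum_filter_not (2 * m).divisors (fun d => 2 ∣ d)
    (fun d => (-1) ^ (2 * m + d) * (d : ℤ) ^ 11)
  have h3 : ∑ d ∈ (2 * m).divisors with 2 ∣ d, (-1) ^ (2 * m + d) * (d : ℤ) ^ 11 =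
      ∑ d ∈ (2 * m).divisors with 2 ∣ d, (d : ℤ) ^ 11 := by
    refine Finset.sum_congr rfl fun d hd => ?_
    rw [mem_filter] at hd
    rw [((even_two_mul m).add (even_iff_two_dvd.mpr hd.2)).neg_one_pow, one_mul]
  have h4 : ∑ d ∈ (2 * m).divisors with ¬ 2 ∣ d, (-1) ^ (2 * m + d) * (d : ℤ) ^ 11 =
      -∑ d ∈ (2 * m).divisors with ¬ 2 ∣ d, (d : ℤ) ^ 11 := by
    rw [← Finset.sum_neg_distrib]
    refine Finset.sum_congr rfl fun d hd => ?_
    rw [mem_filter] at hd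
    have h5 : Odd d := Nat.not_even_iff_odd.mp fun h => hd.2 (even_iff_two_dvd.mp h)
    rw [((even_two_mul m).add_odd h5).neg_one_pow]
    ring
  rw [sum_even_div hm] at h1
  rw [h3, h4, sum_even_div hm] at h2
  have e1 : S11 (2 * m) = ∑ d ∈ (2 * m).divisors, (d : ℤ) ^ 11 := rfl
  linarith

theorem alt_sum_odd {n : ℕ} (hn : Odd n) :
    ∑ d ∈ n.divisors, (-1) ^ (n + d) * (d : ℤ) ^ 11 = S11 n := by
  refine Finset.sum_congr rfl fun d hd => ?_
  rw [(hn.add_odd (hn.of_dvd_nat (Nat.dvd_of_mem_divisors hd))).neg_one_pow, one_mul]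

/-! ### the formula -/

theorem coeff_nsq_six {n : ℕ} (hn : n ≠ 0) :
    691 * PowerSeries.coeff n (gf nsq ^ 6) =
      16 * ∑ d ∈ n.divisors, (-1) ^ (n + d) * (d : ℤ) ^ 11 +
        128 * ((-1) ^ (n + 1) * (259 * Tau.tau n) - 512 * tauH n) := by
  have h := congrArg (PowerSeries.coeff n) nsq_six
  rw [← map_pow sqX, ← map_pow sqX, ← map_pow sqX] at h
  simp only [map_add, map_sub] at h
  rw [coeff_ofNat_mul, coeff_ofNat_mul, coeff_ofNat_mul, coeff_ofNat_mul, coeff_ofNat_mul,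
    coeff_ofNat_mul] at h
  have hc : ∀ k, k ≠ 0 → 691 * PowerSeries.coeff k (E4z ^ 3) =
      65520 * S11 k + 432000 * Tau.tau k := fun k hk => coeff_E4_cube hk
  rcases Nat.even_or_odd n with he | ho
  · obtain ⟨m, rfl⟩ := even_iff_two_dvd.mp he
    have hm : m ≠ 0 := fun h => hn (by rw [h, mul_zero])
    rw [coeff_sqX_two_mul, coeff_sqX_two_mul, coeff_sqX, coeff_sqX_two_mul, coeff_sqX_two_mul,
      coeff_sqX, Dz, PowerSeries.coeff_mk, PowerSeries.coeff_mk, PowerSeries.coeff_mk] at h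
    have h1 := hc (2 * m) hn
    have h2 := hc m hm
    have h3 : 691 * (if 2 ∣ m then PowerSeries.coeff (m / 2) (E4z ^ 3) else 0) =
        65520 * S11H m + 432000 * tauH m := by
      unfold S11H tauH
      split_ifs with h2m
      · exact hc _ (by omega)
      · ring
    have h4 := tau_two_mul m
    have h5 := S11_two_mul hm
    have h6 : tauH (2 * m) = Tau.tau m := by
      rw [tauH, if_pos (dvd_mul_right 2 m), Nat.mul_div_cancel_left m (by norm_num)]
    have h7 : (if 2 ∣ m then Tau.tau (m / 2) else 0) = tauH m := rfl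
    rw [h7] at h
    rw [alt_sum_even hm, h6, ((even_two_mul m).add_odd odd_one).neg_one_pow]
    linarith
  · have hn2 : ¬ 2 ∣ n := fun h => Nat.not_even_iff_odd.mpr ho (even_iff_two_dvd.mpr h)
    have h0 : ∀ f, PowerSeries.coeff n (sqX f) = 0 := fun f => by rw [coeff_sqX, if_neg hn2]
    rw [h0, h0, h0, h0, Dz, PowerSeries.coeff_mk] at h
    have h1 := hc n hn
    rw [alt_sum_odd ho, tauH, if_neg hn2, (ho.add_odd odd_one).neg_one_pow]
    linarith

/-- **Ramanujan 1916: the number of representations as a sum of twenty-four squares** -/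
theorem card_twentyfour_squares {n : ℕ} (hn : n ≠ 0) :
    691 * ({x : Fin 24 → ℤ | ∑ i, x i ^ 2 = n}.ncard : ℤ) =
      16 * ∑ d ∈ n.divisors, (-1) ^ (n + d) * (d : ℤ) ^ 11 +
        128 * ((-1) ^ (n + 1) * (259 * Tau.tau n) -
          512 * (if 2 ∣ n then Tau.tau (n / 2) else 0)) := by
  have h1 : {z : Fin 6 × Fin 4 → ℤ | ∑ i, z i ^ 2 = (n : ℤ)}.ncard =
      {x : Fin 24 → ℤ | ∑ i, x i ^ 2 = n}.ncard := by
    rw [← Nat.card_coe_set_eq, ← Nat.card_coe_set_eq]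
    refine Nat.card_congr
      ((Equiv.arrowCongr (finProdFinEquiv (m := 6) (n := 4)) (Equiv.refl ℤ)).subtypeEquiv
        fun z => ?_)
    change ∑ i, z i ^ 2 = (n : ℤ) ↔ ∑ i, z (finProdFinEquiv.symm i) ^ 2 = (n : ℤ)
    rw [Equiv.sum_comp (finProdFinEquiv (m := 6) (n := 4)).symm fun i => z i ^ 2]
  rw [← h1, card_block, ← coeff_gf, gf_pi finite_nsq 6]
  exact coeff_nsq_six hn

end Fermat.Agent.Cor.Leech
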