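import Fermat.Agent.Corollaries.Leech.MacWilliams

/-!
# Doubly even self-dual binary codes

`eight_dvd_length`: the length of a self-dual binary code all of whose weights are divisible by `4`
is divisible by `8`.
-/

set_option autoImplicit false

namespace Fermat.Agent.Cor.Leech

open Finset

section TypeTwo

variable {ι : Type*} [Fintype ι]

open Classical in
/-- the weight enumerator -/
noncomputable def wenum (C : Submodule (ZMod 2) (ι → ZMod 2)) (x y : ℂ) : ℂ :=
  ∑ c : ι → ZMod 2 with c ∈ C, x ^ #{i | c i = 0} * y ^ #{i | c i ≠ 0}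

theorem wenum_dual {C : Submodule (ZMod 2) (ι → ZMod 2)}
    (hC : ∀ d, d ∈ C ↔ ∀ c ∈ C, ∑ i, c i * d i = 0) (x y : ℂ) :
    (Nat.card C : ℂ) * wenum C x y = wenum C (x + y) (x - y) := by
  classical
  have h := macwilliams C x y
  rw [wenum, wenum]
  rw [← h]
  congr 2
  ext d
  simp only [Finset.mem_filter, Finset.mem_univ, true_and]
  exact hC d

theorem wenum_I {C : Submodule (ZMod 2) (ι → ZMod 2)} (h4 : ∀ c ∈ C, 4 ∣ #{i | c i ≠ 0})
    (x y : ℂ) : wenum C x (Complex.I * y) = wenum C x y := by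
  classical
  rw [wenum, wenum]
  refine Finset.sum_congr rfl fun c hc => ?_
  obtain ⟨k, hk⟩ := h4 c (Finset.mem_filter.mp hc).2
  rw [mul_pow, hk, pow_mul Complex.I, Complex.I_pow_four, one_pow, one_mul]

theorem wenum_zero (C : Submodule (ZMod 2) (ι → ZMod 2)) (x : ℂ) :
    wenum C x 0 = x ^ Fintype.card ι := by
  classical
  rw [wenum, Finset.sum_eq_single 0]
  · simp
  · intro c _ hc
    obtain ⟨i, hi⟩ := Function.ne_iff.mp hc
    rw [zero_pow, mul_zero]
    rw [Finset.card_ne_zero]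
    exact ⟨i, Finset.mem_filter.mpr ⟨Finset.mem_univ _, hi⟩⟩
  · intro h
    exact absurd (Finset.mem_filter.mpr ⟨Finset.mem_univ _, C.zero_mem⟩) h

theorem wenum_step {C : Submodule (ZMod 2) (ι → ZMod 2)}
    (hC : ∀ d, d ∈ C ↔ ∀ c ∈ C, ∑ i, c i * d i = 0) (h4 : ∀ c ∈ C, 4 ∣ #{i | c i ≠ 0})
    (x y : ℂ) : (Nat.card C : ℂ) * wenum C x y =
      wenum C (x + Complex.I * y) (x - Complex.I * y) := by
  rw [← wenum_I h4, wenum_dual hC]

/-- `(2 + 2 i) ^ n = |C| ^ 3` -/
theorem pow_eq_card {C : Submodule (ZMod 2) (ι → ZMod 2)}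
    (hC : ∀ d, d ∈ C ↔ ∀ c ∈ C, ∑ i, c i * d i = 0) (h4 : ∀ c ∈ C, 4 ∣ #{i | c i ≠ 0}) :
    (2 + 2 * Complex.I) ^ Fintype.card ι = (Nat.card C : ℂ) ^ 3 := by
  have h1 := wenum_step hC h4 1 0
  have h2 := wenum_step hC h4 1 1
  have h3 := wenum_step hC h4 (1 + Complex.I) (1 - Complex.I)
  rw [wenum_zero, one_pow, mul_zero, add_zero, sub_zero, mul_one] at h1
  rw [mul_one] at h2
  have e1 : (1 + Complex.I + Complex.I * (1 - Complex.I)) = 2 + 2 * Complex.I := by
    linear_combination -Complex.I_mul_I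
  have e2 : (1 + Complex.I - Complex.I * (1 - Complex.I)) = 0 := by
    linear_combination Complex.I_mul_I
  rw [e1, e2, wenum_zero, ← h2, ← h1] at h3
  rw [← h3]
  ring

/-- **The length of a doubly even self-dual binary code is divisible by `8`.** -/
theorem eight_dvd_length {C : Submodule (ZMod 2) (ι → ZMod 2)}
    (hC : ∀ d, d ∈ C ↔ ∀ c ∈ C, ∑ i, c i * d i = 0) (h4 : ∀ c ∈ C, 4 ∣ #{i | c i ≠ 0}) :
    8 ∣ Fintype.card ι := by
  have h := pow_eq_card hC h4
  obtain ⟨q, r, hr, hn⟩ : ∃ q r, r < 8 ∧ Fintype.card ι = 8 * q + r :=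
    ⟨Fintype.card ι / 8, Fintype.card ι % 8, Nat.mod_lt _ (by norm_num),
      (Nat.div_add_mod _ 8).symm⟩
  rw [hn] at h ⊢
  have h2 : (2 + 2 * Complex.I) ^ 2 = 8 * Complex.I := by
    linear_combination 4 * Complex.I_mul_I
  have h8 : (2 + 2 * Complex.I) ^ 8 = 4096 := by
    rw [show (8 : ℕ) = 2 * 4 by norm_num, pow_mul, h2, mul_pow, Complex.I_pow_four]
    norm_num
  rw [pow_add, pow_mul, h8] at h
  have hp : (0 : ℝ) < 4096 ^ q := by positivity
  have hK : (0 : ℝ) ≤ (Nat.card C : ℝ) ^ 3 := by positivity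
  have h3 : (2 + 2 * Complex.I) ^ 3 = -16 + 16 * Complex.I := by
    rw [pow_succ, h2]
    linear_combination 16 * Complex.I_mul_I
  have h4' : (2 + 2 * Complex.I) ^ 4 = -64 := by
    rw [show (4 : ℕ) = 2 * 2 by norm_num, pow_mul, h2]
    linear_combination 64 * Complex.I_mul_I
  have aux : ∀ x y z : ℝ, (x : ℂ) + (y : ℂ) * Complex.I = (z : ℂ) → x = z ∧ y = 0 := by
    intro x y z hxyz
    exact ⟨by simpa using congrArg Complex.re hxyz, by simpa using congrArg Complex.im hxyz⟩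
  have key : ∀ a b : ℝ, (2 + 2 * Complex.I) ^ r = (a : ℂ) + (b : ℂ) * Complex.I →
      4096 ^ q * a = (Nat.card C : ℝ) ^ 3 ∧ 4096 ^ q * b = 0 := by
    intro a b hab
    rw [hab] at h
    have h5 : (((4096 : ℝ) ^ q * a : ℝ) : ℂ) + (((4096 : ℝ) ^ q * b : ℝ) : ℂ) * Complex.I =
        (((Nat.card C : ℝ) ^ 3 : ℝ) : ℂ) := by
      push_cast
      linear_combination h
    exact aux _ _ _ h5
  have hb : ∀ a b : ℝ, (2 + 2 * Complex.I) ^ r = (a : ℂ) + (b : ℂ) * Complex.I →
      b = 0 ∧ 0 ≤ a := by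
    intro a b hab
    obtain ⟨k1, k2⟩ := key a b hab
    refine ⟨(mul_eq_zero.mp k2).resolve_left hp.ne', ?_⟩
    by_contra hcon
    have := mul_neg_of_pos_of_neg hp (not_le.mp hcon)
    linarith
  interval_cases r
  · exact ⟨q, by ring⟩
  · have := hb 2 2 (by push_cast; ring)
    norm_num at this
  · have := hb 0 8 (by rw [h2]; push_cast; ring)
    norm_num at this
  · have := hb (-16) 16 (by rw [h3]; push_cast; ring)
    norm_num at this
  · have := hb (-64) 0 (by rw [h4']; push_cast; ring)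
    norm_num at this
  · have := hb (-128) (-128) (by rw [pow_succ, h4']; push_cast; ring)
    norm_num at this
  · have := hb 0 (-512) (by
      rw [show (6 : ℕ) = 4 + 2 by norm_num, pow_add, h4', h2]
      push_cast
      ring)
    norm_num at this
  · have := hb 1024 (-1024) (by
      rw [show (7 : ℕ) = 4 + 3 by norm_num, pow_add, h4', h3]
      push_cast
      ring)
    norm_num at this

end TypeTwo

end Fermat.Agent.Cor.Leech
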