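import Fermat.Agent.Corollaries.Leech.TypeTwo

/-!
# Doubly even self-dual binary codes exist exactly in the lengths divisible by `8`
-/

set_option autoImplicit false

namespace Fermat.Agent.Cor.Leech

open Finset

namespace Ham

/-- the rows of the extended Hamming code of length `8` -/
def row8 (k : Fin 4) (i : Fin 8) : ZMod 2 :=
  if k = 3 then 1 else if Nat.testBit (i : ℕ) (k : ℕ) then 1 else 0

/-- the extended Hamming code of length `8` -/
def ham : Submodule (ZMod 2) (Fin 8 → ZMod 2) where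
  carrier := {c | ∀ k, ∑ i, row8 k i * c i = 0}
  add_mem' := by
    intro a b ha hb k
    simp only [Pi.add_apply, mul_add, Finset.sum_add_distrib, ha k, hb k, add_zero]
  zero_mem' := by
    intro k
    simp
  smul_mem' := by
    intro r a ha k
    simp only [Pi.smul_apply, smul_eq_mul, mul_left_comm _ r, ← Finset.mul_sum, ha k, mul_zero]

theorem mem_ham (c : Fin 8 → ZMod 2) : c ∈ ham ↔ ∀ k, ∑ i, row8 k i * c i = 0 := Iff.rfl

theorem row8_mem (k : Fin 4) : row8 k ∈ ham := by
  rw [mem_ham]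
  revert k
  decide +kernel

theorem ham_dot : ∀ c : Fin 8 → ZMod 2, (∀ k, ∑ i, row8 k i * c i = 0) →
    ∀ d : Fin 8 → ZMod 2, (∀ k, ∑ i, row8 k i * d i = 0) → ∑ i, c i * d i = 0 := by
  decide +kernel

theorem ham_four : ∀ c : Fin 8 → ZMod 2, (∀ k, ∑ i, row8 k i * c i = 0) →
    4 ∣ #{i | c i ≠ 0} := by
  decide +kernel

theorem ham_selfdual (d : Fin 8 → ZMod 2) : d ∈ ham ↔ ∀ c ∈ ham, ∑ i, c i * d i = 0 :=
  ⟨fun hd c hc => ham_dot c hc d hd, fun h k => h (row8 k) (row8_mem k)⟩

/-- the direct sum of `m` copies -/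
def hams (m : ℕ) : Submodule (ZMod 2) (Fin (m * 8) → ZMod 2) where
  carrier := {c | ∀ a : Fin m, (fun b => c (finProdFinEquiv (a, b))) ∈ ham}
  add_mem' := fun hx hy a => ham.add_mem (hx a) (hy a)
  zero_mem' := fun _ => ham.zero_mem
  smul_mem' := fun r _ hx a => ham.smul_mem r (hx a)

theorem sum_split {M : Type*} [AddCommMonoid M] {m : ℕ} (f : Fin (m * 8) → M) :
    ∑ i, f i = ∑ a : Fin m, ∑ b : Fin 8, f (finProdFinEquiv (a, b)) := by
  rw [← finProdFinEquiv.sum_comp f, Fintype.sum_prod_type]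

theorem hams_selfdual {m : ℕ} (d : Fin (m * 8) → ZMod 2) :
    d ∈ hams m ↔ ∀ c ∈ hams m, ∑ i, c i * d i = 0 := by
  constructor
  · intro hd c hc
    rw [sum_split]
    exact Finset.sum_eq_zero fun a _ => (ham_selfdual _).mp (hd a) _ (hc a)
  · intro h a₀
    refine (ham_selfdual _).mpr fun e he => ?_
    have h1 := h (fun i => if (finProdFinEquiv.symm i).1 = a₀ then
      e (finProdFinEquiv.symm i).2 else 0) (fun a => by
        simp only [Equiv.symm_apply_apply]
        by_cases ha : a = a₀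
        · simp only [if_pos ha]
          exact he
        · simp only [if_neg ha]
          exact ham.zero_mem)
    rw [sum_split] at h1
    simp only [Equiv.symm_apply_apply] at h1
    rw [Finset.sum_eq_single a₀] at h1
    · simpa using h1
    · intro a _ ha
      simp [if_neg ha]
    · intro h2
      exact absurd (Finset.mem_univ _) h2

theorem hams_four {m : ℕ} {c : Fin (m * 8) → ZMod 2} (hc : c ∈ hams m) :
    4 ∣ #{i | c i ≠ 0} := by
  rw [Finset.card_filter, sum_split]
  refine Finset.dvd_sum fun a _ => ?_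
  rw [← Finset.card_filter]
  exact ham_four _ (hc a)

end Ham

open Ham

/-- **There is a doubly even self-dual binary code of length `n` iff `8 ∣ n`.** -/
theorem exists_typeTwo_iff (n : ℕ) : (∃ C : Submodule (ZMod 2) (Fin n → ZMod 2),
    (∀ d, d ∈ C ↔ ∀ c ∈ C, ∑ i, c i * d i = 0) ∧ ∀ c ∈ C, 4 ∣ #{i | c i ≠ 0}) ↔ 8 ∣ n := by
  constructor
  · rintro ⟨C, h1, h2⟩
    have h := eight_dvd_length h1 h2
    rwa [Fintype.card_fin] at h
  · rintro ⟨m, rfl⟩
    rw [mul_comm]
    exact ⟨hams m, hams_selfdual, fun c hc => hams_four hc⟩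

end Fermat.Agent.Cor.Leech
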