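import Mathlib

/-!
# Zonal harmonic polynomials

`Z y k` is the harmonic homogeneous polynomial of degree `k` in `n` variables which is zonal around the unit
vector `y`; `Z y k (x) = zon n k (x · y)` for unit vectors `x`, `zon n k` the monic Gegenbauer polynomials.
-/

set_option autoImplicit false

noncomputable section

namespace Fermat.Agent.Cor.Leech

open Finset MvPolynomial

variable {n : ℕ}

/-- the linear form `∑ yᵢ Xᵢ` -/
def lin (y : Fin n → ℝ) : MvPolynomial (Fin n) ℝ := ∑ i, C (y i) * X i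

/-- `∑ Xᵢ²` -/
def rad (n : ℕ) : MvPolynomial (Fin n) ℝ := ∑ i, X i ^ 2

/-- the Laplace operator -/
def lap (q : MvPolynomial (Fin n) ℝ) : MvPolynomial (Fin n) ℝ := ∑ i, pderiv i (pderiv i q)

/-- the derivative in the direction `y` -/
def dir (y : Fin n → ℝ) (q : MvPolynomial (Fin n) ℝ) : MvPolynomial (Fin n) ℝ :=
  ∑ i, C (y i) * pderiv i q

theorem pderiv_lin (y : Fin n → ℝ) (i : Fin n) : pderiv i (lin y) = C (y i) := by
  classical
  rw [lin, map_sum, Finset.sum_eq_single i]
  · rw [pderiv_C_mul, pderiv_X_self, mul_one]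
  · intro j _ hj
    rw [pderiv_C_mul, pderiv_X_of_ne hj, mul_zero]
  · intro h
    exact absurd (mem_univ i) h

theorem pderiv_rad (i : Fin n) : pderiv i (rad n) = 2 * X i := by
  classical
  rw [rad, map_sum, Finset.sum_eq_single i]
  · rw [pderiv_pow, pderiv_X_self]
    norm_num
  · intro j _ hj
    rw [pderiv_pow, pderiv_X_of_ne hj, mul_zero]
  · intro h
    exact absurd (mem_univ i) h

theorem lap_lin_mul (y : Fin n → ℝ) (p : MvPolynomial (Fin n) ℝ) :
    lap (lin y * p) = lin y * lap p + 2 * dir y p := by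
  unfold lap dir
  rw [Finset.mul_sum, Finset.mul_sum, ← Finset.sum_add_distrib]
  refine Finset.sum_congr rfl fun i _ => ?_
  rw [pderiv_mul, pderiv_lin, map_add, pderiv_C_mul, pderiv_mul, pderiv_lin]
  ring

theorem lap_rad_mul {p : MvPolynomial (Fin n) ℝ} {d : ℕ} (hp : p.IsHomogeneous d) :
    lap (rad n * p) = rad n * lap p + C (4 * d + 2 * n : ℝ) * p := by
  have h1 := hp.sum_X_mul_pderiv
  have h2 : lap (rad n * p) = rad n * lap p + 4 * ∑ i, X i * pderiv i p + 2 * n * p := by
    have h3 : (2 * n * p : MvPolynomial (Fin n) ℝ) = ∑ _i : Fin n, 2 * p := by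
      rw [Finset.sum_const, Finset.card_univ, Fintype.card_fin, nsmul_eq_mul]
      ring
    rw [h3]
    unfold lap
    rw [Finset.mul_sum, Finset.mul_sum, ← Finset.sum_add_distrib, ← Finset.sum_add_distrib]
    refine Finset.sum_congr rfl fun i _ => ?_
    have h4 : pderiv i (2 * X i : MvPolynomial (Fin n) ℝ) = 2 := by
      rw [show (2 : MvPolynomial (Fin n) ℝ) = C 2 from (map_ofNat C 2).symm, pderiv_C_mul,
        pderiv_X_self, mul_one]
    rw [pderiv_mul, pderiv_rad, map_add, pderiv_mul, h4, pderiv_mul, pderiv_rad]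
    ring
  rw [h2, h1, nsmul_eq_mul, map_add, map_mul, map_mul, map_ofNat, map_ofNat, map_natCast,
    map_natCast]
  ring

theorem dir_lin_mul {y : Fin n → ℝ} (hy : ∑ i, y i ^ 2 = 1) (p : MvPolynomial (Fin n) ℝ) :
    dir y (lin y * p) = p + lin y * dir y p := by
  have h1 : dir y (lin y * p) = (∑ i, C (y i ^ 2)) * p + lin y * dir y p := by
    unfold dir
    rw [Finset.sum_mul, Finset.mul_sum, ← Finset.sum_add_distrib]
    refine Finset.sum_congr rfl fun i _ => ?_
    rw [pderiv_mul, pderiv_lin, map_pow]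
    ring
  rw [h1, ← map_sum, hy, map_one, one_mul]

theorem dir_rad_mul (y : Fin n → ℝ) (p : MvPolynomial (Fin n) ℝ) :
    dir y (rad n * p) = 2 * (lin y * p) + rad n * dir y p := by
  unfold dir
  rw [lin, Finset.sum_mul, Finset.mul_sum, Finset.mul_sum, ← Finset.sum_add_distrib]
  refine Finset.sum_congr rfl fun i _ => ?_
  rw [pderiv_mul, pderiv_rad]
  ring

theorem lap_sub (p q : MvPolynomial (Fin n) ℝ) : lap (p - q) = lap p - lap q := by
  unfold lap
  rw [← Finset.sum_sub_distrib]
  exact Finset.sum_congr rfl fun i _ => by rw [map_sub, map_sub]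

theorem dir_sub (y : Fin n → ℝ) (p q : MvPolynomial (Fin n) ℝ) :
    dir y (p - q) = dir y p - dir y q := by
  unfold dir
  rw [← Finset.sum_sub_distrib]
  exact Finset.sum_congr rfl fun i _ => by rw [map_sub, mul_sub]

theorem lap_C_mul (a : ℝ) (p : MvPolynomial (Fin n) ℝ) : lap (C a * p) = C a * lap p := by
  unfold lap
  rw [Finset.mul_sum]
  exact Finset.sum_congr rfl fun i _ => by rw [pderiv_C_mul, pderiv_C_mul]

theorem dir_C_mul (y : Fin n → ℝ) (a : ℝ) (p : MvPolynomial (Fin n) ℝ) :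
    dir y (C a * p) = C a * dir y p := by
  unfold dir
  rw [Finset.mul_sum]
  exact Finset.sum_congr rfl fun i _ => by
    rw [pderiv_C_mul]
    ring

/-- the coefficients of the three-term recursion -/
def bet (n k : ℕ) : ℝ := k * (n + k - 3) / ((n + 2 * k - 4) * (n + 2 * k - 2))

/-- the coefficients of the derivative -/
def gam (n k : ℕ) : ℝ := k * (n + k - 3) / (n + 2 * k - 4)

/-- the zonal harmonic polynomial of degree `k` -/
def Z (y : Fin n → ℝ) : ℕ → MvPolynomial (Fin n) ℝ
  | 0 => 1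
  | 1 => lin y
  | k + 2 => lin y * Z y (k + 1) - C (bet n (k + 1)) * (rad n * Z y k)

/-- the monic Gegenbauer polynomials -/
def zon (n : ℕ) : ℕ → ℝ → ℝ
  | 0, _ => 1
  | 1, t => t
  | k + 2, t => t * zon n (k + 1) t - bet n (k + 1) * zon n k t

theorem isHomogeneous_lin (y : Fin n → ℝ) : (lin y).IsHomogeneous 1 :=
  IsHomogeneous.sum _ _ _ fun i _ => by
    have h := (isHomogeneous_C (Fin n) (y i)).mul (isHomogeneous_X ℝ i)
    rwa [zero_add] at h

theorem isHomogeneous_rad : (rad n).IsHomogeneous 2 :=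
  IsHomogeneous.sum _ _ _ fun i _ => by
    have h := (isHomogeneous_X ℝ i).pow 2
    rwa [one_mul] at h

theorem isHomogeneous_Z (y : Fin n → ℝ) (k : ℕ) :
    (Z y k).IsHomogeneous k ∧ (Z y (k + 1)).IsHomogeneous (k + 1) := by
  induction k with
  | zero => exact ⟨isHomogeneous_one _ _, isHomogeneous_lin y⟩
  | succ k ih =>
    refine ⟨ih.2, ?_⟩
    have h1 := (isHomogeneous_lin y).mul ih.2
    have h2 := (isHomogeneous_C (Fin n) (bet n (k + 1))).mul (isHomogeneous_rad.mul ih.1)
    rw [show 1 + (k + 1) = k + 1 + 1 by ring] at h1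
    rw [show 0 + (2 + k) = k + 1 + 1 by ring] at h2
    exact h1.sub h2

theorem Z_props (hn : 3 ≤ n) {y : Fin n → ℝ} (hy : ∑ i, y i ^ 2 = 1) (k : ℕ) :
    lap (Z y k) = 0 ∧ lap (Z y (k + 1)) = 0 ∧ dir y (Z y (k + 1)) = C (gam n (k + 1)) * Z y k ∧
      dir y (Z y (k + 2)) = C (gam n (k + 2)) * Z y (k + 1) := by
  have hn' : (3 : ℝ) ≤ n := by exact_mod_cast hn
  have hlap0 : lap (1 : MvPolynomial (Fin n) ℝ) = 0 := by
    unfold lap
    exact Finset.sum_eq_zero fun i _ => by rw [pderiv_one, map_zero]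
  have hdir0 : dir y (1 : MvPolynomial (Fin n) ℝ) = 0 := by
    unfold dir
    exact Finset.sum_eq_zero fun i _ => by rw [pderiv_one, mul_zero]
  have hlin : dir y (lin y) = 1 := by
    have h := dir_lin_mul hy 1
    rwa [mul_one, hdir0, mul_zero, add_zero] at h
  have hlap1 : lap (lin y) = 0 := by
    have h := lap_lin_mul y 1
    rwa [mul_one, hlap0, hdir0, mul_zero, mul_zero, add_zero] at h
  induction k with
  | zero =>
    refine ⟨hlap0, hlap1, ?_, ?_⟩
    · change dir y (lin y) = C (gam n 1) * 1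
      have h1 : gam n 1 = 1 := by
        unfold gam
        push_cast
        rw [div_eq_one_iff_eq (by linarith)]
        ring
      rw [hlin, h1, map_one, mul_one]
    · change dir y (lin y * lin y - C (bet n 1) * (rad n * 1)) = C (gam n 2) * lin y
      rw [dir_sub, dir_lin_mul hy, hlin, dir_C_mul, dir_rad_mul, hdir0]
      have h1 : gam n 2 = 2 - 2 * bet n 1 := by
        unfold gam bet
        push_cast
        have h2 : (n : ℝ) ≠ 0 := by linarith
        have h3 : (n : ℝ) - 2 ≠ 0 := by linarith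
        rw [show (n : ℝ) + 2 * 2 - 4 = n by ring, show (n : ℝ) + 2 * 1 - 4 = n - 2 by ring,
          show (n : ℝ) + 2 * 1 - 2 = n by ring]
        field_simp
        ring
      rw [h1, map_sub, map_mul, map_ofNat]
      ring
  | succ k ih =>
    obtain ⟨h1, h2, h3, h4⟩ := ih
    have hk : (0 : ℝ) ≤ k := Nat.cast_nonneg k
    have hlap : lap (Z y (k + 2)) = 0 := by
      change lap (lin y * Z y (k + 1) - C (bet n (k + 1)) * (rad n * Z y k)) = 0
      rw [lap_sub, lap_lin_mul, lap_C_mul, lap_rad_mul (isHomogeneous_Z y k).1, h1, h2, h3]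
      have e1 : 2 * gam n (k + 1) = bet n (k + 1) * (4 * k + 2 * n) := by
        unfold gam bet
        push_cast
        have g2 : (n : ℝ) + 2 * (k + 1) - 4 ≠ 0 := by linarith
        have g3 : (n : ℝ) + 2 * (k + 1) - 2 ≠ 0 := by linarith
        field_simp
        ring
      have e2 : 2 * (C (gam n (k + 1)) * Z y k) =
          C (bet n (k + 1)) * (C (4 * k + 2 * n : ℝ) * Z y k) := by
        rw [← mul_assoc, ← mul_assoc, ← map_mul, ← e1, map_mul, map_ofNat]
      rw [mul_zero, zero_add, mul_zero, zero_add, e2, sub_self]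
    refine ⟨h2, hlap, h4, ?_⟩
    change dir y (lin y * Z y (k + 2) - C (bet n (k + 2)) * (rad n * Z y (k + 1))) = _
    rw [dir_sub, dir_lin_mul hy, dir_C_mul, dir_rad_mul, h4, h3]
    have e3 : Z y (k + 2) = lin y * Z y (k + 1) - C (bet n (k + 1)) * (rad n * Z y k) := rfl
    have e4 : gam n (k + 3) = 1 + gam n (k + 2) - 2 * bet n (k + 2) := by
      unfold gam bet
      push_cast
      have g2 : (n : ℝ) + 2 * k + 2 ≠ 0 := by linarith
      have g3 : (n : ℝ) + 2 * k ≠ 0 := by linarith
      rw [show (n : ℝ) + 2 * (k + 3) - 4 = n + 2 * k + 2 by ring,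
        show (n : ℝ) + 2 * (k + 2) - 4 = n + 2 * k by ring,
        show (n : ℝ) + 2 * (k + 2) - 2 = n + 2 * k + 2 by ring]
      field_simp
      ring
    have e5 : gam n (k + 2) * bet n (k + 1) =
        2 * bet n (k + 2) * bet n (k + 1) + bet n (k + 2) * gam n (k + 1) := by
      unfold gam bet
      push_cast
      have g2 : (n : ℝ) + 2 * (k + 2) - 4 ≠ 0 := by linarith
      have g3 : (n : ℝ) + 2 * (k + 1) - 4 ≠ 0 := by linarith
      have g4 : (n : ℝ) + 2 * (k + 2) - 2 ≠ 0 := by linarith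
      have g5 : (n : ℝ) + 2 * (k + 1) - 2 ≠ 0 := by linarith
      field_simp
      ring
    have e5' : (C (gam n (k + 2)) * C (bet n (k + 1)) : MvPolynomial (Fin n) ℝ) =
        2 * C (bet n (k + 2)) * C (bet n (k + 1)) + C (bet n (k + 2)) * C (gam n (k + 1)) := by
      rw [← map_mul, e5, map_add, map_mul, map_mul, map_mul, map_ofNat]
    have e6 : lin y * Z y (k + 1) = Z y (k + 2) + C (bet n (k + 1)) * (rad n * Z y k) := by
      rw [e3]
      ring
    change _ = C (gam n (k + 3)) * Z y (k + 2)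
    rw [e4, map_sub, map_add, map_one, map_mul, map_ofNat]
    linear_combination (C (gam n (k + 2)) - 2 * C (bet n (k + 2))) * e6 + rad n * Z y k * e5'

end Fermat.Agent.Cor.Leech
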